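import Fermat.Agent.BadRed.AtP.UpGalois

/-!
# From level `p N` to a multiple level `p M`

The inclusion of function fields commutes with the involution at `p`, the norms to the levels prime
to `p`, and the Galois action.
-/

set_option autoImplicit false
set_option linter.unusedSectionVars false

noncomputable section

open ModularCurve AlgebraicCurve IntermediateField

namespace FermatAgent.BadRed.AtP

open FermatAgent.ModFun FermatAgent.ES FermatAgent.MazurPrinciple
open FermatAgent.ModCurveTorsion (galN coe_galN_smul)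

local notation "ℚbar" => AlgebraicClosure ℚ
local notation "𝐅" N:max => laurentBaseChange ℚbar (modularFunctionFieldFull N)

variable {p : ℕ} [hp : Fact p.Prime] {N M : ℕ} [NeZero N] [NeZero M] [NeZero (p * N)]
  [NeZero (p * M)] (hN : p.Coprime N) (hM : p.Coprime M) (h : N ∣ M)

include h in
theorem full_le : modularFunctionFieldFull (p * N) ≤ modularFunctionFieldFull (p * M) :=
  full_degeneracy_le (mul_dvd_mul_left p h)

variable (K : Type*) [Field K] [Algebra ℚ K]

/-- The inclusion of level `p N` in level `p M`. -/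
def upLevel : laurentBaseChange K (modularFunctionFieldFull (p * N)) →ₐ[K]
    laurentBaseChange K (modularFunctionFieldFull (p * M)) :=
  IntermediateField.inclusion (laurentBaseChange_le K (full_le h))

/-- The inclusion of level `N` in level `M`. -/
def upBase : laurentBaseChange K (modularFunctionFieldFull N) →ₐ[K]
    laurentBaseChange K (modularFunctionFieldFull M) :=
  IntermediateField.inclusion (laurentBaseChange_le K (full_degeneracy_le h))

theorem coe_upLevel (x : laurentBaseChange K (modularFunctionFieldFull (p * N))) :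
    (upLevel (p := p) h K x : LaurentSeries K) = (x : LaurentSeries K) :=
  IntermediateField.coe_inclusion _ x

theorem coe_upBase (x : laurentBaseChange K (modularFunctionFieldFull N)) :
    (upBase h K x : LaurentSeries K) = (x : LaurentSeries K) :=
  IntermediateField.coe_inclusion _ x

include hN hM h in
/-- The involutions agree on functions of level `p N`. -/
theorem coe_atkinLehner_upLevel (y : modularFunctionFieldFull (p * N)) :
    (atkinLehner hM ⟨(y : LaurentSeries ℚ), full_le h y.2⟩ : LaurentSeries ℚ) =
      (atkinLehner hN y : LaurentSeries ℚ) := by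
  suffices ∀ (x : LaurentSeries ℚ), x ∈ IntermediateField.adjoin ℚ
      (ModularCurve.divisorExpansions (p * N)) → ∀ (hx : x ∈ modularFunctionFieldFull (p * N)),
      (atkinLehner hM ⟨x, full_le h hx⟩ : LaurentSeries ℚ) =
        (atkinLehner hN ⟨x, hx⟩ : LaurentSeries ℚ) from this y.1 y.2 y.2
  intro x hx
  induction hx using IntermediateField.adjoin_induction with
  | mem x hx =>
    intro hx'
    obtain ⟨d, hne, hd, rfl⟩ := hx
    by_cases hpd : p ∣ d
    · obtain ⟨e, rfl⟩ := hpd
      have : NeZero e := ⟨fun he => hne.out (by rw [he, mul_zero])⟩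
      have he : e ∣ N := Nat.dvd_of_mul_dvd_mul_left hp.out.pos hd
      exact ((atkinLehner_qExpand hM (he.trans h)).2).trans (atkinLehner_qExpand hN he).2.symm
    · have he : d ∣ N := ((hp.out.coprime_iff_not_dvd.mpr hpd).symm).dvd_of_dvd_mul_left hd
      exact ((atkinLehner_qExpand hM (he.trans h)).1).trans (atkinLehner_qExpand hN he).1.symm
  | algebraMap c =>
    intro hx'
    rw [show (⟨algebraMap ℚ (LaurentSeries ℚ) c, full_le h hx'⟩ :
        modularFunctionFieldFull (p * M)) = (c : modularFunctionFieldFull (p * M)) from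
        Subtype.ext (by simp),
      show (⟨algebraMap ℚ (LaurentSeries ℚ) c, hx'⟩ : modularFunctionFieldFull (p * N))
      = (c : modularFunctionFieldFull (p * N)) from Subtype.ext (by simp), map_ratCast, map_ratCast,
      SubfieldClass.coe_ratCast, SubfieldClass.coe_ratCast]
  | add u v hu hv ihu ihv =>
    intro hx'
    rw [show (⟨u + v, full_le h hx'⟩ : modularFunctionFieldFull (p * M)) =
        ⟨u, full_le h hu⟩ + ⟨v, full_le h hv⟩ from rfl,
      show (⟨u + v, hx'⟩ : modularFunctionFieldFull (p * N)) = ⟨u, hu⟩ + ⟨v, hv⟩ from rfl,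
      map_add, map_add, AddMemClass.coe_add, AddMemClass.coe_add, ihu hu, ihv hv]
  | inv u hu ihu =>
    intro hx'
    rw [show (⟨u⁻¹, full_le h hx'⟩ : modularFunctionFieldFull (p * M))
        = (⟨u, full_le h hu⟩ : modularFunctionFieldFull (p * M))⁻¹ from rfl,
      show (⟨u⁻¹, hx'⟩ : modularFunctionFieldFull (p * N))
      = (⟨u, hu⟩ : modularFunctionFieldFull (p * N))⁻¹ from rfl, map_inv₀, map_inv₀]
    exact congrArg (·⁻¹) (ihu hu)
  | mul u v hu hv ihu ihv =>
    intro hx'
    rw [show (⟨u * v, full_le h hx'⟩ : modularFunctionFieldFull (p * M)) =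
        ⟨u, full_le h hu⟩ * ⟨v, full_le h hv⟩ from rfl,
      show (⟨u * v, hx'⟩ : modularFunctionFieldFull (p * N)) = ⟨u, hu⟩ * ⟨v, hv⟩ from rfl,
      map_mul, map_mul, MulMemClass.coe_mul, MulMemClass.coe_mul, ihu hu, ihv hv]

include hN hM h in
/-- The involutions commute with the inclusion. -/
theorem atkinLehnerBar_upLevel (z : laurentBaseChange K (modularFunctionFieldFull (p * N))) :
    atkinLehnerBar hM K (upLevel h K z) = upLevel h K (atkinLehnerBar hN K z) := by
  refine DFunLike.congr_fun (show (atkinLehnerBar hM K).toAlgHom.comp (upLevel (p := p) h K) =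
    (upLevel h K).comp (atkinLehnerBar hN K).toAlgHom from algHom_ext_toBaseChange K fun y => ?_) z
  show atkinLehnerBar hM K (upLevel h K (toBaseChange K _ y)) =
    upLevel h K (atkinLehnerBar hN K (toBaseChange K _ y))
  have e : upLevel h K (toBaseChange K _ y) =
      toBaseChange K _ ⟨(y : LaurentSeries ℚ), full_le h y.2⟩ :=
    Subtype.ext (by rw [coe_upLevel, coe_toBaseChange, coe_toBaseChange])
  refine Subtype.ext ?_
  rw [e, atkinLehnerBar_toBaseChange, atkinLehnerBar_toBaseChange, coe_upLevel, coe_toBaseChange,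
    coe_toBaseChange, coe_atkinLehner_upLevel hN hM h y]

variable {K}

include hN hM h in
/-- Norms commute with the inclusions. -/
theorem normAlong_upLevel {ζ : Kˣ} (hζ : IsPrimitiveRoot ζ p)
    (z : laurentBaseChange K (modularFunctionFieldFull (p * N))) :
    normAlong (levelIncl p M K) (upLevel h K z) =
      upBase h K (normAlong (levelIncl p N K) z) := by
  refine Subtype.ext (qExpand_injective (R := K) p ?_)
  rw [qExpand_normAlong hM hζ, coe_upBase, qExpand_normAlong hN hζ,
    atkinLehnerBar_upLevel hN hM h, coe_upLevel, coe_upLevel]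

theorem upLevel_galN (σ : ℚbar ≃ₐ[ℚ] ℚbar) (x : 𝐅 (p * N)) :
    upLevel h ℚbar (galN (p * N) σ • x) = galN (p * M) σ • upLevel h ℚbar x := by
  refine Subtype.ext ?_
  rw [coe_upLevel, coe_galN_smul, coe_galN_smul, coe_upLevel]

theorem upLevel_mem_fixedFun {S : IntermediateField ℚ ℚbar} {x : 𝐅 (p * N)}
    (hx : x ∈ fixedFun S (p * N)) : upLevel h ℚbar x ∈ fixedFun S (p * M) := fun σ hσ => by
  rw [← upLevel_galN, hx σ hσ]

theorem upBase_mem_fixedFun {S : IntermediateField ℚ ℚbar} {x : 𝐅 N}
    (hx : x ∈ fixedFun S N) : upBase h ℚbar x ∈ fixedFun S M := fun σ hσ => by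
  refine Subtype.ext ?_
  rw [coe_galN_smul, coe_upBase, ← coe_galN_smul, hx σ hσ]

end FermatAgent.BadRed.AtP
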