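import Fermat.Agent.BadRed.AtP.AuxLevel
import Fermat.Agent.BadRed.Carayol.Assembly.Push

/-!
# Torsion classes killed by both push forwards, as functions

Such a class gives a function whose two norms are constants times `P`-th powers; a `P`-th root at a
multiple level of the twisted ratio of the function bounds the twisted class.
-/

set_option autoImplicit false
set_option linter.unusedSectionVars false

noncomputable section

open ModularCurve AlgebraicCurve IntermediateField

namespace FermatAgent.BadRed.AtP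

open FermatAgent.ModFun FermatAgent.ES FermatAgent.MazurPrinciple
open FermatAgent.Curve (divisorOf IsFunctionField1)
open FermatAgent.BadRed.Carayol (pushDiv normAlongHom pushPic0 norm_divisorOf_of_pushPic0
  semilinear_pushPic0)
open FermatAgent.ModCurveTorsion (galN coe_galN_smul exists_fixing_element)

local notation "ℚbar" => AlgebraicClosure ℚ
local notation "GQ" => AlgebraicClosure ℚ ≃ₐ[ℚ] AlgebraicClosure ℚ
local notation "𝐅" N:max => laurentBaseChange ℚbar (modularFunctionFieldFull N)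

attribute [local instance] ModCurveTorsion.isFunctionField1_laurent RT.isGalois_algClosureRat

variable {p : ℕ} [hp : Fact p.Prime] {N : ℕ} [NeZero N] [NeZero (p * N)] (hN : p.Coprime N)

variable (p N) in
/-- Push forward along the first degeneracy map. -/
def pushOne : JZero (p * N) →+ JZero N := pushPic0 (levelIncl p N ℚbar)

/-- The second degeneracy map. -/
def inclTwo : 𝐅 N →ₐ[ℚbar] 𝐅 (p * N) :=
  (atkinLehnerBar hN ℚbar).toAlgHom.comp (levelIncl p N ℚbar)

/-- Push forward along the second degeneracy map. -/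
def pushTwo : JZero (p * N) →+ JZero N := pushPic0 (inclTwo hN)

theorem galois_smul_pushOne (σ : GQ) (x : JZero (p * N)) :
    σ • pushOne p N x = pushOne p N (σ • x) :=
  semilinear_pushPic0 _ (galN N σ) (galN (p * N) σ) (fun y => (levelIncl_galN σ y).symm) x

theorem galois_smul_pushTwo (σ : GQ) (x : JZero (p * N)) :
    σ • pushTwo hN x = pushTwo hN (σ • x) :=
  semilinear_pushPic0 _ (galN N σ) (galN (p * N) σ) (fun y => by
    show galN (p * N) σ • atkinLehnerBar hN ℚbar (levelIncl p N ℚbar y) =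
      atkinLehnerBar hN ℚbar (levelIncl p N ℚbar (galN N σ • y))
    rw [levelIncl_galN, atkinLehnerBar_galN]) x

theorem galois_smul_nsmul (σ : GQ) (n : ℕ) (x : JZero (p * N)) : σ • (n • x) = n • (σ • x) :=
  map_nsmul (DistribSMul.toAddMonoidHom (JZero (p * N)) σ) n x

theorem normAlongHom_eq {K F F' : Type*} [Field K] [Field F] [Field F'] [Algebra K F]
    [Algebra K F'] [IsAlgClosed K] [IsFunctionField1 K F] [IsFunctionField1 K F']
    (φ : F →ₐ[K] F') (x : F') : normAlongHom φ x = normAlong φ x := rfl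

/-- Following a map by an automorphism moves it inside the norm. -/
theorem normAlong_comp_equiv {K F F' : Type*} [Field K] [Field F] [Field F'] [Algebra K F]
    [Algebra K F'] (w : F' ≃ₐ[K] F') (φ : F →ₐ[K] F') (x : F') :
    normAlong (w.toAlgHom.comp φ) (w x) = normAlong φ x := by
  symm
  let iA : Algebra F F' := algebraAlong φ
  let iB : Algebra F F' := algebraAlong (w.toAlgHom.comp φ)
  show @Algebra.norm F F' _ _ iA x = @Algebra.norm F F' _ _ iB (w x)
  exact @Algebra.norm_eq_of_equiv_equiv F F' F F' _ _ _ _ iA iB (RingEquiv.refl F) w.toRingEquiv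
    (RingHom.ext fun y => rfl) x |>.trans (by rfl)

/-- Functions with equal divisors differ by a constant. -/
theorem exists_eq_smul_of_divisorOf_eq {K F : Type*} [Field K] [IsAlgClosed K] [Field F]
    [Algebra K F] [IsFunctionField1 K F] {a b : F} (ha : a ≠ 0) (hb : b ≠ 0)
    (h : divisorOf (K := K) a = divisorOf b) : ∃ c : K, a = c • b := by
  obtain ⟨c, hc⟩ : ∃ c : K, algebraMap K F c = a / b := Curve.forall_ord_eq_zero_iff.mp fun v => by
    rw [Curve.ord_div v ha hb, sub_eq_zero]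
    exact DFunLike.congr_fun h v
  exact ⟨c, by rw [Algebra.smul_def, hc, div_mul_cancel₀ a hb]⟩

theorem pic0_mk_nsmul {K F : Type*} [Field K] [Field F] [Algebra K F]
    [HasPrincipalDivisors K F] (n : ℕ) (D : Divisor.degZero (K := K) (F := F)) :
    Pic0.mk (n • D) = n • Pic0.mk D := rfl

theorem pic0_mk_sub {K F : Type*} [Field K] [Field F] [Algebra K F]
    [HasPrincipalDivisors K F] (D E : Divisor.degZero (K := K) (F := F)) :
    Pic0.mk (D - E) = Pic0.mk D - Pic0.mk E := rfl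

/-- **The function of a class killed by both push forwards.** -/
theorem exists_norms {P : ℕ} {x : JZero (p * N)} (hx : P • x = 0) (h₁ : pushOne p N x = 0)
    (h₂ : pushTwo hN x = 0) :
    ∃ (D : Divisor.degZero (K := ℚbar) (F := 𝐅 (p * N))) (f : 𝐅 (p * N)) (c c' : ℚbar)
      (G G' : 𝐅 N), Pic0.mk D = x ∧ f ≠ 0 ∧
        P • (D : Divisor ℚbar (𝐅 (p * N))) = divisorOf f ∧
        normAlong (levelIncl p N ℚbar) f = c • G ^ P ∧
        normAlong (levelIncl p N ℚbar) (atkinLehnerBar hN ℚbar f) = c' • G' ^ P := by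
  have := FermatAgent.Curve.instHasPrincipalDivisors (K := ℚbar) (F := 𝐅 (p * N))
  have := FermatAgent.Curve.instHasPrincipalDivisors (K := ℚbar) (F := 𝐅 N)
  obtain ⟨D, rfl⟩ := Pic0.mk_surjective x
  rw [← pic0_mk_nsmul] at hx
  obtain ⟨f, hf, hfD⟩ := AddSubgroup.mem_addSubgroupOf.mp ((QuotientAddGroup.eq_zero_iff _).mp hx)
  have hfD' : P • (D : Divisor ℚbar (𝐅 (p * N))) = divisorOf f := Finsupp.ext hfD
  obtain ⟨g, hg, -, hdiv⟩ := norm_divisorOf_of_pushPic0 _ hf hfD' h₁
  obtain ⟨g', hg', -, hdiv'⟩ := norm_divisorOf_of_pushPic0 _ hf hfD' h₂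
  have hpow : ∀ (a : 𝐅 N), divisorOf (K := ℚbar) (a ^ P) = P • divisorOf a := fun a =>
    Finsupp.ext fun v => by
      rw [Finsupp.smul_apply, Curve.divisorOf_apply, Curve.divisorOf_apply, Curve.ord_pow',
        nsmul_eq_mul]
  rw [← hpow] at hdiv hdiv'
  obtain ⟨c, hc⟩ := exists_eq_smul_of_divisorOf_eq (BadRed.Carayol.normAlongHom_ne_zero _ hf)
    (pow_ne_zero _ hg) hdiv
  obtain ⟨c', hc'⟩ := exists_eq_smul_of_divisorOf_eq (BadRed.Carayol.normAlongHom_ne_zero _ hf)
    (pow_ne_zero _ hg') hdiv'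
  refine ⟨D, f, c, c', g, g', rfl, hf, hfD', hc, ?_⟩
  rw [← hc', normAlongHom_eq,
    ← normAlong_comp_equiv (atkinLehnerBar hN ℚbar) (levelIncl p N ℚbar)
      (atkinLehnerBar hN ℚbar f), atkinLehnerBar_atkinLehnerBar]
  rfl

/-- A `P`-th root upstairs of a function with divisor `P D` kills the class up to the degree. -/
theorem finrankAlong_smul_mk_eq_zero {K F F' : Type*} [Field K] [IsAlgClosed K] [Field F]
    [Field F'] [Algebra K F] [Algebra K F'] [IsFunctionField1 K F] [IsFunctionField1 K F']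
    (φ : F →ₐ[K] F') {P : ℕ} (hP : 0 < P) {u : F} (hu : u ≠ 0)
    {D : Divisor.degZero (K := K) (F := F)} (hD : P • (D : Divisor K F) = divisorOf u) {Φ : F'}
    (hΦ : Φ ^ P = φ u) : finrankAlong K φ • Pic0.mk D = 0 := by
  have := FermatAgent.Curve.instHasPrincipalDivisors (K := K) (F := F)
  let := algebraAlong φ
  have hnorm : normAlong φ Φ ^ P = u ^ finrankAlong K φ := by
    show Algebra.norm F Φ ^ P = _
    rw [← map_pow, hΦ]
    exact Algebra.norm_algebraMap u
  have hne : normAlong φ Φ ≠ 0 := fun e => pow_ne_zero (finrankAlong K φ) hu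
    (by rw [← hnorm, e, zero_pow hP.ne'])
  rw [← pic0_mk_nsmul]
  refine (QuotientAddGroup.eq_zero_iff _).mpr (AddSubgroup.mem_addSubgroupOf.mpr
    ⟨normAlong φ Φ, hne, fun v => ?_⟩)
  have h1 := congrArg v.ord hnorm
  have h2 := DFunLike.congr_fun hD v
  rw [Finsupp.smul_apply, nsmul_eq_mul, Curve.divisorOf_apply] at h2
  rw [Curve.ord_pow', Curve.ord_pow', ← h2] at h1
  refine mul_left_cancel₀ (Nat.cast_ne_zero.mpr hP.ne' : (P : ℤ) ≠ 0) ?_
  show (P : ℤ) * ((finrankAlong K φ • (D : Divisor K F)) v) = _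
  rw [h1, Finsupp.smul_apply, nsmul_eq_mul]
  ring

variable {M : ℕ} [NeZero M] [NeZero (p * M)] (hd : N ∣ M)

/-- **From a root to classes.** -/
theorem smul_twisted_eq_zero {P w : ℕ} (hP : 0 < P) (hw : w ≤ P) {σ τ : GQ}
    {D : Divisor.degZero (K := ℚbar) (F := 𝐅 (p * N))} {f : 𝐅 (p * N)} (hf : f ≠ 0)
    (hfD : P • (D : Divisor ℚbar (𝐅 (p * N))) = divisorOf f) (hx : P • Pic0.mk D = 0)
    {Φ : 𝐅 (p * M)}
    (hΦ : Φ ^ P = upLevel hd ℚbar (galN (p * N) σ • (galN (p * N) τ • f / f) *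
      (galN (p * N) τ • f / f) ^ (P - w))) :
    finrankAlong ℚbar (upLevel (p := p) hd ℚbar) •
      (σ • (τ • Pic0.mk D - Pic0.mk D) - w • (τ • Pic0.mk D - Pic0.mk D) : JZero (p * N)) = 0 := by
  have := FermatAgent.Curve.instHasPrincipalDivisors (K := ℚbar) (F := 𝐅 (p * N))
  set y : JZero (p * N) := τ • Pic0.mk D - Pic0.mk D with hy
  have hPy : P • y = 0 := by
    rw [hy, nsmul_sub, hx, sub_zero, ← galois_smul_nsmul, hx]
    exact smul_zero (A := JZero (p * N)) τ
  set t := galN (p * N) τ • f / f with ht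
  have hτf : galN (p * N) τ • f ≠ 0 := (smul_ne_zero_iff_ne _).mpr hf
  have ht0 : t ≠ 0 := div_ne_zero hτf hf
  have hgalDeg : ∀ (g : GQ) (E : Divisor.degZero (K := ℚbar) (F := 𝐅 (p * N))),
      ∃ E' : Divisor.degZero (K := ℚbar) (F := 𝐅 (p * N)),
        (E' : Divisor ℚbar (𝐅 (p * N))) = galN (p * N) g • (E : Divisor ℚbar (𝐅 (p * N))) ∧
          Pic0.mk E' = g • (Pic0.mk E : JZero (p * N)) := fun g E => by
    rw [galois_smul_pic0_def, SemilinearAut.pic0_smul_mk]
    exact ⟨_, rfl, rfl⟩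
  obtain ⟨D₁, hD₁, hD₁'⟩ := hgalDeg τ D
  obtain ⟨D₂, hD₂, hD₂'⟩ := hgalDeg σ (D₁ - D)
  have hdivt : divisorOf (K := ℚbar) t = P • ((D₁ - D : Divisor.degZero (K := ℚbar)
      (F := 𝐅 (p * N))) : Divisor ℚbar (𝐅 (p * N))) := by
    rw [AddSubgroup.coe_sub, smul_sub, hD₁, smul_comm P, hfD, ModCurveTorsion.smul_divisorOf]
    ext v
    rw [Finsupp.sub_apply, Curve.divisorOf_apply, Curve.divisorOf_apply, Curve.divisorOf_apply, ht,
      Curve.ord_div v hτf hf]
  have hu : P • ((D₂ + (P - w) • (D₁ - D) : Divisor.degZero (K := ℚbar) (F := 𝐅 (p * N))) :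
      Divisor ℚbar (𝐅 (p * N))) = divisorOf (galN (p * N) σ • t * t ^ (P - w)) := by
    rw [AddSubgroup.coe_add, AddSubmonoidClass.coe_nsmul, smul_add, hD₂, smul_comm P, ← hdivt,
      smul_comm P (P - w), ← hdivt, ModCurveTorsion.smul_divisorOf]
    ext v
    rw [Finsupp.add_apply, Finsupp.smul_apply, Curve.divisorOf_apply, Curve.divisorOf_apply,
      Curve.divisorOf_apply, nsmul_eq_mul,
      v.ord_mul ((smul_ne_zero_iff_ne _).mpr ht0) (pow_ne_zero _ ht0), Curve.ord_pow']
  have h := finrankAlong_smul_mk_eq_zero (upLevel (p := p) hd ℚbar) hP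
    (mul_ne_zero ((smul_ne_zero_iff_ne _).mpr ht0) (pow_ne_zero _ ht0)) hu hΦ
  rw [Pic0.mk_add, pic0_mk_nsmul, hD₂', pic0_mk_sub, hD₁', ← hy,
    show (P - w) • y = -(w • y) by
      rw [eq_neg_iff_add_eq_zero, ← add_smul, Nat.sub_add_cancel hw, hPy], ← sub_eq_add_neg] at h
  exact h

/-- Enlarging the constants keeps the functions. -/
theorem fixedFun_mono {S T : IntermediateField ℚ ℚbar} (h : S ≤ T) {L : ℕ} [NeZero L] {x : 𝐅 L}
    (hx : x ∈ fixedFun S L) : x ∈ fixedFun T L := fun σ hσ =>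
  hx σ (IntermediateField.fixingSubgroup_antitone h hσ)

/-- A function is defined over a finite extension. -/
theorem exists_fixedFun_of_finite {L : ℕ} [NeZero L] (f : 𝐅 L) :
    ∃ E : IntermediateField ℚ ℚbar, FiniteDimensional ℚ E ∧ f ∈ fixedFun E L := by
  obtain ⟨E, hE, h⟩ := exists_fixing_element L f
  exact ⟨E, hE, h⟩

/-- Finitely many data are defined over a finite normal extension. -/
theorem exists_normal_field (f : 𝐅 (p * N)) (G G' : 𝐅 N) (s : Finset ℚbar) :
    ∃ L : IntermediateField ℚ ℚbar, FiniteDimensional ℚ L ∧ (∀ (σ : GQ), ∀ x ∈ L, σ x ∈ L) ∧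
      f ∈ fixedFun L (p * N) ∧ G ∈ fixedFun L N ∧ G' ∈ fixedFun L N ∧ ∀ c ∈ s, c ∈ L := by
  obtain ⟨E₁, h₁, hf⟩ := exists_fixedFun_of_finite f
  obtain ⟨E₂, h₂, hG⟩ := exists_fixedFun_of_finite G
  obtain ⟨E₃, h₃, hG'⟩ := exists_fixedFun_of_finite G'
  have : FiniteDimensional ℚ (adjoin ℚ (s : Set ℚbar)) :=
    IntermediateField.finiteDimensional_adjoin fun x _ =>
      ((AlgebraicClosure.isAlgebraic ℚ).isAlgebraic x).isIntegral
  set E := E₁ ⊔ E₂ ⊔ E₃ ⊔ adjoin ℚ (s : Set ℚbar)
  set L := IntermediateField.normalClosure ℚ E ℚbar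
  have hEL : E ≤ L := IntermediateField.le_normalClosure E
  refine ⟨L, inferInstance, fun σ x hx => ?_,
    fixedFun_mono ((le_sup_left.trans (le_sup_left.trans le_sup_left)).trans hEL) hf,
    fixedFun_mono ((le_sup_right.trans (le_sup_left.trans le_sup_left)).trans hEL) hG,
    fixedFun_mono ((le_sup_right.trans le_sup_left).trans hEL) hG',
    fun c hc => hEL ((le_sup_right : adjoin ℚ (s : Set ℚbar) ≤ E)
      (IntermediateField.subset_adjoin ℚ _ hc))⟩
  have h := IntermediateField.normal_iff_forall_map_le'.mp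
    (normalClosure.normal ℚ E ℚbar) σ
  exact h ⟨x, hx, rfl⟩

end FermatAgent.BadRed.AtP
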