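import Fermat.Agent.MazurPrinciple.Contraction
import Mathlib.RingTheory.RootsOfUnity.PrimitiveRoots
import Mathlib.FieldTheory.KummerExtension
import Mathlib.FieldTheory.IsAlgClosed.Basic

/-!
# Roots of high order on one component

* a product congruent to `0` modulo a high power of `ϖ` has a factor congruent to `0` modulo a
  proportional power, so roots are unique modulo `ϖ ^ (R / p)` up to roots of unity;
* if `f = κ H ^ P N (N f)` for a contracting operator `N`, then for an automorphism `τ` fixing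
  reductions `τ f / f` is, to every precision, a constant times a `P`-th power.
-/

set_option autoImplicit false

noncomputable section

namespace FermatAgent.BadRed.AtP

open MazurPrinciple Semistable

variable {K : Type*} [Field K] {A : ValuationSubring K} {k : Type*} [Field k] {π : A →+* k}
  {F : Type*} [Field F] [Algebra K F] {Fb : Type*} [Field Fb] [Algebra k Fb]
  {g : GaussRed A π F Fb} {ϖ : A}

/-- Scale an element to a unit. -/
theorem exists_unitAt_smul (g : GaussRed A π F Fb) {x : F} (hx : x ≠ 0) :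
    ∃ c : K, c ≠ 0 ∧ IsUnitAt g (c • x) := by
  obtain ⟨c, hc, hc0⟩ := g.exists_normalize x hx
  exact ⟨c, fun e => (show IsUnitAt g (c • x) from ⟨hc, hc0⟩).ne_zero (by rw [e, zero_smul]),
    hc, hc0⟩

/-- The scalar of an integral multiple of a unit is integral. -/
theorem scalar_mem (hπ : Function.Surjective π) {c : K} {u : F} (hu : IsUnitAt g u)
    (h : c • u ∈ g.integers) : c ∈ A :=
  g.mem_of_smul_mem hπ hu.1 hu.2 h

/-- A product congruent to zero has a factor congruent to zero, to proportional precision. -/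
theorem exists_factor_congMod (hπ : Function.Surjective π) (hϖ0 : (ϖ : K) ≠ 0) {ι : Type*}
    (s : Finset ι) (hs : s.Nonempty) (x : ι → F) {R R' : ℕ}
    (hR : s.card * R' ≤ R) {w : F} (hw : w ∈ g.integers)
    (h : ∏ i ∈ s, x i = (ϖ : K) ^ R • w) :
    ∃ i ∈ s, CongMod g ϖ R' (x i) 0 := by
  classical
  by_cases h0 : ∃ i ∈ s, x i = 0
  · obtain ⟨i, hi, e⟩ := h0
    exact ⟨i, hi, 0, zero_mem _, by rw [e]; simp⟩
  push Not at h0
  choose! c hc hu using fun i (hi : i ∈ s) => exists_unitAt_smul g (h0 i hi)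
  by_contra hne
  push Not at hne
  have hxe : ∀ i ∈ s, x i = (c i)⁻¹ • (c i • x i) := fun i hi => by
    rw [smul_smul, inv_mul_cancel₀ (hc i hi), one_smul]
  have hlt : ∀ i ∈ s, A.valuation ((ϖ : K) ^ R') < A.valuation ((c i)⁻¹) := fun i hi => by
    refine lt_of_not_ge fun hle => hne i hi ?_
    have hmem : (c i)⁻¹ / (ϖ : K) ^ R' ∈ A := by
      rw [← A.valuation_le_one_iff, map_div₀]
      exact (div_le_one₀ (zero_lt_iff.mpr ((map_ne_zero _).mpr (pow_ne_zero _ hϖ0)))).mpr hle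
    refine ⟨((c i)⁻¹ / (ϖ : K) ^ R') • (c i • x i), g.smul_mem hmem (hu i hi).1, ?_⟩
    rw [sub_zero, smul_smul, mul_div_cancel₀ _ (pow_ne_zero _ hϖ0), ← hxe i hi]
  have hU : IsUnitAt g (∏ i ∈ s, c i • x i) :=
    Finset.prod_induction _ (IsUnitAt g) (fun a b ha hb => ha.mul hb) isUnitAt_one hu
  have he : ((∏ i ∈ s, (c i)⁻¹) / (ϖ : K) ^ R) • ∏ i ∈ s, c i • x i = w := by
    have : (∏ i ∈ s, (c i)⁻¹) • ∏ i ∈ s, c i • x i = ∏ i ∈ s, x i := by
      rw [← Finset.prod_smul]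
      exact Finset.prod_congr rfl fun i hi => (hxe i hi).symm
    rw [div_eq_inv_mul, mul_smul, this, h, inv_smul_smul₀ (pow_ne_zero _ hϖ0)]
  have hle : A.valuation (∏ i ∈ s, (c i)⁻¹) ≤ A.valuation ((ϖ : K) ^ R) := by
    have := scalar_mem hπ hU (he ▸ hw)
    rw [← A.valuation_le_one_iff, map_div₀] at this
    exact (div_le_one₀ (zero_lt_iff.mpr ((map_ne_zero _).mpr (pow_ne_zero _ hϖ0)))).mp this
  have hϖ1 : A.valuation (ϖ : K) ≤ 1 := (A.valuation_le_one_iff _).mpr ϖ.2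
  rw [map_prod, map_pow] at hle
  have hprod : A.valuation (ϖ : K) ^ (s.card * R') < ∏ i ∈ s, A.valuation ((c i)⁻¹) := by
    rw [mul_comm, pow_mul, ← Finset.prod_const]
    refine Finset.prod_lt_prod_of_nonempty (fun i _ => ?_) (fun i hi => ?_) hs
    · exact zero_lt_iff.mpr (pow_ne_zero _ ((map_ne_zero _).mpr hϖ0))
    · rw [← map_pow]; exact hlt i hi
  exact absurd (hle.trans (pow_le_pow_right_of_le_one' hϖ1 hR)) (not_le.mpr hprod)

/-- Roots are unique modulo a proportional power up to roots of unity. -/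
theorem exists_root_congMod (hπ : Function.Surjective π) (hϖ0 : (ϖ : K) ≠ 0) {p : ℕ}
    (hp : 0 < p) {ζ : K} (hζ : IsPrimitiveRoot ζ p) {T Φ : F} {R R' : ℕ} (hR : p * R' ≤ R)
    (h : CongMod g ϖ R (T ^ p) (Φ ^ p)) :
    ∃ i < p, CongMod g ϖ R' T (ζ ^ i • Φ) := by
  classical
  obtain ⟨w, hw, e⟩ := h
  have hζF := hζ.map_of_injective (algebraMap K F).injective
  have key : ∏ i ∈ Finset.range p, (T - ζ ^ i • Φ) = T ^ p - Φ ^ p := by
    have := congrArg (Polynomial.eval T) (X_pow_sub_C_eq_prod hζF hp (rfl : Φ ^ p = Φ ^ p))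
    simp only [Polynomial.eval_sub, Polynomial.eval_pow, Polynomial.eval_X, Polynomial.eval_prod,
      Polynomial.eval_C] at this
    simp only [Algebra.smul_def, map_pow]
    exact this.symm
  obtain ⟨i, hi, v, hv, ev⟩ := exists_factor_congMod hπ hϖ0 (Finset.range p)
    (Finset.nonempty_range_iff.mpr hp.ne') (fun i => T - ζ ^ i • Φ)
    (R' := R')
    (by rwa [Finset.card_range]) hw (key.trans e)
  exact ⟨i, Finset.mem_range.mp hi, v, hv, by rw [← ev, sub_zero]⟩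

/-- The constant of a fixed point equation can be absorbed, and the argument scaled to a unit. -/
theorem exists_normalised_eqn [IsAlgClosed K] (hπ : Function.Surjective π) {E : Subfield F}
    {p : ℕ} (C : ContractOp g E E ϖ p) {P : ℕ} (hP : 0 < P) {f H : F} {κ : K} (hf : f ≠ 0)
    (hH : H ≠ 0) (hid : f = κ • (H ^ P * C.N (C.N f))) :
    ∃ (α ρ : K), α ≠ 0 ∧ IsUnitAt g (α • f) ∧ IsUnitAt g (ρ • H) ∧
      α • f = (ρ • H) ^ P * C.N (C.N (α • f)) := by
  obtain ⟨α, hα, hu⟩ := exists_unitAt_smul g hf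
  obtain ⟨γ, hγ, hγu⟩ := exists_unitAt_smul g hH
  have hκ : κ ≠ 0 := fun e => hf (by rw [hid, e, zero_smul])
  have hN : C.N (C.N (α • f)) = α ^ (p * p) • C.N (C.N f) := by
    simp only [Algebra.smul_def, map_mul, C.const, ← pow_mul]
  obtain ⟨ρ, hρ⟩ := IsAlgClosed.exists_pow_nat_eq (α * κ * (α ^ (p * p))⁻¹) hP
  have he : α • f = (ρ • H) ^ P * C.N (C.N (α • f)) := by
    conv_lhs => rw [hid]
    rw [hN, smul_pow, hρ, smul_smul, smul_mul_smul_comm, mul_assoc,
      inv_mul_cancel₀ (pow_ne_zero _ hα), mul_one]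
  refine ⟨α, ρ, hα, hu, ?_, he⟩
  have hu' : IsUnitAt g ((γ • H) ^ P * C.N (C.N (α • f))) :=
    (hγu.pow P).mul (C.isUnitAt _ (C.isUnitAt _ hu))
  have e2 : (ρ / γ) ^ P • ((γ • H) ^ P * C.N (C.N (α • f))) = α • f := by
    rw [← smul_mul_assoc, ← smul_pow, smul_smul, div_mul_cancel₀ _ hγ, ← he]
  have h1 : (ρ / γ) ^ P ∈ A := scalar_mem hπ hu' (by rw [e2]; exact hu.1)
  have hρA : ρ / γ ∈ A := by
    rw [← A.valuation_le_one_iff] at h1 ⊢
    rw [map_pow] at h1
    exact (pow_le_one_iff hP.ne').mp h1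
  have hπ0 : π ⟨ρ / γ, hρA⟩ ≠ 0 := fun h0 => hu.2 (by
    rw [g.red_congr e2.symm hu.1, g.red_smul h1 hu'.1,
      show (⟨(ρ / γ) ^ P, h1⟩ : A) = ⟨ρ / γ, hρA⟩ ^ P from rfl, map_pow, h0, zero_pow hP.ne',
      zero_smul])
  rw [show ρ • H = algebraMap K F (ρ / γ) * (γ • H) by
    rw [← Algebra.smul_def, smul_smul, div_mul_cancel₀ _ hγ]]
  exact IsUnitAt.mul ⟨g.algebraMap_mem ⟨_, hρA⟩, by
    rw [g.red_algebraMap ⟨_, hρA⟩]; simpa using hπ0⟩ hγu

/-- An automorphism fixing reductions. -/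
def FixesRed (g : GaussRed A π F Fb) (τ : F ≃+* F) : Prop :=
  ∀ x (h : x ∈ g.integers), ∃ h' : τ x ∈ g.integers, g.red ⟨τ x, h'⟩ = g.red ⟨x, h⟩

theorem FixesRed.isUnitAt {τ : F ≃+* F} (hτ : FixesRed g τ) {x : F} (hx : IsUnitAt g x) :
    IsUnitAt g (τ x) := by
  obtain ⟨h', e⟩ := hτ x hx.1
  exact ⟨h', e ▸ hx.2⟩

/-- Quotients of `τ f` by `f` are `P`-th powers to every precision. -/
theorem exists_ratio_root (hπ : Function.Surjective π) {E : Subfield F} {p : ℕ}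
    (hdiv : ∀ x ∈ E, ∀ h : x ∈ g.integers, g.red ⟨x, h⟩ = 0 → CongMod g ϖ 1 x 0)
    (C : ContractOp g E E ϖ p) {τ : F ≃+* F} (hτ : FixesRed g τ)
    (hτE : ∀ x ∈ E, τ x ∈ E) (hτN : ∀ x, C.N (τ x) = τ (C.N x)) {P : ℕ} {f H : F}
    (hfE : f ∈ E) (hHE : H ∈ E) (hf : IsUnitAt g f) (hH : IsUnitAt g H)
    (hid : f = H ^ P * C.N (C.N f)) (R : ℕ) :
    ∃ T ∈ E, IsUnitAt g T ∧ CongMod g ϖ R (τ f / f) (T ^ P) := by
  set t := τ f / f with ht
  set S := τ H / H with hS
  have htE : t ∈ E := E.div_mem (hτE f hfE) hfE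
  have hSE : S ∈ E := E.div_mem (hτE H hHE) hHE
  have htu : IsUnitAt g t := by rw [ht, div_eq_mul_inv]; exact (hτ.isUnitAt hf).mul (hf.inv hπ)
  have hSu : IsUnitAt g S := by rw [hS, div_eq_mul_inv]; exact (hτ.isUnitAt hH).mul (hH.inv hπ)
  have hdivide : ∀ a b : F, b ≠ 0 → C.N (a / b) = C.N a / C.N b := fun a b hb => by
    rw [eq_div_iff, ← map_mul, div_mul_cancel₀ _ hb]
    intro e
    have := congrArg (fun y => y * C.N b⁻¹) e
    simp only [← map_mul, mul_inv_cancel₀ hb, map_one, zero_mul] at this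
    exact one_ne_zero this
  have hidt : t = S ^ P * C.N (C.N t) := by
    have hNf : C.N f ≠ 0 := (C.isUnitAt _ hf).ne_zero
    rw [ht, hS, hdivide _ _ hf.ne_zero, hdivide _ _ hNf, hτN, hτN, div_pow, div_mul_div_comm,
      ← hid, ← map_pow, ← map_mul, ← hid]
  have key : ∀ m, ∃ T ∈ E, IsUnitAt g T ∧ t = T ^ P * C.N^[2 * m] t := by
    intro m
    induction m with
    | zero => exact ⟨1, E.one_mem, isUnitAt_one, by simp⟩
    | succ m ih =>
      obtain ⟨T, hTE, hTu, e⟩ := ih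
      refine ⟨T * C.N^[2 * m] S, E.mul_mem hTE (C.mem_E_iterate hSE _),
        hTu.mul (C.isUnitAt_iterate hSu _), ?_⟩
      conv_lhs => rw [e, hidt]
      rw [C.iterate_mul, C.iterate_pow, show C.N (C.N t) = C.N^[2] t from rfl,
        ← Function.iterate_add_apply, show 2 * m + 2 = 2 * (m + 1) by ring, mul_pow, mul_assoc]
  obtain ⟨T, hTE, hTu, e⟩ := key R
  obtain ⟨hτf, hred⟩ := hτ f hf.1
  have h1 : CongMod g ϖ 1 t 1 := by
    obtain ⟨hi, er⟩ := g.inv_mem hπ hf.1 hf.2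
    have h0 : g.red ⟨t - 1, sub_mem htu.1 (one_mem _)⟩ = 0 := by
      rw [show (⟨t - 1, sub_mem htu.1 (one_mem _)⟩ : g.integers) = ⟨τ f, hτf⟩ * ⟨f⁻¹, hi⟩ - 1 from
        Subtype.ext (by simp [ht, div_eq_mul_inv]), map_sub, map_mul, hred, er,
        mul_inv_cancel₀ hf.2, map_one, sub_self]
    obtain ⟨w, hw, ew⟩ := hdiv _ (E.sub_mem htE E.one_mem) _ h0
    exact ⟨w, hw, by rw [← ew, sub_zero]⟩
  have h2 := CongMod.mul_left (z := T ^ P) (hTu.pow P).1
    ((C.step_iterate htu h1 (2 * R)).mono (show R ≤ 2 * R + 1 by omega))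
  rw [← e, mul_one] at h2
  exact ⟨T, hTE, hTu, h2⟩

end FermatAgent.BadRed.AtP
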