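import Fermat.Agent.BadRed.AtP.GlobalPow

/-!
# The action on the invariants at the nodes

If `t` has approximate `p ^ m`-th roots on both components and `τ` acts on the invariants at the
nodes by `w`, then `τ t * t ^ (p ^ m - w)` is a `p ^ m`-th power.
-/

set_option autoImplicit false
set_option linter.unusedSectionVars false

noncomputable section

open AlgebraicCurve WithZero

namespace FermatAgent.BadRed.AtP

open MazurPrinciple Semistable FermatAgent.Curve FermatAgent.Curve.RR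

variable {K : Type*} [Field K] [IsAlgClosed K] {A : ValuationSubring K} {k : Type*}
    [Field k] [IsAlgClosed k] {π : A →+* k} {F F₁ F₂ : Type*} [Field F] [Field F₁] [Field F₂]
    [Algebra K F] [Algebra k F₁] [Algebra k F₂] [IsFunctionField1 K F] [IsFunctionField1 k F₁]
    [IsFunctionField1 k F₂] [RRSetting K F] [RRSetting k F₁] [RRSetting k F₂] [Infinite k]
variable {W : Type*} [CommRing W] [IsDomain W] [IsDiscreteValuationRing W] {ϖW : W}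
  [IsAdicComplete (Ideal.span {ϖW}) W]
variable {d : NodalDatum A π F F₁ F₂} {E : Subfield F} {ϖ : A} {p : ℕ} [CharP k p]

/-- Congruent elements have congruent powers. -/
theorem congMod_pow {Fb : Type*} [Field Fb] [Algebra k Fb] {g : GaussRed A π F Fb} {R : ℕ}
    {x y : F} (hx : x ∈ g.integers) (hy : y ∈ g.integers) (h : CongMod g ϖ R x y) :
    ∀ n : ℕ, CongMod g ϖ R (x ^ n) (y ^ n) := by
  intro n
  induction n with
  | zero => simpa using CongMod.refl (g := g) (ϖ := ϖ) R (1 : F)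
  | succ n ih =>
    rw [pow_succ, pow_succ]
    refine (h.mul_left (pow_mem hx n)).trans ?_
    rw [mul_comm _ y, mul_comm _ y]
    exact ih.mul_left hy

/-- **The twisted product is a `p ^ m`-th power.** -/
theorem exists_rootPow_twist (G : Ground d E ϖ ϖW p) {m : ℕ} (z : SeenRoot G (p ^ m))
    (τ : Twist d E ϖ) {w : ℕ} (hw : w ≤ p ^ m)
    (hτν : ∀ (i : d.C.ι) (R c : ℕ) (r : Ann ϖW)
      (T₁ : (E.toSubring ⊓ d.g₁.integers : Subring F))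
      (T₂ : (E.toSubring ⊓ d.g₂.integers : Subring F)),
      Ann.toX ϖW R r = (G.node i).end₁ R T₁ →
      Ann.toY ϖW R r = HahnSeries.C (modPowMk ϖW R (z.ζW ^ c)) * (G.node i).end₂ R T₂ →
      ∃ r', Ann.toX ϖW R r' =
          (G.node i).end₁ R ⟨τ.τ T₁, τ.mem_E _ T₁.2.1, (τ.mem₁ _ T₁.2.2).1⟩ ∧
        Ann.toY ϖW R r' = HahnSeries.C (modPowMk ϖW R (z.ζW ^ (w * c))) *
          (G.node i).end₂ R ⟨τ.τ T₂, τ.mem_E _ T₂.2.1, (τ.mem₂ _ T₂.2.2).1⟩)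
    {t : F} (htE : t ∈ E) (ht : IsDiscUnit d t) {n : ℕ}
    (htn : t ∈ riemannRochSpace ((p ^ m * n) • d.D))
    (hdiv : ∀ P : Place K F, ((p ^ m : ℕ) : ℤ) ∣ P.ord t)
    (hroots : ∀ (Φ : F) (j : ℕ), j ≤ m → Φ ^ p ^ j = τ.τ t * t ^ (p ^ m - w) → Φ ∈ E)
    (happ : ∀ R : ℕ, ∃ (T₁ : (E.toSubring ⊓ d.g₁.integers : Subring F))
      (T₂ : (E.toSubring ⊓ d.g₂.integers : Subring F)),
      d.g₁.red ⟨T₁, T₁.2.2⟩ ≠ 0 ∧ d.g₂.red ⟨T₂, T₂.2.2⟩ ≠ 0 ∧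
      CongMod d.g₁ ϖ R ((T₁ : F) ^ p ^ m) t ∧ CongMod d.g₂ ϖ R ((T₂ : F) ^ p ^ m) t) :
    ∃ Φ : F, Φ ^ p ^ m = τ.τ t * t ^ (p ^ m - w) := by
  obtain ⟨a₁, ha₁⟩ := τ.mem₁ t ht.1.1
  obtain ⟨a₂, ha₂⟩ := τ.mem₂ t ht.1.2
  have hτt : IsDiscUnit d (τ.τ t) := ⟨⟨a₁, a₂⟩, ha₁ ht.2.1, ha₂ ht.2.2⟩
  refine exists_rootPow_of_components G m z (n := n * (1 + ((p ^ m) - w)))
    (E.mul_mem (τ.mem_E t htE) (pow_mem htE _)) (hτt.mul (ht.pow _)) ?_ ?_ hroots ?_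
  · have h1 := d.pow_mem_sub (Z := 0) (by rwa [NodalDatum.sub, sub_zero]) ((p ^ m) - w) (f := t)
      (n := (p ^ m) * n)
    rw [smul_zero, NodalDatum.sub, sub_zero] at h1
    have := mul_mem_rrSpace (τ.mem_rr _ t htn) h1
    rwa [← add_smul, show (p ^ m) * n + ((p ^ m) - w) * ((p ^ m) * n) = (p ^ m) * (n * (1 + ((p ^ m) - w))) by ring] at this
  · intro P
    obtain ⟨P', hP'⟩ := τ.place P
    rw [P.ord_mul hτt.ne_zero (pow_ne_zero _ ht.ne_zero), hP', Curve.ord_pow']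
    exact dvd_add (hdiv P') ((hdiv P).mul_left _)
  refine GluedRoots.of_congr fun R => ?_
  set R' := R + G.v + 1 with hR'
  obtain ⟨T₁, T₂, h0₁, h0₂, e₁, e₂⟩ := happ (R' + m * G.v)
  have hr := fun i => exists_invariantPow (G.node i) G.irreducible G.unif_ne_zero G.smul_mem
    G.prime G.p_eqW z.primW htE ht.1 htn hdiv (show G.v ≤ R' by omega) (show R' ≠ 0 by omega)
    le_rfl T₁ T₂ h0₁ h0₂ e₁ e₂
  refine ⟨R', by omega, ⟨τ.τ T₁, τ.mem_E _ T₁.2.1, (τ.mem₁ _ T₁.2.2).1⟩ * T₁ ^ ((p ^ m) - w),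
    ⟨τ.τ T₂, τ.mem_E _ T₂.2.1, (τ.mem₂ _ T₂.2.2).1⟩ * T₂ ^ ((p ^ m) - w), ?_, ?_, fun i => ?_⟩
  · obtain ⟨x, hx, ex⟩ := e₁.mono (show R ≤ R' + m * G.v by omega)
    obtain ⟨c, hc, hc'⟩ := τ.congr_pow ex
    have h1 : CongMod d.g₁ ϖ R (τ.τ T₁ ^ (p ^ m)) (τ.τ t) :=
      ⟨c • τ.τ x, d.g₁.smul_mem hc (τ.mem₁ x hx).1, by rw [← hc', map_sub, map_pow]⟩
    have h2 := congMod_pow (pow_mem T₁.2.2 (p ^ m)) ht.1.1 ⟨x, hx, ex⟩ ((p ^ m) - w)
    simp only [Subring.coe_mul, SubmonoidClass.coe_pow]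
    rw [mul_pow, ← pow_mul, mul_comm ((p ^ m) - w), pow_mul]
    refine (h2.mul_left (pow_mem (τ.mem₁ _ T₁.2.2).1 (p ^ m))).trans ?_
    rw [mul_comm _ (t ^ ((p ^ m) - w)), mul_comm (τ.τ t)]
    exact h1.mul_left (pow_mem ht.1.1 _)
  · obtain ⟨x, hx, ex⟩ := e₂.mono (show R ≤ R' + m * G.v by omega)
    obtain ⟨c, hc, hc'⟩ := τ.congr_pow ex
    have h1 : CongMod d.g₂ ϖ R (τ.τ T₂ ^ (p ^ m)) (τ.τ t) :=
      ⟨c • τ.τ x, d.g₂.smul_mem hc (τ.mem₂ x hx).1, by rw [← hc', map_sub, map_pow]⟩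
    have h2 := congMod_pow (pow_mem T₂.2.2 (p ^ m)) ht.1.2 ⟨x, hx, ex⟩ ((p ^ m) - w)
    simp only [Subring.coe_mul, SubmonoidClass.coe_pow]
    rw [mul_pow, ← pow_mul, mul_comm ((p ^ m) - w), pow_mul]
    refine (h2.mul_left (pow_mem (τ.mem₂ _ T₂.2.2).1 (p ^ m))).trans ?_
    rw [mul_comm _ (t ^ ((p ^ m) - w)), mul_comm (τ.τ t)]
    exact h1.mul_left (pow_mem ht.1.2 _)
  obtain ⟨r, c, hX, hY⟩ := hr i
  obtain ⟨r', hX', hY'⟩ := hτν i R' c r T₁ T₂ hX hY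
  refine ⟨r' * r ^ ((p ^ m) - w), ?_, ?_⟩
  · rw [map_mul, map_pow, hX', hX, ← map_pow, ← map_mul]
  · rw [map_mul, map_pow, hY', hY, mul_pow, mul_mul_mul_comm, ← map_pow, ← map_mul, ← map_pow,
      ← map_mul, ← map_pow, ← map_mul, ← pow_mul, ← pow_add,
      show w * c + c * ((p ^ m) - w) = (p ^ m) * c by
        rw [Nat.mul_comm c, ← Nat.add_mul, Nat.add_sub_cancel' hw],
      pow_mul, z.primW.pow_eq_one, one_pow, map_one, map_one, one_mul]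

end FermatAgent.BadRed.AtP
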