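import Fermat.Agent.BadRed.AtP.Congr
import Fermat.Agent.BadRed.AtP.TwistPow

/-!
# Fixed points of `κ H ^ P N (N ·)` and two inertia automorphisms

If `f` satisfies the fixed point equation on both components, with normalising constants in the
field of definition, then `σ t * t ^ (P - w)` is a `P`-th power for `t = τ f / f`.
-/

set_option autoImplicit false
set_option linter.unusedSectionVars false

noncomputable section

open AlgebraicCurve WithZero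

namespace FermatAgent.BadRed.AtP

open MazurPrinciple Semistable FermatAgent.Curve FermatAgent.Curve.RR

variable {K : Type*} [Field K] [IsAlgClosed K] {A : ValuationSubring K} {k : Type*}
    [Field k] [IsAlgClosed k] {π : A →+* k} {F F₁ F₂ : Type*} [Field F] [Field F₁] [Field F₂]
    [Algebra K F] [Algebra k F₁] [Algebra k F₂] [IsFunctionField1 K F] [IsFunctionField1 k F₁]
    [IsFunctionField1 k F₂] [RRSetting K F] [RRSetting k F₁] [RRSetting k F₂] [Infinite k]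
variable {W : Type*} [CommRing W] [IsDomain W] [IsDiscreteValuationRing W] {ϖW : W}
  [IsAdicComplete (Ideal.span {ϖW}) W]
variable {d : NodalDatum A π F F₁ F₂} {E : Subfield F} {ϖ : A} {p : ℕ} [CharP k p]

theorem congMod_symm {Fb : Type*} [Field Fb] [Algebra k Fb] {g : GaussRed A π F Fb} {R : ℕ}
    {x y : F} (h : CongMod g ϖ R x y) : CongMod g ϖ R y x := by
  obtain ⟨w, hw, e⟩ := h
  exact ⟨-w, neg_mem hw, by rw [smul_neg, ← e, neg_sub]⟩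

theorem twist_algebraMap (T : Twist d E ϖ) (c : K) :
    T.τ (algebraMap K F c) = algebraMap K F (T.σ c) := by
  rw [Algebra.algebraMap_eq_smul_one, T.map_smul, map_one, ← Algebra.algebraMap_eq_smul_one]

/-- A fixed point equation with constant `1` after scaling by a `P`-th power in the field. -/
structure NormalEqn {Fb : Type*} [Field Fb] [Algebra k Fb] (g : GaussRed A π F Fb)
    (C : ContractOp g E E ϖ p) (P : ℕ) (f : F) where
  η : K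
  η_ne_zero : η ≠ 0
  η_mem : algebraMap K F η ∈ E
  H : F
  H_mem : H ∈ E
  unit : IsUnitAt g (η ^ P • f)
  unit_H : IsUnitAt g H
  eqn : η ^ P • f = H ^ P * C.N (C.N (η ^ P • f))

/-- The ratio `τ f / f` is to every precision a `P`-th power on the component. -/
theorem NormalEqn.exists_root {Fb : Type*} [Field Fb] [Algebra k Fb] {g : GaussRed A π F Fb}
    {C : ContractOp g E E ϖ p} {P : ℕ} {f : F} (D : NormalEqn g C P f)
    (hπ : Function.Surjective π)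
    (hdiv : ∀ x ∈ E, ∀ h : x ∈ g.integers, g.red ⟨x, h⟩ = 0 → CongMod g ϖ 1 x 0)
    (T : Twist d E ϖ) (hTv : ∀ c : K, A.valuation (T.σ c) = A.valuation c)
    (hT : FixesRed g T.τ) (hTN : ∀ x, C.N (T.τ x) = T.τ (C.N x)) (hf : f ∈ E) :
    IsUnitAt g (T.τ f / f) ∧ ∀ R, ∃ S ∈ E, IsUnitAt g S ∧ CongMod g ϖ R (S ^ P) (T.τ f / f) := by
  set r := D.η / T.σ D.η with hr
  have hs0 : T.σ D.η ≠ 0 := by simpa using D.η_ne_zero
  have hrA : A.valuation r = 1 := by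
    rw [hr, map_div₀, hTv, div_self ((_root_.map_ne_zero _).mpr D.η_ne_zero)]
  have hrm : r ∈ A := (A.valuation_le_one_iff r).mp hrA.le
  have hru : IsUnitAt g (algebraMap K F r) := by
    refine ⟨g.algebraMap_mem ⟨r, hrm⟩, ?_⟩
    rw [g.red_algebraMap ⟨r, hrm⟩]
    simpa using (isUnit_iff_pi_ne_zero hπ).mp ((A.valuation_eq_one_iff ⟨r, hrm⟩).mpr hrA)
  have hrE : algebraMap K F r ∈ E := by
    rw [hr, map_div₀, ← twist_algebraMap]
    exact E.div_mem D.η_mem (T.mem_E _ D.η_mem)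
  have hf0 : f ≠ 0 := fun e => D.unit.ne_zero ((congrArg (D.η ^ P • ·) e).trans (smul_zero _))
  have key : T.τ f / f = algebraMap K F r ^ P * (T.τ (D.η ^ P • f) / (D.η ^ P • f)) := by
    rw [T.map_smul, Algebra.smul_def, Algebra.smul_def, map_pow, map_pow, map_pow, hr, map_div₀,
      div_pow]
    have h1 : algebraMap K F D.η ^ P ≠ 0 := pow_ne_zero _ (by simpa using D.η_ne_zero)
    have h2 : algebraMap K F (T.σ D.η) ^ P ≠ 0 := pow_ne_zero _ (by simpa using D.η_ne_zero)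
    field_simp
  have hfE : D.η ^ P • f ∈ E := by
    rw [Algebra.smul_def, map_pow]; exact E.mul_mem (pow_mem D.η_mem P) hf
  constructor
  · rw [key, div_eq_mul_inv]
    exact (hru.pow P).mul ((hT.isUnitAt D.unit).mul (D.unit.inv hπ))
  intro R
  obtain ⟨S, hSE, hS, hc⟩ := exists_ratio_root hπ hdiv C hT T.mem_E hTN hfE D.H_mem D.unit D.unit_H
    D.eqn R
  refine ⟨algebraMap K F r * S, E.mul_mem hrE hSE, hru.mul hS, ?_⟩
  rw [mul_pow, key]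
  exact congMod_symm (CongMod.mul_left (hru.pow P).1 hc)

/-- **Two inertia automorphisms.** -/
theorem exists_rootPow_ratio (G : Ground d E ϖ ϖW p) {m : ℕ} (z : SeenRoot G (p ^ m))
    (hdiv₁ : ∀ x ∈ E, ∀ h : x ∈ d.g₁.integers, d.g₁.red ⟨x, h⟩ = 0 → CongMod d.g₁ ϖ 1 x 0)
    (hdiv₂ : ∀ x ∈ E, ∀ h : x ∈ d.g₂.integers, d.g₂.red ⟨x, h⟩ = 0 → CongMod d.g₂ ϖ 1 x 0)
    (C₁ : ContractOp d.g₁ E E ϖ p) (C₂ : ContractOp d.g₂ E E ϖ p)
    (T : Twist d E ϖ) (hTv : ∀ c : K, A.valuation (T.σ c) = A.valuation c)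
    (hT₁ : FixesRed d.g₁ T.τ) (hT₂ : FixesRed d.g₂ T.τ)
    (hTN₁ : ∀ x, C₁.N (T.τ x) = T.τ (C₁.N x)) (hTN₂ : ∀ x, C₂.N (T.τ x) = T.τ (C₂.N x))
    (σ : Twist d E ϖ) {w : ℕ} (hw : w ≤ p ^ m)
    (hσν : ∀ (i : d.C.ι) (R c : ℕ) (r : Ann ϖW)
      (T₁ : (E.toSubring ⊓ d.g₁.integers : Subring F))
      (T₂ : (E.toSubring ⊓ d.g₂.integers : Subring F)),
      Ann.toX ϖW R r = (G.node i).end₁ R T₁ →
      Ann.toY ϖW R r = HahnSeries.C (modPowMk ϖW R (z.ζW ^ c)) * (G.node i).end₂ R T₂ →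
      ∃ r', Ann.toX ϖW R r' =
          (G.node i).end₁ R ⟨σ.τ T₁, σ.mem_E _ T₁.2.1, (σ.mem₁ _ T₁.2.2).1⟩ ∧
        Ann.toY ϖW R r' = HahnSeries.C (modPowMk ϖW R (z.ζW ^ (w * c))) *
          (G.node i).end₂ R ⟨σ.τ T₂, σ.mem_E _ T₂.2.1, (σ.mem₂ _ T₂.2.2).1⟩)
    (hreg : ∀ t ∈ E, t ≠ 0 → ∃ G' ∈ E, IsDiscUnit d G' ∧
      ∃ n : ℕ, t * G' ^ p ^ m ∈ riemannRochSpace ((p ^ m * n) • d.D))
    {f : F} (hf : f ∈ E) (hfdiv : ∀ v : Place K F, ((p ^ m : ℕ) : ℤ) ∣ v.ord f)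
    (D₁ : NormalEqn d.g₁ C₁ (p ^ m) f) (D₂ : NormalEqn d.g₂ C₂ (p ^ m) f)
    (hroots : ∀ G' ∈ E, ∀ (Φ : F) (j : ℕ), j ≤ m →
      Φ ^ p ^ j = σ.τ (T.τ f / f * G' ^ p ^ m) * (T.τ f / f * G' ^ p ^ m) ^ (p ^ m - w) → Φ ∈ E) :
    ∃ Φ : F, Φ ^ p ^ m = σ.τ (T.τ f / f) * (T.τ f / f) ^ (p ^ m - w) := by
  have hπ := d.residue_surjective
  obtain ⟨hu₁, happ₁⟩ := D₁.exists_root hπ hdiv₁ T hTv hT₁ hTN₁ hf
  obtain ⟨hu₂, happ₂⟩ := D₂.exists_root hπ hdiv₂ T hTv hT₂ hTN₂ hf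
  set t := T.τ f / f with ht
  have htE : t ∈ E := E.div_mem (T.mem_E f hf) hf
  have htu : IsDiscUnit d t := isDiscUnit_iff.mpr ⟨hu₁, hu₂⟩
  have hf0 : f ≠ 0 := fun e => hu₁.ne_zero (by rw [ht, e, map_zero, zero_div])
  obtain ⟨G', hG'E, hG', n, hn⟩ := hreg t htE htu.ne_zero
  obtain ⟨hG₁, hG₂⟩ := isDiscUnit_iff.mp hG'
  have hdiv : ∀ v : Place K F, ((p ^ m : ℕ) : ℤ) ∣ v.ord (t * G' ^ p ^ m) := fun v => by
    obtain ⟨v', hv'⟩ := T.place v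
    rw [v.ord_mul htu.ne_zero (pow_ne_zero _ hG'.ne_zero), ht,
      Curve.ord_div v (by simpa using hf0) hf0, hv', Curve.ord_pow']
    exact dvd_add (dvd_sub (hfdiv v') (hfdiv v)) (dvd_mul_right _ _)
  obtain ⟨Φ, hΦ⟩ := exists_rootPow_twist G z σ hw hσν (t := t * G' ^ p ^ m)
    (E.mul_mem htE (pow_mem hG'E _)) (htu.mul (hG'.pow _)) hn hdiv
    (fun Φ j hj e => hroots G' hG'E Φ j hj e) (fun R => by
      obtain ⟨S₁, hS₁E, hS₁, c₁⟩ := happ₁ R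
      obtain ⟨S₂, hS₂E, hS₂, c₂⟩ := happ₂ R
      refine ⟨⟨S₁ * G', E.mul_mem hS₁E hG'E, mul_mem hS₁.1 hG₁.1⟩,
        ⟨S₂ * G', E.mul_mem hS₂E hG'E, mul_mem hS₂.1 hG₂.1⟩, (hS₁.mul hG₁).2, (hS₂.mul hG₂).2,
        ?_, ?_⟩
      · show CongMod d.g₁ ϖ R ((S₁ * G') ^ p ^ m) _
        rw [mul_pow, mul_comm (S₁ ^ p ^ m), mul_comm t]
        exact CongMod.mul_left (hG₁.pow _).1 c₁
      · show CongMod d.g₂ ϖ R ((S₂ * G') ^ p ^ m) _
        rw [mul_pow, mul_comm (S₂ ^ p ^ m), mul_comm t]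
        exact CongMod.mul_left (hG₂.pow _).1 c₂)
  refine ⟨Φ / (σ.τ G' * G' ^ (p ^ m - w)), ?_⟩
  rw [map_mul, map_pow, mul_pow t, mul_mul_mul_comm, ← pow_mul,
    mul_comm (p ^ m) (p ^ m - w), pow_mul, ← mul_pow] at hΦ
  rw [div_pow, hΦ, mul_div_cancel_right₀]
  exact pow_ne_zero _ (mul_ne_zero (by simpa using hG'.ne_zero) (pow_ne_zero _ hG'.ne_zero))

end FermatAgent.BadRed.AtP
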