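import Fermat.Agent.BadRed.Semistable.EigenSplit
import Fermat.Agent.BadRed.Semistable.Endgame
import Fermat.Agent.LocalP.UnitRoot.Relations
import Fermat.Agent.Mazur.Descent.Structure.Characters
import Mathlib.LinearAlgebra.Semisimple
import Mathlib.RingTheory.TensorProduct.Finite
import Mathlib.RingTheory.Flat.Basic

/-!
# Hecke rings are reduced, and the determinant of their representations
-/

set_option autoImplicit false
set_option linter.unusedSectionVars false
set_option linter.style.haveILetI false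

noncomputable section

open CuspForm Matrix IsLocalRing Polynomial
open scoped TensorProduct

namespace FermatAgent.BadRed.AtP

open FermatAgent.GalRep FermatAgent.LocalP.UnitRoot

local notation "GQ" => AlgebraicClosure ℚ ≃ₐ[ℚ] AlgebraicClosure ℚ

/-- An element of a reduced ring with a faithful integral matrix representation is killed by a
nonzero integral polynomial, squarefree over `ℚ`. -/
theorem exists_squarefree_annihilator {H : Type*} [CommRing H] [IsReduced H] {r : ℕ}
    (ι : H →+* Matrix (Fin r) (Fin r) ℤ) (hι : Function.Injective ι) (t : H) :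
    ∃ P : ℤ[X], Squarefree (P.map (algebraMap ℤ ℚ)) ∧ aeval t P = 0 := by
  classical
  set A : Matrix (Fin r) (Fin r) ℚ := (ι t).map (Int.cast : ℤ → ℚ) with hA
  have hm : Squarefree (minpoly ℚ A) := by
    have h := (Semistable.isSemisimple_of_isReduced ι hι ℚ t).minpoly_squarefree
    rwa [Matrix.minpoly_toLin'] at h
  obtain ⟨c, hc, hcP⟩ := IsLocalization.integerNormalization_spec (nonZeroDivisors ℤ) (minpoly ℚ A)
  set P := IsLocalization.integerNormalization (nonZeroDivisors ℤ) (minpoly ℚ A)
  have hc0 : (c : ℚ) ≠ 0 := Int.cast_ne_zero.mpr (nonZeroDivisors.ne_zero hc)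
  refine ⟨P, ?_, ?_⟩
  · rw [hcP, ← Int.cast_smul_eq_zsmul ℚ, Polynomial.smul_eq_C_mul]
    exact hm.squarefree_of_dvd (Associated.dvd (associated_isUnit_mul_left_iff
      (isUnit_C.mpr hc0.isUnit) |>.mpr (Associated.refl _)))
  · apply hι
    refine Matrix.map_injective (Int.cast_injective (α := ℚ)) ?_
    have h1 : aeval A (P.map (algebraMap ℤ ℚ)) = (ι (aeval t P)).map (Int.cast : ℤ → ℚ) := by
      rw [aeval_map_algebraMap]
      exact aeval_algHom_apply (((Int.castRingHom ℚ).mapMatrix.comp ι).toIntAlgHom) t P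
    show (ι (aeval t P)).map (Int.cast : ℤ → ℚ) = (ι 0).map (Int.cast : ℤ → ℚ)
    rw [← h1, hcP, map_zsmul, minpoly.aeval, smul_zero, map_zero, Matrix.map_zero _ Int.cast_zero]

variable {𝒪 : Type} [CommRing 𝒪] [IsDomain 𝒪] [CharZero 𝒪] {T : Type} [CommRing T] [Algebra 𝒪 T]
  [Module.Finite 𝒪 T] [Module.Free 𝒪 T]

/-- A finite free algebra generated by the image of a reduced matrix algebra is reduced. -/
theorem isReduced_of_adjoin_range {H : Type*} [CommRing H] [IsReduced H] {r : ℕ}
    (ι : H →+* Matrix (Fin r) (Fin r) ℤ) (hι : Function.Injective ι) (π : H →+* T)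
    (hgen : Algebra.adjoin 𝒪 (Set.range π) = ⊤) : IsReduced T := by
  let K := FractionRing 𝒪
  haveI : CharZero K := charZero_of_injective_algebraMap (IsFractionRing.injective 𝒪 K)
  let V := K ⊗[𝒪] T
  have hinj : Function.Injective (Algebra.TensorProduct.includeRight : T →ₐ[𝒪] V) :=
    Algebra.TensorProduct.includeRight_injective (IsFractionRing.injective 𝒪 K)
  let L : T → Module.End K V := fun x => Algebra.lmul K V (Algebra.TensorProduct.includeRight x)
  have hL : ∀ x y, Commute (L x) (L y) := fun x y => (Commute.all _ _).map (Algebra.lmul K V)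
  have hss : ∀ x : T, (L x).IsSemisimple := by
    intro x
    have hx : x ∈ Algebra.adjoin 𝒪 (Set.range π) := hgen ▸ Algebra.mem_top
    induction hx using Algebra.adjoin_induction with
    | mem x hx =>
      obtain ⟨t, rfl⟩ := hx
      obtain ⟨P, hP, hPt⟩ := exists_squarefree_annihilator ι hι t
      refine Module.End.isSemisimple_of_squarefree_aeval_eq_zero
        (p := (P.map (algebraMap ℤ ℚ)).map (algebraMap ℚ K))
        ((PerfectField.separable_iff_squarefree.mpr hP).map.squarefree) ?_
      rw [Polynomial.aeval_def, Polynomial.eval₂_map, Polynomial.eval₂_map,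
        Subsingleton.elim (((algebraMap K (Module.End K V)).comp (algebraMap ℚ K)).comp
          (algebraMap ℤ ℚ)) (algebraMap ℤ (Module.End K V))]
      let f : H →+* Module.End K V := (Algebra.lmul K V).toRingHom.comp
        ((Algebra.TensorProduct.includeRight : T →ₐ[𝒪] V).toRingHom.comp π)
      show Polynomial.eval₂ (algebraMap ℤ (Module.End K V)) (f t) P = 0
      rw [Subsingleton.elim (algebraMap ℤ (Module.End K V)) (f.comp (algebraMap ℤ H)),
        ← Polynomial.hom_eval₂, ← Polynomial.aeval_def, hPt, map_zero]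
    | algebraMap c =>
      have : L (algebraMap 𝒪 T c) = algebraMap K (Module.End K V) (algebraMap 𝒪 K c) := by
        show Algebra.lmul K V (Algebra.TensorProduct.includeRight (algebraMap 𝒪 T c)) = _
        rw [AlgHom.commutes, IsScalarTower.algebraMap_apply 𝒪 K V, AlgHom.commutes]
      rw [this]
      exact Module.End.isSemisimple_of_squarefree_aeval_eq_zero
        (irreducible_X_sub_C (algebraMap 𝒪 K c)).squarefree (by simp)
    | add a b _ _ ha hb =>
      show (L (a + b)).IsSemisimple
      have : L (a + b) = L a + L b := by simp only [L, map_add]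
      rw [this]
      exact Module.End.IsSemisimple.add_of_commute (hL a b) ha hb
    | mul a b _ _ ha hb =>
      show (L (a * b)).IsSemisimple
      have : L (a * b) = L a * L b := by simp only [L, map_mul]
      rw [this]
      exact Module.End.IsSemisimple.mul_of_commute (hL a b) ha hb
  refine ⟨fun x hx => hinj ?_⟩
  obtain ⟨n, hn⟩ := hx
  have h0 : L x = 0 := Module.End.eq_zero_of_isNilpotent_isSemisimple
    ⟨n, by rw [← map_pow, ← map_pow, hn, map_zero, map_zero]⟩ (hss x)
  have h1 := LinearMap.congr_fun h0 1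
  simpa [L] using h1

section Det

variable {p : ℕ} [Fact p.Prime] {N : ℕ} [NeZero N] {S : Finset ℕ}
  (D : HeckeTateData N p (↑S : Set ℕ)) {R : Type} [CommRing R] [IsLocalRing R] [IsNoetherianRing R]
  [IsAdicComplete (maximalIdeal R) R] (hpR : (p : R) ∈ maximalIdeal R)

omit [IsNoetherianRing R] [IsAdicComplete (maximalIdeal R) R] in
include hpR in
theorem isUnit_two (hp2 : p ≠ 2) : IsUnit (2 : R) := by
  by_contra h
  obtain ⟨k, hk⟩ := (Fact.out : p.Prime).odd_of_ne_two hp2
  have h2 : ((2 : R)) ∈ maximalIdeal R := (mem_maximalIdeal _).mpr h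
  refine (maximalIdeal.isMaximal R).ne_top ((Ideal.eq_top_iff_one _).mpr ?_)
  have := Ideal.sub_mem _ hpR (Ideal.mul_mem_right (k : R) _ h2)
  rwa [hk, Nat.cast_add, Nat.cast_mul, Nat.cast_one, Nat.cast_ofNat, add_sub_cancel_left] at this

theorem xMat_sq (σ : GQ) :
    xMat D σ * xMat D σ - xMat D (σ * σ) =
      (2 * cycChar p σ) • (1 : Matrix (Fin D.rank) (Fin D.rank) ℤ_[p]) := by
  have h1 : D.ρ σ * D.ρ σ⁻¹ = 1 := by rw [← map_mul, mul_inv_cancel, map_one]
  have h2 : D.ρ σ⁻¹ * D.ρ σ = 1 := by rw [← map_mul, inv_mul_cancel, map_one]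
  simp only [xMat, _root_.mul_inv_rev, map_mul, add_mul, mul_add, smul_mul_assoc, mul_smul_comm,
    h1, h2, smul_add, smul_smul]
  module

include D hpR in
/-- The determinant is cyclotomic. -/
theorem det_eq_cycChar (hp2 : p ≠ 2) (χ : heckeAlgebra N 2 (↑S : Set ℕ) →+* R) (ρ : GaloisRepAdic R)
    {S₁ : Finset ℕ} (hρ : HasFrobCharpolys χ ρ S₁) (σ : GQ) :
    LinearMap.det (ρ.ρ σ) = padicToRing hpR (cycChar p σ) := by
  obtain ⟨c, hc⟩ := exists_trace_congr D hpR χ ρ frobDense hρ
  refine (isUnit_two hpR hp2).mul_left_cancel (eq_of_forall_sub_mem_pow fun n => ?_)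
  obtain ⟨t, ht⟩ := exists_hecke_approx D frobDense S.finite_toSet σ (n + c)
  set a := (cycChar p σ).appr (n + c) with ha
  have ha' : (p : ℤ_[p]) ^ (n + c) ∣ cycChar p σ - (a : ℤ_[p]) :=
    Ideal.mem_span_singleton.mp (PadicInt.appr_spec _ _)
  have ht2 : ∀ i j, (p : ℤ_[p]) ^ (n + c) ∣
      (xMat D (σ * σ) - hecMat D (t * t - 2 * (a : heckeAlgebra N 2 (↑S : Set ℕ)))) i j := by
    intro i j
    have e : xMat D (σ * σ) - hecMat D (t * t - 2 * (a : heckeAlgebra N 2 (↑S : Set ℕ))) =
        xMat D σ * (xMat D σ - hecMat D t) * 1 + 1 * (xMat D σ - hecMat D t) * hecMat D t -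
          (2 * (cycChar p σ - a)) • 1 := by
      have h := xMat_sq D σ
      have h' : xMat D (σ * σ) =
          xMat D σ * xMat D σ - (2 * cycChar p σ) • 1 := by rw [← h, sub_sub_cancel]
      have h2 : (2 : Matrix (Fin D.rank) (Fin D.rank) ℤ_[p]) * (a : Matrix (Fin D.rank) (Fin D.rank) ℤ_[p]) =
          (2 * (a : ℤ_[p])) • 1 := by
        ext k l
        simp only [← Nat.cast_ofNat (R := Matrix (Fin D.rank) (Fin D.rank) ℤ_[p]),
          ← Nat.cast_mul, Matrix.smul_apply, Matrix.natCast_apply, Matrix.one_apply]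
        split_ifs <;> simp
      rw [h', map_sub, map_mul, map_mul, map_ofNat, map_natCast, h2, mul_one, one_mul, mul_sub,
        sub_mul, mul_sub, sub_smul]
      abel
    rw [e, Matrix.sub_apply, Matrix.add_apply, Matrix.smul_apply, smul_eq_mul]
    exact dvd_sub (dvd_add (dvd_map_entries ht i j) (dvd_map_entries ht i j))
      ((ha'.mul_left 2).mul_right _)
  have h1 := hc n σ t ht
  have h2 := hc n (σ * σ) _ ht2
  have h3 : padicToRing hpR (cycChar p σ) - (a : R) ∈ maximalIdeal R ^ n := by
    rw [← map_natCast (padicToRing hpR), ← map_sub]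
    exact padicToRing_mem_pow hpR ((pow_dvd_pow _ (Nat.le_add_right n c)).trans ha')
  rw [Semistable.two_mul_det_eq ρ.finrank_eq, ← map_mul]
  rw [GaloisRepAdic.trace] at h1 h2
  rw [map_sub χ, map_mul χ, map_mul χ, map_ofNat χ 2, map_natCast χ] at h2
  have := Ideal.sub_mem _ (Ideal.sub_mem _
    (Ideal.mul_mem_right (LinearMap.trace R ρ.V (ρ.ρ σ) + χ t) _ h1) h2)
    (Ideal.mul_mem_left _ (2 : R) h3)
  ring_nf at this ⊢
  exact this

/-- Inertia at `p` contains an element with `χ - 1` invertible. -/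
theorem exists_inertia_cycChar_sub_one (hp2 : p ≠ 2) {A : ValuationSubring (AlgebraicClosure ℚ)}
    (hA : A.LiesOverPrime p) :
    ∃ σ ∈ A.inertiaSubgroupIn ℚ, IsUnit (cycChar p σ - 1) := by
  have h2 : ¬ p ∣ 2 := fun h => hp2 ((Nat.prime_dvd_prime_iff_eq Fact.out Nat.prime_two).mp h)
  obtain ⟨σ, hσ, h⟩ := Mazur.Descent.exists_inertia_cycChar (A := A) hA 1 2 h2
  refine ⟨σ, hσ, ?_⟩
  by_contra hu
  rw [← mem_nonunits_iff, ← mem_maximalIdeal, PadicInt.maximalIdeal_eq_span_p,
    Ideal.mem_span_singleton] at hu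
  rw [pow_one] at h
  have h1 := dvd_sub hu h
  rw [Nat.cast_ofNat, show cycChar p σ - 1 - (cycChar p σ - (2 : ℤ_[p])) = 1 by ring] at h1
  exact PadicInt.prime_p.not_isUnit (isUnit_of_dvd_one h1)

end Det

end FermatAgent.BadRed.AtP
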