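import Fermat.Agent.BadRed.AtP.LevelTwist
import Fermat.Agent.TW.Flat.TameChar
import Fermat.Agent.MazurPrinciple.InertiaField

/-!
# Decomposition elements on the nodal datum of `X₀(p N')`

A decomposition element moves both reductions by its residual action; the square of a Frobenius
element fixes every node.
-/

set_option autoImplicit false
set_option linter.style.haveILetI false

noncomputable section

open ModularCurve AlgebraicCurve

namespace FermatAgent.BadRed.AtP

open FermatAgent.ModFun FermatAgent.BadRed.Semistable FermatAgent.MazurPrinciple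
open FermatAgent.ModCurveTorsion (galN coe_galN_smul)
open FermatAgent.Local

local notation "ℚbar" => AlgebraicClosure ℚ
local notation "GQ" => AlgebraicClosure ℚ ≃ₐ[ℚ] AlgebraicClosure ℚ
local notation "𝐅" N:max => laurentBaseChange ℚbar (modularFunctionFieldFull N)

attribute [local instance] ModCurveTorsion.isFunctionField1_laurent
attribute [local instance] MazurPrinciple.isAlgClosed_residue

variable {A : ValuationSubring ℚbar} {σ : GQ} (hσ : σ ∈ A.decompositionSubgroup ℚ)

/-- The symmetry of the place attached to a decomposition element. -/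
def decompAut : PlaceAut A (IsLocalRing.residue A) where
  τ := σ
  mem z := decomposition_mem_iff hσ z
  θ := MulSemiringAction.toRingEquiv (A.decompositionSubgroup ℚ) _ ⟨σ, hσ⟩
  compat _ _ := rfl

/-- A decomposition element acting on the residue field as the square of a Frobenius element. -/
def IsFrobSqAt (A : ValuationSubring ℚbar) (p : ℕ) (σ : GQ) : Prop :=
  ∃ h : σ ∈ A.decompositionSubgroup ℚ,
    ∀ y : IsLocalRing.ResidueField A, (⟨σ, h⟩ : A.decompositionSubgroup ℚ) • y = y ^ (p ^ 2)

include hσ in
/-- The inertia field is stable. -/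
theorem decomp_mem_inertiaField {x : ℚbar} (hx : x ∈ inertiaField A) :
    σ x ∈ inertiaField A := by
  rw [mem_inertiaField] at hx ⊢
  intro i hi
  have h := hx _ (TW.Flat.conj_mem_inertia' (inv_mem hσ) hi)
  simp only [AlgEquiv.mul_apply, inv_inv] at h
  have h2 := congrArg σ h
  rwa [← AlgEquiv.mul_apply, mul_inv_cancel, AlgEquiv.one_apply] at h2

variable {p : ℕ} [Fact p.Prime] (hA : A.LiesOverPrime p) {N' : ℕ} [NeZero N']
  (hco : p.Coprime N')

include hσ in
/-- The first reduction moves by the residual action. -/
theorem decomp_red₁ {x : 𝐅 (p * N')} :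
    haveI := isFunctionField1_fib p A hA hco
    ∀ h : x ∈ (levelData p A hA hco).g₁.integers,
      ∃ h' : galN (p * N') σ • x ∈ (levelData p A hA hco).g₁.integers,
        (levelData p A hA hco).g₁.red ⟨_, h'⟩ =
          (decompAut hσ).fib N' • (levelData p A hA hco).g₁.red ⟨x, h⟩ := by
  haveI := isFunctionField1_fib p A hA hco
  haveI := charP_residueField p A hA
  exact fun h => (decompAut hσ).levelGauss_red hco (placeHom p A hA) (f := x) h

include hσ in
/-- The second reduction moves by the residual action. -/
theorem decomp_red₂ {x : 𝐅 (p * N')} :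
    haveI := isFunctionField1_fib p A hA hco
    ∀ h : x ∈ (levelData p A hA hco).g₂.integers,
      ∃ h' : galN (p * N') σ • x ∈ (levelData p A hA hco).g₂.integers,
        (levelData p A hA hco).g₂.red ⟨_, h'⟩ =
          (decompAut hσ).fib N' • (levelData p A hA hco).g₂.red ⟨x, h⟩ := by
  haveI := isFunctionField1_fib p A hA hco
  intro h
  have e : atkinLehnerBar hco ℚbar (galN (p * N') σ • x) =
      galN (p * N') σ • atkinLehnerBar hco ℚbar x := atkinLehnerBar_galN hco σ x
  obtain ⟨h₁, e₁⟩ := decomp_red₁ hσ hA hco (x := atkinLehnerBar hco ℚbar x) h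
  have hm : galN (p * N') σ • x ∈ (levelData p A hA hco).g₂.integers := by
    show atkinLehnerBar hco ℚbar (galN (p * N') σ • x) ∈ (levelData p A hA hco).g₁.integers
    rw [e]
    exact h₁
  exact ⟨hm, ((levelData p A hA hco).g₁.red_congr e hm).trans e₁⟩

variable (S : IntermediateField ℚ ℚbar) (hS : ∀ x ∈ S, σ x ∈ S) (ϖ : A)

/-- The twist of the datum attached to a decomposition element. -/
def decompTwist :
    haveI := isFunctionField1_fib p A hA hco
    Twist (levelData p A hA hco) (fixedFun S (p * N')) ϖ :=
  haveI := isFunctionField1_fib p A hA hco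
  { σ := σ.toRingEquiv
    τ := galEquiv (p * N') σ
    map_smul := galN_smul_const _ σ
    map_unif := by
      refine ⟨σ ϖ / ϖ, ?_, ?_⟩
      · rcases eq_or_ne (ϖ : ℚbar) 0 with h | h
        · rw [h, div_zero]; exact zero_mem _
        · exact TW.ratio_mem hσ h
      · rcases eq_or_ne (ϖ : ℚbar) 0 with h | h
        · show σ ϖ = _
          simp [h]
        · exact (div_mul_cancel₀ _ h).symm
    mem_E := fun x hx => mem_fixedFun_iff_coeff.mpr fun n => by
      rw [galEquiv_apply, coe_galN_smul, coeffMap_coeff]
      exact hS _ (mem_fixedFun_iff_coeff.mp hx n)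
    mem₁ := fun x h => by
      obtain ⟨h', e⟩ := decomp_red₁ hσ hA hco h
      exact ⟨h', fun h0 => ne_of_eq_of_ne e ((smul_ne_zero_iff_ne _).mpr h0)⟩
    mem₂ := fun x h => by
      obtain ⟨h', e⟩ := decomp_red₂ hσ hA hco h
      exact ⟨h', fun h0 => ne_of_eq_of_ne e ((smul_ne_zero_iff_ne _).mpr h0)⟩
    place := fun P => ⟨(galN (p * N') σ)⁻¹ • P, fun f => by
      have := SemilinearAut.ord_smul (galN (p * N') σ) ((galN (p * N') σ)⁻¹ • P) f
      rwa [smul_inv_smul] at this⟩
    mem_rr := fun n x hx => by
      have hz : galN (p * N') σ • jBar ℚbar (p * N') = jBar ℚbar (p * N') :=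
        Subtype.ext (by rw [coe_galN_smul, ModFun.coe_jBar, coeffMap_jqModC])
      rw [← levelData_coord hA hco] at hz
      rw [galEquiv_apply]
      exact smul_mem_rrSpace (galN (p * N') σ) hz hx }

include hσ in
/-- The square of a Frobenius element fixes the nodes on the first component. -/
theorem decomp_fix_node (h : IsFrobSqAt A p σ) :
    haveI := isFunctionField1_fib p A hA hco
    ∀ i, (decompAut hσ).fib N' • (levelData p A hA hco).C.x i = (levelData p A hA hco).C.x i := by
  haveI := isFunctionField1_fib p A hA hco
  haveI := charP_residueField p A hA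
  intro i
  have hθ : (decompAut hσ).θ = frobeniusEquiv (IsLocalRing.ResidueField A) p *
      frobeniusEquiv (IsLocalRing.ResidueField A) p := by
    obtain ⟨h', hy⟩ := h
    refine RingEquiv.ext fun y => ?_
    rw [RingAut.mul_apply, frobeniusEquiv_apply, frobeniusEquiv_apply, frobenius_def,
      frobenius_def, ← pow_mul, ← sq]
    exact hy y
  exact ((decompAut hσ).frobSqSymm hco (placeHom p A hA) hA hθ).fix_x i

end FermatAgent.BadRed.AtP
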