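import Fermat.Agent.MazurPrinciple.InertiaSpan
import Fermat.Agent.MazurPrinciple.AnnTwist
import Fermat.Agent.BadRed.AtP.DecompTwist

/-!
# Decomposition elements on the completed scalars of a local base

As for inertia elements: the valuation is preserved, so the uniformiser moves by a unit.
-/

set_option autoImplicit false

noncomputable section

namespace FermatAgent.BadRed.AtP

open IsLocalRing FermatAgent.MazurPrinciple FermatAgent.Local

local notation "ℚbar" => AlgebraicClosure ℚ
local notation "GQ" => AlgebraicClosure ℚ ≃ₐ[ℚ] AlgebraicClosure ℚ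

variable {p : ℕ} {A : ValuationSubring ℚbar} {σ : GQ} (hσ : σ ∈ A.decompositionSubgroup ℚ)
  (B : LocalBase A p) (hσS : ∀ x ∈ B.S, σ x ∈ B.S)
include hσ hσS

/-- A decomposition element on the integers of the local base. -/
def intDecomp : B.int →+* B.int :=
  ((σ : ℚbar →+* ℚbar).comp B.int.subtype).codRestrict B.int fun a =>
    ⟨(Local.decomposition_mem_iff hσ _).mpr a.2.1,
      hσS _ a.2.2⟩

theorem coe_intDecomp (a : B.int) : ((intDecomp hσ B hσS a : B.int) : ℚbar) = σ a := rfl

theorem exists_intDecomp_unif : ∃ u : B.intˣ, intDecomp hσ B hσS B.unifO = u * B.unifO := by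
  have hne : intDecomp hσ B hσS B.unifO ≠ 0 := fun h =>
    B.unifQ_ne_zero (σ.injective ((congrArg Subtype.val h).trans (map_zero σ).symm))
  obtain ⟨n, u, hu⟩ := B.exists_factor hne
  refine ⟨u, ?_⟩
  have hv := congrArg (fun y : B.int => A.valuation (y : ℚbar)) hu
  simp only [coe_intDecomp, val_galois_eq hσ, Subring.coe_mul, SubmonoidClass.coe_pow, map_mul,
    map_pow, B.val_unit u, mul_one] at hv
  have h1 : n = 1 := ((pow_right_strictAnti₀ (zero_lt_iff.mpr ((_root_.map_ne_zero _).2 B.unifQ_ne_zero))
    B.val_unifQ_lt_one).injective ((pow_one _).trans hv)).symm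
  rw [hu, h1, pow_one, mul_comm]

theorem intDecomp_mem_pow (n : ℕ) {x : B.int} (hx : x ∈ maximalIdeal B.int ^ n) :
    intDecomp hσ B hσS x ∈ maximalIdeal B.int ^ n := by
  rw [B.maximalIdeal_eq, Ideal.span_singleton_pow, Ideal.mem_span_singleton] at hx ⊢
  obtain ⟨y, rfl⟩ := hx
  obtain ⟨u, hu⟩ := exists_intDecomp_unif hσ B hσS
  rw [map_mul, map_pow, hu, mul_pow]
  exact ⟨(u : B.int) ^ n * intDecomp hσ B hσS y, by ring⟩

/-- Its action modulo a power of the maximal ideal, from the completion. -/
def levDecomp (n : ℕ) : B.W →+* B.int ⧸ maximalIdeal B.int ^ n :=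
  (Ideal.Quotient.lift _ ((Ideal.Quotient.mk _).comp (intDecomp hσ B hσS))
      fun _ hx => Ideal.Quotient.eq_zero_iff_mem.mpr (intDecomp_mem_pow hσ B hσS n hx)).comp
    (AdicCompletion.evalₐ (maximalIdeal B.int) n).toRingHom

theorem levDecomp_compat {m n : ℕ} (hle : m ≤ n) :
    (Ideal.Quotient.factorPow (maximalIdeal B.int) hle).comp (levDecomp hσ B hσS n) =
      levDecomp hσ B hσS m := by
  refine RingHom.ext fun x => ?_
  induction x using AdicCompletion.induction_on with
  | _ a =>
    simp only [levDecomp, RingHom.comp_apply, AlgHom.toRingHom_eq_coe, RingHom.coe_coe,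
      AdicCompletion.evalₐ_mk, Ideal.Quotient.lift_mk, Ideal.Quotient.factor_mk]
    rw [Ideal.Quotient.eq, ← map_sub]
    refine intDecomp_mem_pow hσ B hσS m (Ideal.Quotient.eq.mp ?_)
    exact AdicCompletion.Ideal.mk_eq_mk _ hle a

/-- Its action on the completion. -/
def wDecomp : B.W →+* B.W :=
  AdicCompletion.liftRingHom (maximalIdeal B.int) (levDecomp hσ B hσS)
    fun hle => levDecomp_compat hσ B hσS hle

theorem wDecomp_algebraMap (a : B.int) :
    wDecomp hσ B hσS (algebraMap B.int B.W a) = algebraMap B.int B.W (intDecomp hσ B hσS a) := by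
  refine AdicCompletion.ext_evalₐ fun n => ?_
  refine (AdicCompletion.evalₐ_liftRingHom (maximalIdeal B.int) (levDecomp hσ B hσS)
    (fun hle => levDecomp_compat hσ B hσS hle) n _).trans ?_
  simp [levDecomp, AlgHom.commutes, Ideal.Quotient.algebraMap_eq]

/-- Its action on the scalars. -/
def decompScalar : ScalarTwist B.unifW where
  σ := wDecomp hσ B hσS
  ε := Units.map (algebraMap B.int B.W).toMonoidHom (exists_intDecomp_unif hσ B hσS).choose
  map_unif := by
    rw [LocalBase.unifW, wDecomp_algebraMap]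
    exact ((congrArg (algebraMap B.int B.W) (exists_intDecomp_unif hσ B hσS).choose_spec)).trans
      (map_mul _ _ _)

theorem decompScalar_algebraMap (a : B.int) :
    (decompScalar hσ B hσS).σ (algebraMap B.int B.W a) =
      algebraMap B.int B.W (intDecomp hσ B hσS a) :=
  wDecomp_algebraMap hσ B hσS a

end FermatAgent.BadRed.AtP
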