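import Fermat.Agent.MazurPrinciple.Invariant

/-!
# Roots of prime power order at a node

`p ^ m`-th roots at the two ends of the annulus come from the annulus ring up to roots of unity of
order `p ^ m`; an element vanishing at one end bounds its other end.
-/

set_option autoImplicit false
set_option linter.style.haveILetI false
set_option linter.unusedSectionVars false

noncomputable section

namespace FermatAgent.BadRed.AtP

open MazurPrinciple ModularCurve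

variable {W : Type*} [CommRing W] [IsDomain W] [IsDiscreteValuationRing W] (ϖ : W)
  (hϖ : Irreducible ϖ) {p : ℕ} (hp : p.Prime) {v : ℕ}
  (hv : ∃ w : W, IsUnit w ∧ (p : W) = ϖ ^ v * w)

section Units

variable [IsAdicComplete (Ideal.span {ϖ}) W]
include hϖ hp hv

/-- A series with trivial `p ^ m`-th power is a root of unity to slightly smaller precision. -/
theorem exists_levelMap_eq_rootPow (m : ℕ) :
    ∀ {ζ : W}, IsPrimitiveRoot ζ (p ^ m) → ∀ {R R' : ℕ}, v ≤ R' → R' ≠ 0 →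
      ∀ (hR : R' + m * v ≤ R) {M : LaurentSeries (modPow ϖ R)}, M ^ p ^ m = 1 →
      ∃ i, levelMap ϖ (show R' ≤ R by omega) M = HahnSeries.C (modPowMk ϖ R' (ζ ^ i)) := by
  induction m with
  | zero =>
    intro ζ _ R R' _ _ _ M h
    exact ⟨0, by rw [pow_zero, pow_one] at h; rw [h, map_one, pow_zero, map_one, map_one]⟩
  | succ m ih =>
    intro ζ hζ R R' hv' hR0 hR M h
    rw [Nat.succ_mul] at hR
    have hη : IsPrimitiveRoot (ζ ^ p ^ m) p :=
      hζ.pow (pow_pos hp.pos _) (pow_succ p m)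
    have hμ : IsPrimitiveRoot (ζ ^ p) (p ^ m) :=
      hζ.pow (pow_pos hp.pos _) (pow_succ' p m)
    obtain ⟨i, hi, e⟩ := exists_levelMap_eq_root ϖ hϖ hp hv hη (R := R) (R' := R' + m * v)
      (by omega) (by omega) (by
        have := Nat.mul_le_mul_right (R' + m * v) hp.two_le
        omega) (M := M ^ p ^ m) (by rw [← pow_mul, ← pow_succ]; exact h)
    have hi' : i ≤ p ^ (m + 1) := hi.le.trans (Nat.le_self_pow (Nat.succ_ne_zero m) p)
    set M' := levelMap ϖ (show R' + m * v ≤ R by omega) M *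
      HahnSeries.C (modPowMk ϖ (R' + m * v) (ζ ^ (p ^ (m + 1) - i))) with hM'
    have hM'1 : M' ^ p ^ m = 1 := by
      rw [hM', mul_pow, ← map_pow, e, ← map_pow HahnSeries.C, ← map_pow (modPowMk ϖ _), ← map_mul,
        ← map_mul, ← pow_mul ζ, ← pow_mul, ← pow_add,
        show p ^ m * i + (p ^ (m + 1) - i) * p ^ m = p ^ (m + 1) * p ^ m by
          rw [mul_comm (p ^ m) i, ← Nat.add_mul, Nat.add_sub_cancel' hi'],
        pow_mul, hζ.pow_eq_one, one_pow, map_one, map_one]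
    obtain ⟨j, hj⟩ := ih hμ hv' hR0 le_rfl hM'1
    refine ⟨p * j + i, ?_⟩
    have hC : ∀ (c : W), levelMap ϖ (show R' ≤ R' + m * v by omega)
        (HahnSeries.C (modPowMk ϖ (R' + m * v) c)) = HahnSeries.C (modPowMk ϖ R' c) := fun c => by
      rw [levelMap, HahnSeries.C_apply, coeffMap_single, modPowFactor_mk, HahnSeries.C_apply]
    have hll : levelMap ϖ (show R' ≤ R' + m * v by omega)
        (levelMap ϖ (show R' + m * v ≤ R by omega) M) =
          levelMap ϖ (show R' ≤ R by omega) M := by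
      refine HahnSeries.ext (funext fun l => ?_)
      obtain ⟨x, hx⟩ := Ideal.Quotient.mk_surjective (M.coeff l)
      simp only [levelMap, coeffMap_coeff, ← hx]
      rfl
    rw [hM', map_mul, hll, hC, ← pow_mul] at hj
    have hone : HahnSeries.C (modPowMk ϖ R' (ζ ^ (p ^ (m + 1) - i))) *
        HahnSeries.C (modPowMk ϖ R' (ζ ^ i)) = (1 : LaurentSeries (modPow ϖ R')) := by
      rw [← map_mul, ← map_mul, ← pow_add, Nat.sub_add_cancel hi', hζ.pow_eq_one, map_one, map_one]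
    rw [pow_add, map_mul, map_mul, ← hj, mul_assoc, hone, mul_one]

/-- An element that is a `p ^ m`-th power at both ends is, up to roots of unity at the ends, the
`p ^ m`-th power of an element of the annulus ring. -/
theorem exists_rootPow {m : ℕ} {ζ : W} (hζ : IsPrimitiveRoot ζ (p ^ m)) {R R' : ℕ}
    (hv' : v ≤ R') (hR0 : R' ≠ 0) (hR : R' + m * v ≤ R) {a : Ann ϖ} (ha : a ≠ 0)
    (hdiv : ∀ π : Ann ϖ, Prime π → ¬ π ∣ Ann.const ϖ ϖ → p ^ m ∣ multiplicity π a)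
    {U₁ U₂ : LaurentSeries (modPow ϖ R)} (hU₁ : IsUnit U₁) (hU₂ : IsUnit U₂)
    (h₁ : Ann.toX ϖ R a = U₁ ^ p ^ m) (h₂ : Ann.toY ϖ R a = U₂ ^ p ^ m) :
    ∃ (r : Ann ϖ) (i k : ℕ),
      Ann.toX ϖ R' r = HahnSeries.C (modPowMk ϖ R' (ζ ^ i)) *
        levelMap ϖ (show R' ≤ R by omega) U₁ ∧
      Ann.toY ϖ R' r = HahnSeries.C (modPowMk ϖ R' (ζ ^ k)) *
        levelMap ϖ (show R' ≤ R by omega) U₂ := by
  set q := p ^ m with hqdef
  have hq : q ≠ 0 := pow_ne_zero _ hp.ne_zero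
  letI := Ann.isDomain ϖ hϖ
  letI := Ann.isLocalRing_modPow ϖ hϖ (show R ≠ 0 by omega)
  haveI := Ann.isLocalRing_modPow ϖ hϖ one_ne_zero
  have hm := Ann.isNilpotent_maximalIdeal_modPow ϖ hϖ (show R ≠ 0 by omega)
  obtain ⟨ε, g, α, β, hε, ha'⟩ := Ann.exists_monomial_mul_pow ϖ hϖ ha q hdiv
  have hne : ∀ U : LaurentSeries (modPow ϖ R), IsUnit U →
      levelMap ϖ (show 1 ≤ R by omega) U ≠ 0 := fun U hU => (hU.map _).ne_zero
  have hβ : β = 0 :=
    Ann.exponent_y_eq_zero ϖ hϖ hp hv R (by omega) (hne _ (hU₁.pow q)) (ha' ▸ h₁)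
  have hα : α = 0 := by
    by_contra h
    apply hne _ (hU₂.pow q)
    rw [← h₂, Ann.levelMap_toY, ha', map_mul, map_mul, map_mul, map_pow, map_pow, Ann.toY_x,
      (modPowMk_eq_zero_iff ϖ 1 ϖ).mpr (by rw [pow_one]), map_zero, zero_pow h]
    ring
  subst hα hβ
  rw [pow_zero, pow_zero, mul_one, mul_one] at ha'
  subst ha'
  obtain ⟨c, P, Q, hP, hQ, w, hw⟩ := Ann.exists_approx ϖ hϖ hε R (by omega)
  have h0 : modPowMk ϖ R (ϖ ^ R) = 0 := (modPowMk_eq_zero_iff ϖ R _).mpr dvd_rfl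
  have hεeq : ε = Ann.const ϖ (c : W) * Ann.serX ϖ P * Ann.serY ϖ Q + Ann.const ϖ (ϖ ^ R) * w := by
    linear_combination hw
  rw [map_mul, map_pow, hεeq, map_add, map_mul (Ann.toX ϖ R) (Ann.const ϖ (ϖ ^ R)),
    Ann.toX_const ϖ R (ϖ ^ R), h0, map_zero, zero_mul, add_zero] at h₁
  rw [map_mul, map_pow, hεeq, map_add, map_mul (Ann.toY ϖ R) (Ann.const ϖ (ϖ ^ R)),
    Ann.toY_const ϖ R (ϖ ^ R), h0, map_zero, zero_mul, add_zero] at h₂
  have hroot : ∀ (U G : LaurentSeries (modPow ϖ R)) (A B : LaurentSeries (modPow ϖ R)),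
      IsUnit U → IsPos A → IsNeg B →
        HahnSeries.C (modPowMk ϖ R c) * A * B * G ^ q = U ^ q →
      ∃ (γ : W) (P₀ : PowerSeries W), PowerSeries.constantCoeff P₀ = 1 ∧
        modPowMk ϖ R (γ ^ q) = modPowMk ϖ R c ∧
        HahnSeries.ofPowerSeries ℤ _ (PowerSeries.map (modPowMk ϖ R) (P₀ ^ q)) = A := by
    intro U G A B hU hA hB e
    have hG : IsUnit G := by
      have : IsUnit (HahnSeries.C (modPowMk ϖ R c) * A * B * G ^ q) := e ▸ hU.pow q
      exact (isUnit_pow_iff hq).mp (isUnit_of_mul_isUnit_right this)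
    obtain ⟨G', hG'⟩ := isUnit_iff_exists_inv.mp hG
    obtain ⟨γ, n, P', Q', hP', hQ', hM⟩ := exists_decomp hm
      (hU.mul (IsUnit.of_mul_eq_one_right _ hG'))
    have e' : HahnSeries.single (0 : ℤ) (modPowMk ϖ R c) * A * B =
        HahnSeries.single ((q : ℤ) * n) ((γ ^ q : (modPow ϖ R)ˣ) : modPow ϖ R) *
          P' ^ q * Q' ^ q := by
      rw [Units.val_pow_eq_pow_val, ← nsmul_eq_mul, ← HahnSeries.single_pow, ← mul_pow, ← mul_pow,
        ← hM, mul_pow, ← e, HahnSeries.C_apply]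
      have : G ^ q * G' ^ q = 1 := by rw [← mul_pow, hG', one_pow]
      linear_combination (-(HahnSeries.single (0 : ℤ) (modPowMk ϖ R c) * A * B)) * this
    obtain ⟨cu, hcu⟩ : ∃ cu : (modPow ϖ R)ˣ, (cu : modPow ϖ R) = modPowMk ϖ R c :=
      ⟨Units.map (modPowMk ϖ R).toMonoidHom c, rfl⟩
    rw [← hcu] at e'
    have hA' := pos_part_unique hA (hP'.pow q) hB (hQ'.pow q) e'
    obtain ⟨hc, -⟩ := IsDecomp.unique (z := HahnSeries.single (0 : ℤ) (cu : modPow ϖ R) * A * B)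
      ⟨A, B, hA, hB, rfl⟩ ⟨P' ^ q, Q' ^ q, hP'.pow q, hQ'.pow q, e'⟩
    obtain ⟨γ₀, hγ₀⟩ := Ideal.Quotient.mk_surjective (γ : modPow ϖ R)
    obtain ⟨P₀, hP₀, eP₀⟩ := exists_lift_pos ϖ hP'
    refine ⟨γ₀, P₀, hP₀, ?_, by rw [map_pow, map_pow, eP₀, hA']⟩
    rw [map_pow, ← hcu, hc, Units.val_pow_eq_pow_val]
    exact congrArg (· ^ q) hγ₀
  obtain ⟨γ, P₀, hP₀, hγ, eP⟩ := hroot U₁ (Ann.toX ϖ R g) (Ann.toX ϖ R (Ann.serX ϖ P))
    (Ann.toX ϖ R (Ann.serY ϖ Q)) hU₁ (Ann.isPos_toX_serX ϖ hϖ R hP)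
    (Ann.isNeg_toX_serY ϖ hϖ (by omega) hQ)
    (by rw [← Ann.toX_const, ← map_mul, ← map_mul]; exact h₁)
  obtain ⟨-, Q₀, hQ₀, -, eQ⟩ := hroot U₂ (Ann.toY ϖ R g) (Ann.toY ϖ R (Ann.serY ϖ Q))
    (Ann.toY ϖ R (Ann.serX ϖ P)) hU₂
    (by rw [Ann.toY_serY]; exact Ann.isPos_toX_serX ϖ hϖ R hQ)
    (by rw [Ann.toY_serX]; exact Ann.isNeg_toX_serY ϖ hϖ (by omega) hP)
    (by rw [← Ann.toY_const, ← map_mul, ← map_mul,
      mul_right_comm (Ann.const ϖ (c : W))]; exact h₂)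
  rw [Ann.toX_serX] at eP
  rw [Ann.toY_serY, Ann.toX_serX] at eQ
  have hPm := HahnSeries.ofPowerSeries_injective eP
  have hQm := HahnSeries.ofPowerSeries_injective eQ
  set r := g * (Ann.const ϖ γ * Ann.serX ϖ P₀ * Ann.serY ϖ Q₀) with hr
  have hrX : Ann.toX ϖ R r ^ q = U₁ ^ q := by
    rw [hr, ← map_pow, mul_pow, mul_pow, mul_pow, ← map_pow (Ann.const ϖ), ← map_pow (Ann.serX ϖ),
      ← map_pow (Ann.serY ϖ), map_mul, map_mul, map_mul, Ann.toX_const, hγ, ← Ann.toX_const,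
      Ann.toX_serX_congr ϖ hPm, Ann.toX_serY_congr ϖ hQm, map_pow, ← h₁, map_mul, map_mul]
    ring
  have hrY : Ann.toY ϖ R r ^ q = U₂ ^ q := by
    rw [hr, ← map_pow, mul_pow, mul_pow, mul_pow, ← map_pow (Ann.const ϖ), ← map_pow (Ann.serX ϖ),
      ← map_pow (Ann.serY ϖ), map_mul, map_mul, map_mul, Ann.toY_const, hγ, ← Ann.toY_const,
      Ann.toY_serX, Ann.toY_serY, Ann.toX_serX_congr ϖ hQm, Ann.toX_serY_congr ϖ hPm,
      ← Ann.toY_serX, ← Ann.toY_serY, map_pow, ← h₂, map_mul, map_mul]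
    ring
  have fin : ∀ (z U : LaurentSeries (modPow ϖ R)), IsUnit U → z ^ q = U ^ q →
      ∃ i, levelMap ϖ (show R' ≤ R by omega) z = HahnSeries.C (modPowMk ϖ R' (ζ ^ i)) *
        levelMap ϖ (show R' ≤ R by omega) U := by
    intro z U hU e
    obtain ⟨U', hU'⟩ := isUnit_iff_exists_inv.mp hU
    obtain ⟨i, h⟩ := exists_levelMap_eq_rootPow ϖ hϖ hp hv m hζ hv' hR0 hR (M := z * U')
      (by rw [← hqdef, mul_pow, e, ← mul_pow, hU', one_pow])
    refine ⟨i, ?_⟩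
    rw [← h, ← map_mul, mul_assoc, mul_comm U', hU', mul_one]
  obtain ⟨i, e₁⟩ := fin _ _ hU₁ hrX
  obtain ⟨k, e₂⟩ := fin _ _ hU₂ hrY
  exact ⟨r, i, k, by rw [← Ann.levelMap_toX ϖ (show R' ≤ R by omega), e₁],
    by rw [← Ann.levelMap_toY ϖ (show R' ≤ R by omega), e₂]⟩

end Units

variable [IsAdicComplete (Ideal.span {ϖ}) W]

include hϖ in
/-- An element vanishing at one end to precision `R` bounds the constant at the other end. -/
theorem pow_dvd_of_ends {R : ℕ} {z : Ann ϖ} {δ w : W} {l : ℤ}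
    {Y : LaurentSeries (modPow ϖ R)} (hX : Ann.toX ϖ R z = 0)
    (hY : Ann.toY ϖ R z = HahnSeries.C (modPowMk ϖ R δ) * Y)
    (hl : Y.coeff l = modPowMk ϖ R w) (hw : IsUnit w) :
    ϖ ^ (R - l.natAbs) ∣ δ := by
  obtain ⟨f, rfl⟩ := Ideal.Quotient.mk_surjective z
  have h1 := congrArg (fun s => HahnSeries.coeff s (-l)) hX
  have h2 := congrArg (fun s => HahnSeries.coeff s l) hY
  simp only [Ann.toX_mk, Ann.toY_mk, coeff_endX, coeff_endY, HahnSeries.coeff_zero,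
    HahnSeries.C_apply, HahnSeries.coeff_single_mul, sub_zero, hl, ← map_mul, neg_neg] at h1 h2
  rw [modPowMk_eq_zero_iff] at h1
  rw [← sub_eq_zero, ← map_sub, modPowMk_eq_zero_iff] at h2
  have h3 : ϖ ^ (R - l.natAbs) ∣ ϖ ^ (-l).toNat * ncoeff ϖ f (-l) := by
    by_cases hd : l.toNat ≤ R
    · have he : ϖ ^ R = ϖ ^ l.toNat * ϖ ^ (R - l.toNat) := by
        rw [← pow_add, Nat.add_sub_cancel' hd]
      rw [he, mul_dvd_mul_iff_left (pow_ne_zero _ hϖ.ne_zero)] at h1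
      exact Dvd.dvd.mul_left ((pow_dvd_pow ϖ (by omega)).trans h1) _
    · rw [show R - l.natAbs = 0 by omega, pow_zero]; exact one_dvd _
  have h4 : ϖ ^ (R - l.natAbs) ∣ δ * w := by
    have := dvd_sub h3 ((pow_dvd_pow ϖ (show R - l.natAbs ≤ R by omega)).trans h2)
    simpa using this
  exact (hw.dvd_mul_right).mp h4

end FermatAgent.BadRed.AtP
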