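import Fermat.Agent.BadRed.AtP.Congr
import Fermat.Agent.MazurPrinciple.Setup
import Fermat.Agent.BadRed.AtP.NodeRoots

/-!
# Roots of prime power order from the two components

`exists_rootPow_of_components`: approximate `p ^ m`-th roots on both components gluing at all
nodes give a root. `exists_rootPow_twist`: if `t` has approximate `p ^ m`-th roots on both
components and `σ` acts on the roots of unity at the nodes by `w`, then `σ t * t ^ (p ^ m - w)` is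
a `p ^ m`-th power.
-/

set_option autoImplicit false
set_option linter.unusedSectionVars false
set_option linter.style.haveILetI false

noncomputable section

open AlgebraicCurve WithZero

namespace FermatAgent.BadRed.AtP

open MazurPrinciple Semistable ModularCurve FermatAgent.Curve FermatAgent.Curve.RR

variable {K : Type*} [Field K] [IsAlgClosed K] {A : ValuationSubring K} {k : Type*}
    [Field k] [IsAlgClosed k] {π : A →+* k} {F F₁ F₂ : Type*} [Field F] [Field F₁] [Field F₂]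
    [Algebra K F] [Algebra k F₁] [Algebra k F₂] [IsFunctionField1 K F] [IsFunctionField1 k F₁]
    [IsFunctionField1 k F₂] [RRSetting K F] [RRSetting k F₁] [RRSetting k F₂] [Infinite k]

theorem isUnitAt_of_pow {Fb : Type*} [Field Fb] [Algebra k Fb] {g : GaussRed A π F Fb}
    (hπ : Function.Surjective π) {x : F} {n : ℕ} (hn : n ≠ 0) (h : IsUnitAt g (x ^ n)) :
    IsUnitAt g x := by
  have hx : x ≠ 0 := fun e => h.ne_zero (by rw [e, zero_pow hn])
  obtain ⟨c, hc, hu⟩ := exists_unitAt_smul g hx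
  have e : (c⁻¹) ^ n • (c • x) ^ n = x ^ n := by
    rw [← smul_pow, smul_smul, inv_mul_cancel₀ hc, one_smul]
  have h1 : (c⁻¹) ^ n ∈ A := scalar_mem hπ (hu.pow n) (by rw [e]; exact h.1)
  have hcA : c⁻¹ ∈ A := by
    rw [← A.valuation_le_one_iff] at h1 ⊢
    rw [map_pow] at h1
    exact (pow_le_one_iff hn).mp h1
  have hπ0 : π ⟨c⁻¹, hcA⟩ ≠ 0 := fun h0 => h.2 (by
    rw [g.red_congr e.symm h.1, g.red_smul h1 (hu.pow n).1,
      show (⟨c⁻¹ ^ n, h1⟩ : A) = ⟨c⁻¹, hcA⟩ ^ n from rfl, map_pow, h0, zero_pow hn, zero_smul])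
  rw [show x = algebraMap K F c⁻¹ * (c • x) by
    rw [← Algebra.smul_def, smul_smul, inv_mul_cancel₀ hc, one_smul]]
  exact IsUnitAt.mul ⟨g.algebraMap_mem ⟨_, hcA⟩, by
    rw [g.red_algebraMap ⟨_, hcA⟩]; simpa using hπ0⟩ hu

variable {W : Type*} [CommRing W] [IsDomain W] [IsDiscreteValuationRing W] {ϖW : W}
  [IsAdicComplete (Ideal.span {ϖW}) W]
variable {d : NodalDatum A π F F₁ F₂} {E : Subfield F} {ϖ : A}

section Node

variable {i : d.C.ι} (ν : NodeEmb d E i ϖ ϖW) (hϖW : Irreducible ϖW) (hϖ0 : (ϖ : K) ≠ 0)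
  (hϖE : ∀ y : E, (ϖ : K) • (y : F) ∈ E)
include hϖW hϖ0 hϖE

theorem end₁_congr {R : ℕ} {x y : (E.toSubring ⊓ d.g₁.integers : Subring F)}
    (h : CongMod d.g₁ ϖ R (x : F) y) : ν.end₁ R x = ν.end₁ R y := by
  obtain ⟨w, hw, hwE, e⟩ := h.mem_E hϖ0 hϖE x.2.1 y.2.1
  have := ν.end₁_sub hϖW (R := R) (z := x) (w := y) (u := ⟨w, hwE, hw⟩) hϖE e
  rwa [(modPowMk_eq_zero_iff ϖW R _).mpr dvd_rfl, map_zero, zero_mul, sub_eq_zero] at this

theorem end₂_congr {R : ℕ} {x y : (E.toSubring ⊓ d.g₂.integers : Subring F)}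
    (h : CongMod d.g₂ ϖ R (x : F) y) : ν.end₂ R x = ν.end₂ R y := by
  obtain ⟨w, hw, hwE, e⟩ := h.mem_E hϖ0 hϖE x.2.1 y.2.1
  have := ν.end₂_sub hϖW (R := R) (z := x) (w := y) (u := ⟨w, hwE, hw⟩) hϖE e
  rwa [(modPowMk_eq_zero_iff ϖW R _).mpr dvd_rfl, map_zero, zero_mul, sub_eq_zero] at this

/-- Approximate `p ^ m`-th roots have invariants at a node. -/
theorem exists_invariantPow {p : ℕ} (hp : p.Prime) {v : ℕ}
    (hv : ∃ w : W, IsUnit w ∧ (p : W) = ϖW ^ v * w) {m : ℕ} {ζ : W}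
    (hζ : IsPrimitiveRoot ζ (p ^ m)) {t : F} (htE : t ∈ E) (ht : t ∈ d.int) {n : ℕ}
    (htn : t ∈ riemannRochSpace (n • d.D)) (hdiv : ∀ P : Place K F, ((p ^ m : ℕ) : ℤ) ∣ P.ord t)
    {R R' : ℕ} (hv' : v ≤ R') (hR0 : R' ≠ 0) (hR : R' + m * v ≤ R)
    (T₁ : (E.toSubring ⊓ d.g₁.integers : Subring F))
    (T₂ : (E.toSubring ⊓ d.g₂.integers : Subring F))
    (h0₁ : d.g₁.red ⟨T₁, T₁.2.2⟩ ≠ 0) (h0₂ : d.g₂.red ⟨T₂, T₂.2.2⟩ ≠ 0)
    (e₁ : CongMod d.g₁ ϖ R ((T₁ : F) ^ p ^ m) t) (e₂ : CongMod d.g₂ ϖ R ((T₂ : F) ^ p ^ m) t) :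
    ∃ (r : Ann ϖW) (c : ℕ), Ann.toX ϖW R' r = ν.end₁ R' T₁ ∧
      Ann.toY ϖW R' r = HahnSeries.C (modPowMk ϖW R' (ζ ^ c)) * ν.end₂ R' T₂ := by
  letI := Ann.isDomain ϖW hϖW
  obtain ⟨a, ha⟩ := ν.reg ⟨t, htE⟩ n ht htn
  have hU₁ := ν.isUnit_end₁ hϖW (show 1 ≤ R by omega) T₁.2.1 T₁.2.2 h0₁
  have hU₂ := ν.isUnit_end₂ hϖW (show 1 ≤ R by omega) T₂.2.1 T₂.2.2 h0₂
  have hX : Ann.toX ϖW R a = ν.end₁ R T₁ ^ p ^ m := by
    rw [← map_pow, end₁_congr ν hϖW hϖ0 hϖE (x := T₁ ^ p ^ m) (y := ⟨t, htE, ht.1⟩) e₁,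
      ν.end₁_eq_toX hϖW R ⟨t, htE, ht.1⟩ ha]
  have hY : Ann.toY ϖW R a = ν.end₂ R T₂ ^ p ^ m := by
    rw [← map_pow, end₂_congr ν hϖW hϖ0 hϖE (x := T₂ ^ p ^ m) (y := ⟨t, htE, ht.2⟩) e₂,
      ν.end₂_eq_toY hϖW R ⟨t, htE, ht.2⟩ ha]
  haveI := Ann.isLocalRing_modPow ϖW hϖW (show R ≠ 0 by omega)
  have ha0 : a ≠ 0 := by
    rintro rfl
    rw [map_zero] at hX
    exact not_isUnit_zero (hX ▸ hU₁.pow _)
  have ht0 : t ≠ 0 := fun e => ha0 (by
    have : ν.emb ⟨t, htE⟩ = 0 := by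
      rw [show (⟨t, htE⟩ : E) = 0 from Subtype.ext e, map_zero]
    rw [ha] at this
    exact (FaithfulSMul.algebraMap_eq_zero_iff _ _).mp this)
  obtain ⟨r, j, l, r₁, r₂⟩ := exists_rootPow ϖW hϖW hp hv hζ hv' hR0 hR ha0
    (fun q hq hqϖ => by
      obtain ⟨P, e, hP⟩ := ν.place_of_prime q hq hqϖ
      have := hP ⟨t, htE⟩ a ht0 ha
      exact Int.natCast_dvd_natCast.mp (this ▸ (hdiv P).mul_left (e : ℤ))) hU₁ hU₂ hX hY
  rw [ν.end₁_level] at r₁
  rw [ν.end₂_level] at r₂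
  refine ⟨r * Ann.const ϖW (ζ ^ ((p ^ m - 1) * j)), (p ^ m - 1) * j + l, ?_, ?_⟩
  · rw [map_mul, r₁, Ann.toX_const, mul_right_comm, ← map_mul, ← map_mul, ← pow_add,
      show j + (p ^ m - 1) * j = p ^ m * j by
        rw [add_comm j, ← Nat.succ_mul, Nat.succ_eq_add_one, Nat.sub_add_cancel (pow_pos hp.pos m)]
      , pow_mul, hζ.pow_eq_one, one_pow, map_one, map_one, one_mul]
  · rw [map_mul, r₂, Ann.toY_const, mul_right_comm, ← map_mul, ← map_mul, ← pow_add, add_comm l]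

end Node

/-- Approximate roots of `u`, glued at all nodes. -/
def GluedRoots (ν : ∀ i, NodeEmb d E i ϖ ϖW) (P : ℕ) (u : F) : Prop :=
  ∀ R : ℕ, ∃ (T₁ : (E.toSubring ⊓ d.g₁.integers : Subring F))
    (T₂ : (E.toSubring ⊓ d.g₂.integers : Subring F)),
    CongMod d.g₁ ϖ R ((T₁ : F) ^ P) u ∧ CongMod d.g₂ ϖ R ((T₂ : F) ^ P) u ∧
      ∀ i, ∃ r : Ann ϖW, Ann.toX ϖW R r = (ν i).end₁ R T₁ ∧ Ann.toY ϖW R r = (ν i).end₂ R T₂

theorem GluedRoots.of_congr {ν : ∀ i, NodeEmb d E i ϖ ϖW} {P : ℕ} {u : F}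
    (h : ∀ R, ∃ R', R ≤ R' ∧ ∃ (T₁ : (E.toSubring ⊓ d.g₁.integers : Subring F))
      (T₂ : (E.toSubring ⊓ d.g₂.integers : Subring F)),
      CongMod d.g₁ ϖ R ((T₁ : F) ^ P) u ∧ CongMod d.g₂ ϖ R ((T₂ : F) ^ P) u ∧
        ∀ i, ∃ r : Ann ϖW, Ann.toX ϖW R' r = (ν i).end₁ R' T₁ ∧
          Ann.toY ϖW R' r = (ν i).end₂ R' T₂) : GluedRoots ν P u := fun R => by
  obtain ⟨R', hR, T₁, T₂, c₁, c₂, hr⟩ := h R
  refine ⟨T₁, T₂, c₁, c₂, fun i => ?_⟩
  obtain ⟨r, rX, rY⟩ := hr i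
  exact ⟨r, by rw [← Ann.levelMap_toX ϖW hR, rX, (ν i).end₁_level],
    by rw [← Ann.levelMap_toY ϖW hR, rY, (ν i).end₂_level]⟩

/-- The setting of the global statements. -/
structure Ground (d : NodalDatum A π F F₁ F₂) (E : Subfield F) (ϖ : A) (ϖW : W) (p : ℕ) where
  prime : p.Prime
  irreducible : Irreducible ϖW
  unif_ne_zero : (ϖ : K) ≠ 0
  pi_unif : π ϖ = 0
  arch : ∀ δ : K, δ ≠ 0 → ∃ R : ℕ, δ / (ϖ : K) ^ R ∉ A
  smul_mem : ∀ y : E, (ϖ : K) • (y : F) ∈ E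
  v : ℕ
  one_le : 1 ≤ v
  p_eq : ∃ u : A, (p : A) = ϖ ^ v * u ∧ π u ≠ 0
  p_eqW : ∃ w : W, IsUnit w ∧ (p : W) = ϖW ^ v * w
  node : ∀ i, NodeEmb d E i ϖ ϖW
  sec : F
  sec_mem : sec ∈ E
  sec_unit : IsDiscUnit d sec
  secDeg : ℕ
  one_le_secDeg : 1 ≤ secDeg
  sec_rr : sec ∈ riemannRochSpace (secDeg • d.D)
  sec_div : ∀ ω, d.redDiv d.D ω ≠ 0 → d.redDiv (divisorOf sec + secDeg • d.D) ω = 0
  rational : ∀ f ∈ E, ∀ m n' : ℕ, 0 ≤ smoothRoot d p m f → ∃ S : RationalStructure d ϖ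
    (d.sub n' (smoothRoot d p m f)), ∀ x, x ∈ S.carrier ↔ x ∈ E

variable {p : ℕ}

/-- A root of unity of `K` in `E` seen in `W`. -/
structure SeenRoot (G : Ground d E ϖ ϖW p) (N : ℕ) where
  ζ : K
  ζW : W
  primK : IsPrimitiveRoot ζ N
  primW : IsPrimitiveRoot ζW N
  mem_A : ζ ∈ A
  mem_E : algebraMap K F ζ ∈ E
  end₁ : ∀ (i : d.C.ι) (R : ℕ), (G.node i).end₁ R
      ⟨algebraMap K F ζ, mem_E, d.g₁.algebraMap_mem ⟨ζ, mem_A⟩⟩ =
    HahnSeries.C (modPowMk ϖW R ζW)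
  end₂ : ∀ (i : d.C.ι) (R : ℕ), (G.node i).end₂ R
      ⟨algebraMap K F ζ, mem_E, d.g₂.algebraMap_mem ⟨ζ, mem_A⟩⟩ =
    HahnSeries.C (modPowMk ϖW R ζW)

variable {G : Ground d E ϖ ϖW p}

namespace SeenRoot

variable {N : ℕ} (z : SeenRoot G N)

/-- The root as an element seen at the first component. -/
def el₁ : (E.toSubring ⊓ d.g₁.integers : Subring F) :=
  ⟨algebraMap K F z.ζ, z.mem_E, d.g₁.algebraMap_mem ⟨z.ζ, z.mem_A⟩⟩

/-- The root as an element seen at the second component. -/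
def el₂ : (E.toSubring ⊓ d.g₂.integers : Subring F) :=
  ⟨algebraMap K F z.ζ, z.mem_E, d.g₂.algebraMap_mem ⟨z.ζ, z.mem_A⟩⟩

/-- A power. -/
def powRoot {a b : ℕ} (hN : 0 < N) (e : N = a * b) : SeenRoot G b where
  ζ := z.ζ ^ a
  ζW := z.ζW ^ a
  primK := z.primK.pow hN e
  primW := z.primW.pow hN e
  mem_A := pow_mem z.mem_A a
  mem_E := by rw [map_pow]; exact pow_mem z.mem_E a
  end₁ i R := by
    rw [map_pow (modPowMk ϖW R), map_pow HahnSeries.C, ← z.end₁ i R, ← map_pow ((G.node i).end₁ R)]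
    exact congrArg _ (Subtype.ext (by simp))
  end₂ i R := by
    rw [map_pow (modPowMk ϖW R), map_pow HahnSeries.C, ← z.end₂ i R, ← map_pow ((G.node i).end₂ R)]
    exact congrArg _ (Subtype.ext (by simp))

end SeenRoot

variable [CharP k p]

/-- Approximate roots of order `p` of a function, glued at all nodes, give a root. -/
theorem exists_root_one (G : Ground d E ϖ ϖW p) {u : F} (huE : u ∈ E) (hu : IsDiscUnit d u) {n : ℕ}
    (hun : u ∈ riemannRochSpace ((p * n) • d.D)) (hdiv : ∀ P : Place K F, (p : ℤ) ∣ P.ord u)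
    (happ : GluedRoots G.node p u) : ∃ Φ : F, Φ ^ p = u := by
  obtain ⟨a, ha, ha0⟩ := G.p_eq
  refine exists_root_of_components G.irreducible G.unif_ne_zero G.pi_unif G.arch G.smul_mem
    G.prime G.one_le ha ha0 G.node hu hun hdiv G.sec_mem G.sec_unit G.one_le_secDeg G.sec_rr
    G.sec_div (fun n' => G.rational u huE n n'
      (smoothRoot_nonneg d G.prime.ne_zero hu.ne_zero hun)) fun R => ?_
  obtain ⟨T₁, T₂, c₁, c₂, hr⟩ := happ R
  exact ⟨T₁, T₂, c₁, c₂, hr⟩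

/-- An end of an element with non-zero reduction has, at every level, a unit coefficient in a
fixed degree. -/
theorem exists_unit_coeff (G : Ground d E ϖ ϖW p) (i : d.C.ι)
    (z : (E.toSubring ⊓ d.g₂.integers : Subring F)) (hz : d.g₂.red ⟨z, z.2.2⟩ ≠ 0) :
    ∃ l : ℤ, ∀ R, 1 ≤ R → ∃ w : W, IsUnit w ∧
      ((G.node i).end₂ R z).coeff l = modPowMk ϖW R w := by
  haveI := Ann.isLocalRing_modPow ϖW G.irreducible one_ne_zero
  have hu := (G.node i).isUnit_end₂ G.irreducible le_rfl z.2.1 z.2.2 hz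
  obtain ⟨l, hl⟩ : ∃ l, ((G.node i).end₂ 1 z).coeff l ≠ 0 := by
    by_contra h
    push Not at h
    exact hu.ne_zero (HahnSeries.ext (funext h))
  refine ⟨l, fun R hR => ?_⟩
  obtain ⟨w, hw⟩ := Ideal.Quotient.mk_surjective (((G.node i).end₂ R z).coeff l)
  refine ⟨w, ?_, hw.symm⟩
  by_contra hnu
  apply hl
  rw [← (G.node i).end₂_level 1 R hR z, levelMap, coeffMap_coeff, ← hw]
  refine (modPowMk_eq_zero_iff ϖW 1 w).mpr ?_
  rw [pow_one, ← Ideal.mem_span_singleton, ← G.irreducible.maximalIdeal_eq]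
  exact hnu

/-- **Glued approximate roots of order `p ^ m` give a root.** -/
theorem exists_rootPow_of_components (G : Ground d E ϖ ϖW p) (m : ℕ) :
    ∀ (_ : SeenRoot G (p ^ m)) {u : F} {n : ℕ}, u ∈ E → IsDiscUnit d u →
      u ∈ riemannRochSpace ((p ^ m * n) • d.D) →
      (∀ P : Place K F, ((p ^ m : ℕ) : ℤ) ∣ P.ord u) →
      (∀ (Φ : F) (j : ℕ), j ≤ m → Φ ^ p ^ j = u → Φ ∈ E) →
      GluedRoots G.node (p ^ m) u → ∃ Φ : F, Φ ^ p ^ m = u := by
  induction m with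
  | zero => intro _ u n _ _ _ _ _ _; exact ⟨u, by simp⟩
  | succ m ih =>
    intro z u n huE hu hun hdiv hroots happ
    have hp := G.prime
    have hπ := d.residue_surjective
    set η := z.powRoot (a := p ^ m) (b := p) (pow_pos hp.pos _) (pow_succ p m) with hη
    have h1 : GluedRoots G.node p u := fun R => by
      obtain ⟨T₁, T₂, c₁, c₂, hr⟩ := happ R
      refine ⟨T₁ ^ p ^ m, T₂ ^ p ^ m, ?_, ?_, fun i => ?_⟩
      · rwa [SubmonoidClass.coe_pow, ← pow_mul, ← pow_succ]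
      · rwa [SubmonoidClass.coe_pow, ← pow_mul, ← pow_succ]
      obtain ⟨r, rX, rY⟩ := hr i
      exact ⟨r ^ p ^ m, by rw [map_pow, map_pow, rX], by rw [map_pow, map_pow, rY]⟩
    obtain ⟨Φ, hΦ⟩ := exists_root_one G huE hu (n := p ^ m * n)
      (by rwa [← mul_assoc, ← pow_succ']) (fun P => (Int.natCast_dvd_natCast.mpr
        (dvd_pow_self p (Nat.succ_ne_zero m))).trans (hdiv P)) h1
    have hΦE : Φ ∈ E := hroots Φ 1 (Nat.succ_pos m) (by rw [pow_one]; exact hΦ)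
    obtain ⟨hu₁, hu₂⟩ := isDiscUnit_iff.mp hu
    have hΦ₁ : IsUnitAt d.g₁ Φ := isUnitAt_of_pow hπ hp.ne_zero (hΦ.symm ▸ hu₁)
    have hΦ₂ : IsUnitAt d.g₂ Φ := isUnitAt_of_pow hπ hp.ne_zero (hΦ.symm ▸ hu₂)
    have hord : ∀ P : Place K F, P.ord u = p * P.ord Φ := fun P => by
      rw [← hΦ, Curve.ord_pow']
    have hΦn : Φ ∈ riemannRochSpace ((p ^ m * n) • d.D) := fun P => by
      rw [P.adicValuation_eq_exp_neg_ord hΦ₁.ne_zero, exp_le_exp]
      have h := neg_le_ord_of_le_exp hu.ne_zero (hun P)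
      simp only [Finsupp.smul_apply, nsmul_eq_mul, Nat.cast_mul, pow_succ', hord] at h ⊢
      refine le_of_mul_le_mul_left ?_ (show (0 : ℤ) < p by exact_mod_cast hp.pos)
      linarith
    have hΦdiv : ∀ P : Place K F, ((p ^ m : ℕ) : ℤ) ∣ P.ord Φ := fun P => by
      refine Int.dvd_of_mul_dvd_mul_left (Int.natCast_ne_zero.mpr hp.ne_zero) ?_
      rw [← hord, ← Nat.cast_mul, ← pow_succ']
      exact hdiv P
    -- distinct constants are distinguished at one node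
    obtain ⟨i₀⟩ := d.C.nonempty
    let y : (E.toSubring ⊓ d.g₂.integers : Subring F) := ⟨Φ, hΦE, hΦ₂.1⟩
    let x : (E.toSubring ⊓ d.g₁.integers : Subring F) := ⟨Φ, hΦE, hΦ₁.1⟩
    obtain ⟨l, hl⟩ := exists_unit_coeff G i₀ y hΦ₂.2
    classical
    have hfin : ∀ a b : Fin p, a ≠ b → ∃ N : ℕ, ¬ ϖW ^ N ∣ η.ζW ^ (b : ℕ) - η.ζW ^ (a : ℕ) := by
      intro a b hab
      have hne : η.ζW ^ (b : ℕ) - η.ζW ^ (a : ℕ) ≠ 0 := fun e =>
        hab (Fin.ext (η.primW.pow_inj a.2 b.2 (sub_eq_zero.mp e).symm))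
      have hf := FiniteMultiplicity.of_prime_left G.irreducible.prime hne
      exact ⟨multiplicity ϖW _ + 1, hf.not_pow_dvd_of_multiplicity_lt (Nat.lt_succ_self _)⟩
    choose! bnd hbnd using hfin
    obtain ⟨N₀, hN₀⟩ : ∃ N₀, ∀ a b : Fin p, bnd a b ≤ N₀ :=
      ⟨Finset.univ.sup fun ab : Fin p × Fin p => bnd ab.1 ab.2, fun a b =>
        Finset.le_sup (f := fun ab : Fin p × Fin p => bnd ab.1 ab.2) (Finset.mem_univ (a, b))⟩
    have hEϖ := G.smul_mem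
    obtain ⟨Ψ, hΨ⟩ := ih (z.powRoot (a := p) (b := p ^ m) (pow_pos hp.pos _) (pow_succ' p m))
      hΦE (isDiscUnit_iff.mpr ⟨hΦ₁, hΦ₂⟩) hΦn hΦdiv
      (fun Ψ j hjm hj => hroots Ψ (j + 1) (Nat.succ_le_succ hjm) (by rw [pow_succ, pow_mul, hj, hΦ])) <| by
      refine GluedRoots.of_congr fun R => ?_
      set S := R + l.natAbs + N₀ + 1
      obtain ⟨T₁, T₂, c₁, c₂, hr⟩ := happ (p * S)
      obtain ⟨a, ha, ea⟩ := exists_root_congMod hπ G.unif_ne_zero hp.pos η.primK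
        (T := (T₁ : F) ^ p ^ m) (Φ := Φ) (R' := S) le_rfl
        (by rwa [← pow_mul, ← pow_succ, hΦ])
      obtain ⟨b, hb, eb⟩ := exists_root_congMod hπ G.unif_ne_zero hp.pos η.primK
        (T := (T₂ : F) ^ p ^ m) (Φ := Φ) (R' := S) le_rfl
        (by rwa [← pow_mul, ← pow_succ, hΦ])
      have hS : S ≤ p * S := Nat.le_mul_of_pos_left S hp.pos
      have hab : a = b := by
        by_contra hab
        obtain ⟨r, rX, rY⟩ := hr i₀
        have rX' : Ann.toX ϖW S r = (G.node i₀).end₁ S T₁ := by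
          rw [← Ann.levelMap_toX ϖW hS, rX, (G.node i₀).end₁_level]
        have rY' : Ann.toY ϖW S r = (G.node i₀).end₂ S T₂ := by
          rw [← Ann.levelMap_toY ϖW hS, rY, (G.node i₀).end₂_level]
        obtain ⟨aΦ, haΦ⟩ := (G.node i₀).reg ⟨Φ, hΦE⟩ _ ⟨hΦ₁.1, hΦ₂.1⟩ hΦn
        have ex : (G.node i₀).end₁ S T₁ ^ p ^ m =
            HahnSeries.C (modPowMk ϖW S (η.ζW ^ a)) * (G.node i₀).end₁ S x := by
          rw [← map_pow, end₁_congr (G.node i₀) G.irreducible G.unif_ne_zero hEϖ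
            (x := T₁ ^ p ^ m) (y := η.el₁ ^ a * x)
            (by simpa [Algebra.smul_def, SeenRoot.el₁, x] using ea)]
          rw [map_mul, map_pow, SeenRoot.el₁, η.end₁, map_pow, map_pow]
        have ey : (G.node i₀).end₂ S T₂ ^ p ^ m =
            HahnSeries.C (modPowMk ϖW S (η.ζW ^ b)) * (G.node i₀).end₂ S y := by
          rw [← map_pow, end₂_congr (G.node i₀) G.irreducible G.unif_ne_zero hEϖ
            (x := T₂ ^ p ^ m) (y := η.el₂ ^ b * y)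
            (by simpa [Algebra.smul_def, SeenRoot.el₂, y] using eb)]
          rw [map_mul, map_pow, SeenRoot.el₂, η.end₂, map_pow, map_pow]
        obtain ⟨w, hw, hwl⟩ := hl S (by omega)
        have hd := pow_dvd_of_ends ϖW G.irreducible
          (z := r ^ p ^ m - Ann.const ϖW (η.ζW ^ a) * aΦ) (δ := η.ζW ^ b - η.ζW ^ a)
          (Y := (G.node i₀).end₂ S y)
          (by rw [map_sub, map_pow, map_mul, Ann.toX_const, rX', ex,
            ← (G.node i₀).end₁_eq_toX G.irreducible S x haΦ, sub_self])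
          (by rw [map_sub, map_pow, map_mul, Ann.toY_const, rY', ey,
            ← (G.node i₀).end₂_eq_toY G.irreducible S y haΦ, map_sub, map_sub, sub_mul])
          hwl hw
        exact hbnd ⟨a, ha⟩ ⟨b, hb⟩ (fun e => hab (congrArg Fin.val e))
          ((pow_dvd_pow ϖW (show bnd ⟨a, ha⟩ ⟨b, hb⟩ ≤ S - l.natAbs by
            have := hN₀ ⟨a, ha⟩ ⟨b, hb⟩; omega)).trans hd)
      subst hab
      refine ⟨S, by omega, T₁ * z.el₁ ^ (p - a), T₂ * z.el₂ ^ (p - a), ?_, ?_, fun i => ?_⟩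
      · have := CongMod.mul_left (z := (algebraMap K F η.ζ) ^ (p - a))
          (pow_mem (d.g₁.algebraMap_mem ⟨η.ζ, η.mem_A⟩) _) (ea.mono (show R ≤ S by omega))
        rwa [Algebra.smul_def, ← mul_assoc, map_pow, ← pow_add, Nat.sub_add_cancel ha.le,
          ← map_pow (algebraMap K F) η.ζ p, η.primK.pow_eq_one, map_one, one_mul,
          show (algebraMap K F η.ζ) ^ (p - a) * (T₁ : F) ^ p ^ m =
            ((T₁ * z.el₁ ^ (p - a) : (E.toSubring ⊓ d.g₁.integers : Subring F)) : F) ^ p ^ m by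
            simp only [Subring.coe_mul, SubmonoidClass.coe_pow, SeenRoot.el₁, hη,
              SeenRoot.powRoot, map_pow, mul_pow, ← pow_mul]
            ring_nf] at this
      · have := CongMod.mul_left (z := (algebraMap K F η.ζ) ^ (p - a))
          (pow_mem (d.g₂.algebraMap_mem ⟨η.ζ, η.mem_A⟩) _) (eb.mono (show R ≤ S by omega))
        rwa [Algebra.smul_def, ← mul_assoc, map_pow, ← pow_add, Nat.sub_add_cancel ha.le,
          ← map_pow (algebraMap K F) η.ζ p, η.primK.pow_eq_one, map_one, one_mul,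
          show (algebraMap K F η.ζ) ^ (p - a) * (T₂ : F) ^ p ^ m =
            ((T₂ * z.el₂ ^ (p - a) : (E.toSubring ⊓ d.g₂.integers : Subring F)) : F) ^ p ^ m by
            simp only [Subring.coe_mul, SubmonoidClass.coe_pow, SeenRoot.el₂, hη,
              SeenRoot.powRoot, map_pow, mul_pow, ← pow_mul]
            ring_nf] at this
      · obtain ⟨r, rX, rY⟩ := hr i
        refine ⟨r * Ann.const ϖW (z.ζW ^ (p - a)), ?_, ?_⟩
        · rw [map_mul, map_mul, Ann.toX_const, map_pow ((G.node i).end₁ S), SeenRoot.el₁,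
            z.end₁, map_pow (modPowMk ϖW S), map_pow HahnSeries.C, ← Ann.levelMap_toX ϖW hS,
            rX, (G.node i).end₁_level]
        · rw [map_mul, map_mul, Ann.toY_const, map_pow ((G.node i).end₂ S), SeenRoot.el₂,
            z.end₂, map_pow (modPowMk ϖW S), map_pow HahnSeries.C, ← Ann.levelMap_toY ϖW hS,
            rY, (G.node i).end₂_level]
    exact ⟨Ψ, by rw [pow_succ, pow_mul, hΨ, hΦ]⟩

end FermatAgent.BadRed.AtP
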