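import Fermat.Agent.BadRed.AtP.UpContract
import Fermat.Agent.BadRed.Semistable.NodalGeneric
import Fermat.Agent.BadRed.Semistable.Residue

/-!
# Transfer of the operators, and the identity of a function with trivial norms

Operators pass to a smaller residue field and through an involution. If the norms of `f` and `w f`
are constants times `P`-th powers then `f = κ H ^ P N (N f)`, and the same for the conjugate
operator.
-/

set_option autoImplicit false

noncomputable section

open ModularCurve AlgebraicCurve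

namespace FermatAgent.BadRed.AtP

open FermatAgent.ModFun FermatAgent.ES FermatAgent.BadRed.Semistable FermatAgent.MazurPrinciple

section Transfer

variable {K : Type*} [Field K] {A : ValuationSubring K} {k : Type*} [Field k] {π : A →+* k}
  {F : Type*} [Field F] [Algebra K F] {R : Type*} [Field R] [Algebra k R]
  {g : GaussRed A π F R} {E E₀ : Subfield F} {ϖ : A} {e : ℕ}

theorem isUnitAt_codRestrict {S : IntermediateField k R} {h : ∀ x, g.red x ∈ S} {x : F} :
    IsUnitAt (g.codRestrict S h) x ↔ IsUnitAt g x :=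
  ⟨fun ⟨hx, hr⟩ => ⟨hx, fun h0 => hr (Subtype.ext h0)⟩,
    fun ⟨hx, hr⟩ => ⟨hx, fun h0 => hr (congrArg Subtype.val h0)⟩⟩

/-- An operator for a Gauss valuation with smaller residue field. -/
def codContract (C : ContractOp g E E₀ ϖ e) (S : IntermediateField k R) (h : ∀ x, g.red x ∈ S) :
    ContractOp (g.codRestrict S h) E E₀ ϖ e where
  N := C.N
  mem_E := C.mem_E
  mem_E₀ := C.mem_E₀
  isUnitAt _ hx := isUnitAt_codRestrict.mpr (C.isUnitAt _ (isUnitAt_codRestrict.mp hx))
  step R hR x hx hc := C.step R hR x (isUnitAt_codRestrict.mp hx) hc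
  const := C.const

/-- The same for operators keeping congruences. -/
def codHecke (O : HeckeOp g E E₀ ϖ e) (S : IntermediateField k R) (h : ∀ x, g.red x ∈ S) :
    HeckeOp (g.codRestrict S h) E E₀ ϖ e where
  T := O.T
  mem_E := O.mem_E
  mem_E₀ := O.mem_E₀
  isUnitAt _ hx := isUnitAt_codRestrict.mpr (O.isUnitAt _ (isUnitAt_codRestrict.mp hx))
  congr R x hx hc := O.congr R x (isUnitAt_codRestrict.mp hx) hc
  const := O.const

variable (w : F ≃ₐ[K] F)

theorem isUnitAt_twist {x : F} : IsUnitAt (g.twist w) x ↔ IsUnitAt g (w x) := Iff.rfl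

theorem congMod_twist_one {R' : ℕ} {x : F} :
    CongMod (g.twist w) ϖ R' x 1 ↔ CongMod g ϖ R' (w x) 1 :=
  ⟨fun ⟨y, hy, e⟩ => ⟨w y, hy, by rw [← map_smul, ← e, map_sub, map_one]⟩,
    fun ⟨y, hy, e⟩ => ⟨w.symm y, show w (w.symm y) ∈ g.integers by
      rwa [AlgEquiv.apply_symm_apply], w.injective (by
        rw [map_smul, AlgEquiv.apply_symm_apply, ← e, map_sub, map_one])⟩⟩

variable (hw : ∀ x, w (w x) = x) (hE : ∀ x ∈ E, w x ∈ E) (hE₀ : ∀ x ∈ E₀, w x ∈ E₀)

/-- The conjugate of a multiplicative map. -/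
def conjHom (N : F →* F) : F →* F :=
  (w.toRingEquiv.toRingHom.toMonoidHom.comp N).comp w.toRingEquiv.toRingHom.toMonoidHom

theorem conjHom_apply (N : F →* F) (x : F) : conjHom w N x = w (N (w x)) := rfl

include hw hE hE₀ in
/-- The conjugate operator for the twisted valuation. -/
def twistContract (C : ContractOp g E E₀ ϖ e) : ContractOp (g.twist w) E E₀ ϖ e where
  N := conjHom w C.N
  mem_E x hx := hE _ (C.mem_E _ (hE x hx))
  mem_E₀ x hx := hE₀ _ (C.mem_E₀ _ (hE₀ x hx))
  isUnitAt x hx := (isUnitAt_twist w).mpr (by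
    rw [conjHom_apply, hw]; exact C.isUnitAt _ ((isUnitAt_twist w).mp hx))
  step R hR x hx hc := (congMod_twist_one w).mpr (by
    rw [conjHom_apply, hw]
    exact C.step R hR _ ((isUnitAt_twist w).mp hx) ((congMod_twist_one w).mp hc))
  const c := by rw [conjHom_apply, w.commutes, C.const, w.commutes]

include hw hE hE₀ in
/-- The same for operators keeping congruences. -/
def twistHecke (O : HeckeOp g E E₀ ϖ e) : HeckeOp (g.twist w) E E₀ ϖ e where
  T := conjHom w O.T
  mem_E x hx := hE _ (O.mem_E _ (hE x hx))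
  mem_E₀ x hx := hE₀ _ (O.mem_E₀ _ (hE₀ x hx))
  isUnitAt x hx := (isUnitAt_twist w).mpr (by
    rw [conjHom_apply, hw]; exact O.isUnitAt _ ((isUnitAt_twist w).mp hx))
  congr R x hx hc := (congMod_twist_one w).mpr (by
    rw [conjHom_apply, hw]
    exact O.congr R _ ((isUnitAt_twist w).mp hx) ((congMod_twist_one w).mp hc))
  const c := by rw [conjHom_apply, w.commutes, O.const, w.commutes]

end Transfer

variable {K : Type*} [Field K] [Algebra ℚ K] {p : ℕ} [hp : Fact p.Prime] {M : ℕ} [NeZero M]
  [NeZero (p * M)] (hco : p.Coprime M) {ζ : Kˣ} (hζ : IsPrimitiveRoot ζ p)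

local notation "Fbot" => laurentBaseChange K (modularFunctionFieldFull M)
local notation "Ftop" => laurentBaseChange K (modularFunctionFieldFull (p * M))

theorem upNorm_mul_eq (x : Ftop) (hx : x ≠ 0) : upNorm hco K x * atkinLehnerBar hco K x =
    levelIncl p M K (normAlong (levelIncl p M K) (atkinLehnerBar hco K x)) := by
  rw [upNorm_apply, mul_assoc, inv_mul_cancel₀ (by simpa using hx), mul_one]

theorem upNorm_ne_zero {x : Ftop} (hx : x ≠ 0) : upNorm hco K x ≠ 0 := fun h => by
  have := congrArg (upNorm hco K) (mul_inv_cancel₀ hx)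
  rw [map_mul, h, zero_mul, map_one] at this
  exact zero_ne_one this

include hζ in
theorem upNorm_smul (c : K) (x : Ftop) :
    upNorm hco K (c • x) = (c ^ p) • upNorm hco K x := by
  rw [Algebra.smul_def, Algebra.smul_def, map_mul, upNorm_algebraMap hco hζ]

include hζ in
/-- **The identity.** If the norms of `f` and `w f` are constants times `P`-th powers then `f` is
a constant times a `P`-th power times `N (N f)`. -/
theorem eq_upNorm_upNorm {f : Ftop} (hf : f ≠ 0) {P : ℕ} {c c' : K} {G G' : Fbot}
    (hc : normAlong (levelIncl p M K) f = c • G ^ P)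
    (hc' : normAlong (levelIncl p M K) (atkinLehnerBar hco K f) = c' • G' ^ P) :
    f = (c / c' ^ p) •
      ((levelIncl p M K G / upNorm hco K (levelIncl p M K G')) ^ P *
        upNorm hco K (upNorm hco K f)) := by
  set w := atkinLehnerBar hco K
  have hwf : w f ≠ 0 := by simpa using hf
  have e1 : upNorm hco K (w f) * f = c • levelIncl p M K G ^ P := by
    have := upNorm_mul_eq hco (w f) hwf
    rw [atkinLehnerBar_atkinLehnerBar, hc] at this
    rw [this, map_smul, map_pow]
  have e2 : upNorm hco K f * w f = c' • levelIncl p M K G' ^ P := by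
    rw [upNorm_mul_eq hco f hf, hc', map_smul, map_pow]
  have e3 : upNorm hco K (upNorm hco K f) * upNorm hco K (w f) =
      (c' ^ p) • upNorm hco K (levelIncl p M K G') ^ P := by
    rw [← map_mul, e2, upNorm_smul hco hζ, map_pow]
  have hNw := upNorm_ne_zero hco hwf
  have hne : (c' ^ p) • upNorm hco K (levelIncl p M K G') ^ P ≠ 0 :=
    e3 ▸ mul_ne_zero (upNorm_ne_zero hco (upNorm_ne_zero hco hf)) hNw
  rw [Algebra.smul_def] at hne e1 e3 ⊢
  obtain ⟨ha, hb⟩ := ne_zero_and_ne_zero_of_mul hne
  refine mul_left_cancel₀ hNw ?_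
  rw [e1, map_div₀, div_pow]
  rw [← eq_div_iff hNw] at e3
  rw [e3]
  field_simp

include hζ in
/-- The same identity for the conjugate operator. -/
theorem eq_conjNorm_conjNorm {f : Ftop} (hf : f ≠ 0) {P : ℕ} {c c' : K} {G G' : Fbot}
    (hc : normAlong (levelIncl p M K) f = c • G ^ P)
    (hc' : normAlong (levelIncl p M K) (atkinLehnerBar hco K f) = c' • G' ^ P) :
    f = (c' / c ^ p) •
      ((atkinLehnerBar hco K (levelIncl p M K G' / upNorm hco K (levelIncl p M K G))) ^ P *
        conjHom (atkinLehnerBar hco K) (upNorm hco K)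
          (conjHom (atkinLehnerBar hco K) (upNorm hco K) f)) := by
  have h := eq_upNorm_upNorm hco hζ (f := atkinLehnerBar hco K f) (by simpa using hf) hc'
    (by rwa [atkinLehnerBar_atkinLehnerBar])
  have h' := congrArg (atkinLehnerBar hco K) h
  rw [atkinLehnerBar_atkinLehnerBar, map_smul, map_mul, map_pow] at h'
  rwa [conjHom_apply, conjHom_apply, atkinLehnerBar_atkinLehnerBar]

end FermatAgent.BadRed.AtP
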