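import Fermat.Agent.BadRed.AtP.AuxLevel
import Fermat.Agent.BadRed.AtP.UpTransfer
import Fermat.Agent.BadRed.Carayol.Instance.Tower

/-!
# The norm of a Hecke correspondence commutes with the involution at `p`
-/

set_option autoImplicit false
set_option linter.unusedSectionVars false

noncomputable section

open ModularCurve AlgebraicCurve IntermediateField

namespace FermatAgent.BadRed.AtP

open FermatAgent.ModFun FermatAgent.ES
open FermatAgent.BadRed.Carayol.Instance (castLevel coe_castLevel)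

variable {p : ℕ} [hp : Fact p.Prime] {ℓ : ℕ} [hℓ : Fact ℓ.Prime] {N : ℕ} [NeZero N]
  [NeZero (p * N)] [NeZero (ℓ * N)] [NeZero (p * (ℓ * N))] [NeZero (ℓ * (p * N))]
  (hN : p.Coprime N) (hℓN : p.Coprime (ℓ * N)) (hl : ℓ.Coprime (p * N))
variable (K : Type*) [Field K] [Algebra ℚ K]

theorem qExpand_mem_dil {x : LaurentSeries ℚ} [NeZero ℓ]
    (hx : x ∈ modularFunctionFieldFull (p * N)) :
    qExpand ℚ ℓ x ∈ modularFunctionFieldFull (p * (ℓ * N)) := by
  induction hx using IntermediateField.adjoin_induction with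
  | mem x hx =>
    obtain ⟨d, hne, hd, rfl⟩ := hx
    have : NeZero (ℓ * d) := ⟨Nat.mul_ne_zero hℓ.out.ne_zero (NeZero.ne d)⟩
    rw [qExpand_qExpand]
    exact jqd_mem_full _ ((mul_dvd_mul_left ℓ hd).trans (by rw [mul_left_comm]))
  | algebraMap c =>
    rw [show qExpand ℚ ℓ (algebraMap ℚ (LaurentSeries ℚ) c) = algebraMap ℚ (LaurentSeries ℚ) c from
      (qExpandₐ ℓ).commutes c]
    exact IntermediateField.algebraMap_mem _ c
  | add a b _ _ iha ihb => rw [map_add]; exact add_mem iha ihb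
  | inv a _ iha => rw [map_inv₀]; exact inv_mem iha
  | mul a b _ _ iha ihb => rw [map_mul]; exact mul_mem iha ihb

include hN hℓN in
/-- The involution at `p` commutes with `q ↦ q ^ ℓ`. -/
theorem coe_atkinLehner_dil (y : modularFunctionFieldFull (p * N)) :
    haveI : NeZero ℓ := ⟨hℓ.out.ne_zero⟩
    (atkinLehner hℓN ⟨qExpand ℚ ℓ (y : LaurentSeries ℚ), qExpand_mem_dil y.2⟩ : LaurentSeries ℚ) =
      qExpand ℚ ℓ (atkinLehner hN y : LaurentSeries ℚ) := by
  have : NeZero ℓ := ⟨hℓ.out.ne_zero⟩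
  suffices ∀ (x : LaurentSeries ℚ), x ∈ IntermediateField.adjoin ℚ
      (ModularCurve.divisorExpansions (p * N)) → ∀ (hx : x ∈ modularFunctionFieldFull (p * N)),
      (atkinLehner hℓN ⟨qExpand ℚ ℓ x, qExpand_mem_dil hx⟩ : LaurentSeries ℚ) =
        qExpand ℚ ℓ (atkinLehner hN ⟨x, hx⟩ : LaurentSeries ℚ) from this y.1 y.2 y.2
  intro x hx
  induction hx using IntermediateField.adjoin_induction with
  | mem x hx =>
    intro hx'
    obtain ⟨d, hne, hd, rfl⟩ := hx
    by_cases hpd : p ∣ d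
    · obtain ⟨e, rfl⟩ := hpd
      have : NeZero e := ⟨fun he => hne.out (by rw [he, mul_zero])⟩
      have : NeZero (ℓ * e) := ⟨Nat.mul_ne_zero hℓ.out.ne_zero (NeZero.ne e)⟩
      have he : e ∣ N := Nat.dvd_of_mul_dvd_mul_left hp.out.pos hd
      have hm : (⟨qExpand ℚ ℓ (qExpand ℚ (p * e) jq), qExpand_mem_dil hx'⟩ :
          modularFunctionFieldFull (p * (ℓ * N))) = ⟨qExpand ℚ (p * (ℓ * e)) jq,
            jqd_mem_full _ (mul_dvd_mul_left p (mul_dvd_mul_left ℓ he))⟩ :=
        Subtype.ext ((qExpand_qExpand _ _ _).trans (qExpand_congr (mul_left_comm ℓ p e) _))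
      rw [hm, (atkinLehner_qExpand hℓN (mul_dvd_mul_left ℓ he)).2,
        (atkinLehner_qExpand hN he).2, qExpand_qExpand]
    · have he : d ∣ N := ((hp.out.coprime_iff_not_dvd.mpr hpd).symm).dvd_of_dvd_mul_left hd
      have : NeZero (ℓ * d) := ⟨Nat.mul_ne_zero hℓ.out.ne_zero (NeZero.ne d)⟩
      have : NeZero (p * d) := ⟨Nat.mul_ne_zero hp.out.ne_zero (NeZero.ne d)⟩
      have hm : (⟨qExpand ℚ ℓ (qExpand ℚ d jq), qExpand_mem_dil hx'⟩ :
          modularFunctionFieldFull (p * (ℓ * N))) = ⟨qExpand ℚ (ℓ * d) jq,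
            jqd_mem_full _ ((mul_dvd_mul_left ℓ he).trans (dvd_mul_left _ p))⟩ :=
        Subtype.ext (qExpand_qExpand _ _ _)
      rw [hm, (atkinLehner_qExpand hℓN (mul_dvd_mul_left ℓ he)).1,
        (atkinLehner_qExpand hN he).1, qExpand_qExpand]
      exact qExpand_congr (mul_left_comm p ℓ d) _
  | algebraMap c =>
    intro hx'
    rw [show (⟨qExpand ℚ ℓ (algebraMap ℚ (LaurentSeries ℚ) c), qExpand_mem_dil hx'⟩ :
        modularFunctionFieldFull (p * (ℓ * N))) = (c : modularFunctionFieldFull (p * (ℓ * N))) from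
        Subtype.ext (((qExpandₐ ℓ).commutes c).trans (by simp)),
      show (⟨algebraMap ℚ (LaurentSeries ℚ) c, hx'⟩ : modularFunctionFieldFull (p * N))
      = (c : modularFunctionFieldFull (p * N)) from Subtype.ext (by simp), map_ratCast, map_ratCast,
      SubfieldClass.coe_ratCast, SubfieldClass.coe_ratCast, map_ratCast]
  | add u v hu hv ihu ihv =>
    intro hx'
    rw [show (⟨qExpand ℚ ℓ (u + v), qExpand_mem_dil hx'⟩ : modularFunctionFieldFull (p * (ℓ * N))) =
        ⟨qExpand ℚ ℓ u, qExpand_mem_dil hu⟩ + ⟨qExpand ℚ ℓ v, qExpand_mem_dil hv⟩ from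
        Subtype.ext (map_add _ u v),
      show (⟨u + v, hx'⟩ : modularFunctionFieldFull (p * N)) = ⟨u, hu⟩ + ⟨v, hv⟩ from rfl,
      map_add, map_add, AddMemClass.coe_add, AddMemClass.coe_add, ihu hu, ihv hv, map_add]
  | inv u hu ihu =>
    intro hx'
    rw [show (⟨qExpand ℚ ℓ u⁻¹, qExpand_mem_dil hx'⟩ : modularFunctionFieldFull (p * (ℓ * N)))
        = (⟨qExpand ℚ ℓ u, qExpand_mem_dil hu⟩ : modularFunctionFieldFull (p * (ℓ * N)))⁻¹ from
        Subtype.ext (map_inv₀ _ u),
      show (⟨u⁻¹, hx'⟩ : modularFunctionFieldFull (p * N))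
      = (⟨u, hu⟩ : modularFunctionFieldFull (p * N))⁻¹ from rfl, map_inv₀, map_inv₀]
    exact (congrArg (·⁻¹) (ihu hu)).trans (map_inv₀ (qExpand ℚ ℓ) _).symm
  | mul u v hu hv ihu ihv =>
    intro hx'
    rw [show (⟨qExpand ℚ ℓ (u * v), qExpand_mem_dil hx'⟩ : modularFunctionFieldFull (p * (ℓ * N))) =
        ⟨qExpand ℚ ℓ u, qExpand_mem_dil hu⟩ * ⟨qExpand ℚ ℓ v, qExpand_mem_dil hv⟩ from
        Subtype.ext (map_mul _ u v),
      show (⟨u * v, hx'⟩ : modularFunctionFieldFull (p * N)) = ⟨u, hu⟩ * ⟨v, hv⟩ from rfl,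
      map_mul, map_mul, MulMemClass.coe_mul, MulMemClass.coe_mul, ihu hu, ihv hv, map_mul]

include hN hl hℓN in
/-- **`T ℓ` on functions commutes with the involution at `p`.** -/
theorem heckeNorm_atkinLehnerBar (f : laurentBaseChange K (modularFunctionFieldFull (p * N))) :
    heckeNorm K hl (atkinLehnerBar hN K f) = atkinLehnerBar hN K (heckeNorm K hl f) := by
  have : NeZero ℓ := ⟨hℓ.out.ne_zero⟩
  set i := levelIncl ℓ (p * N) K with hi
  set c := castLevel K (mul_left_comm ℓ p N) with hc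
  set W := (c.trans (atkinLehnerBar hℓN K)).trans c.symm with hW
  -- `W` restricts to the involution
  have hWi : ∀ z, W (i z) = i (atkinLehnerBar hN K z) := by
    intro z
    have e : c (i z) = upLevel (dvd_mul_left N ℓ) K z :=
      Subtype.ext (by rw [hc, coe_castLevel, hi, coe_levelIncl, coe_upLevel])
    show c.symm (atkinLehnerBar hℓN K (c (i z))) = _
    rw [e, atkinLehnerBar_upLevel hN hℓN (dvd_mul_left N ℓ) K, AlgEquiv.symm_apply_eq]
    exact Subtype.ext (by rw [hc, coe_castLevel, hi, coe_levelIncl, coe_upLevel])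
  -- and commutes with the other degeneracy map
  have hWw : W (atkinLehnerBar hl K (i f)) = atkinLehnerBar hl K (i (atkinLehnerBar hN K f)) := by
    refine DFunLike.congr_fun (show W.toAlgHom.comp ((atkinLehnerBar hl K).toAlgHom.comp i) =
      ((atkinLehnerBar hl K).toAlgHom.comp i).comp (atkinLehnerBar hN K).toAlgHom from
      algHom_ext_toBaseChange K fun y => ?_) f
    show c.symm (atkinLehnerBar hℓN K (c (atkinLehnerBar hl K (i (toBaseChange K _ y))))) =
      atkinLehnerBar hl K (i (atkinLehnerBar hN K (toBaseChange K _ y)))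
    have e : c (atkinLehnerBar hl K (i (toBaseChange K _ y))) = toBaseChange K _
        ⟨qExpand ℚ ℓ (y : LaurentSeries ℚ), qExpand_mem_dil y.2⟩ := Subtype.ext (by
      rw [hc, coe_castLevel, hi, coe_atkinLehnerBar_levelIncl, coe_toBaseChange, coe_toBaseChange]
      exact (coeffMap_qExpand _ ℓ _).symm)
    rw [AlgEquiv.symm_apply_eq, e, atkinLehnerBar_toBaseChange, atkinLehnerBar_toBaseChange]
    refine Subtype.ext ?_
    rw [coe_toBaseChange, coe_atkinLehner_dil hN hℓN y, hc, coe_castLevel, hi,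
      coe_atkinLehnerBar_levelIncl, coe_toBaseChange]
    exact coeffMap_qExpand _ ℓ _
  rw [heckeNorm_apply, heckeNorm_apply, ← hi, ← hWw]
  let := algebraAlong i
  exact ((congrArg (atkinLehnerBar hN K) (Algebra.norm_eq_of_equiv_equiv
    (atkinLehnerBar hN K).toRingEquiv W.toRingEquiv
    (RingHom.ext fun z => (hWi z).symm) (atkinLehnerBar hl K (i f)))).trans
    (AlgEquiv.apply_symm_apply _ _)).symm

include hN hl hℓN in
theorem conjHom_heckeNorm :
    conjHom (atkinLehnerBar hN K) (heckeNorm K hl) = heckeNorm K hl :=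
  MonoidHom.ext fun f => by
    rw [conjHom_apply, heckeNorm_atkinLehnerBar hN hℓN hl, atkinLehnerBar_atkinLehnerBar]

end FermatAgent.BadRed.AtP
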