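import Fermat.Agent.MazurPrinciple.FixedFun
import Mathlib.RingTheory.RootsOfUnity.PrimitiveRoots

/-!
# Roots of functions over a field of constants

A root of order dividing `P` of a function over `S` is over `S` as soon as `S` contains the roots
of unity of order `P` and a `P`-th root of the leading coefficient.
-/

set_option autoImplicit false
set_option linter.unusedSectionVars false

noncomputable section

open ModularCurve AlgebraicCurve

namespace FermatAgent.BadRed.AtP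

open FermatAgent.MazurPrinciple
open FermatAgent.ModCurveTorsion (galN coe_galN_smul)

local notation "ℚbar" => AlgebraicClosure ℚ
local notation "GQ" => AlgebraicClosure ℚ ≃ₐ[ℚ] AlgebraicClosure ℚ
local notation "𝐅" N:max => laurentBaseChange ℚbar (modularFunctionFieldFull N)

theorem leadingCoeff_coeffMap {R S : Type*} [CommRing R] [CommRing S] {φ : R →+* S}
    (hφ : Function.Injective φ) (x : LaurentSeries R) :
    (coeffMap φ x).leadingCoeff = φ x.leadingCoeff := by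
  rcases eq_or_ne x 0 with rfl | hx
  · rw [map_zero, HahnSeries.leadingCoeff_zero, HahnSeries.leadingCoeff_zero, map_zero]
  have h0 : coeffMap φ x ≠ 0 := fun h => hx (HahnSeries.ext (funext fun n => hφ (by
    rw [← coeffMap_coeff, h, HahnSeries.coeff_zero, HahnSeries.coeff_zero, map_zero])))
  have ho : (coeffMap φ x).order = x.order := le_antisymm
    (HahnSeries.order_le_of_coeff_ne_zero (by
      rw [coeffMap_coeff, Ne, map_eq_zero_iff φ hφ]
      exact HahnSeries.coeff_order_eq_zero.not.mpr hx))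
    (HahnSeries.order_le_of_coeff_ne_zero fun h => HahnSeries.coeff_order_eq_zero.not.mpr h0 (by
      rw [coeffMap_coeff, h, map_zero]))
  rw [HahnSeries.leadingCoeff_eq, HahnSeries.leadingCoeff_eq, coeffMap_coeff, ho]

variable {L : ℕ} [NeZero L]

/-- The leading coefficient. -/
def leadHom : 𝐅 L →* ℚbar where
  toFun f := (f : LaurentSeries ℚbar).leadingCoeff
  map_one' := HahnSeries.leadingCoeff_one
  map_mul' a b := HahnSeries.leadingCoeff_mul (a : LaurentSeries ℚbar) b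

theorem leadHom_ne_zero {f : 𝐅 L} (hf : f ≠ 0) : leadHom f ≠ 0 := fun h =>
  hf (Subtype.ext (HahnSeries.leadingCoeff_eq_zero.mp h))

theorem leadHom_galN (σ : GQ) (f : 𝐅 L) : leadHom (galN L σ • f) = σ (leadHom f) := by
  show ((galN L σ • f : 𝐅 L) : LaurentSeries ℚbar).leadingCoeff = _
  rw [coe_galN_smul, leadingCoeff_coeffMap σ.injective]
  rfl

variable (S : IntermediateField ℚ ℚbar) (P : ℕ)

theorem leadHom_mem {f : 𝐅 L} (hf : f ∈ fixedFun S L) : leadHom f ∈ S := by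
  show (f : LaurentSeries ℚbar).leadingCoeff ∈ S
  rw [HahnSeries.leadingCoeff_eq]
  exact mem_fixedFun_iff_coeff.mp hf _

/-- The leading coefficient is a `P`-th power in `S`. -/
def LeadPow (f : 𝐅 L) : Prop := ∃ a ∈ S, a ^ P = leadHom f

variable {S P}

theorem LeadPow.mul {f g : 𝐅 L} (hf : LeadPow S P f) (hg : LeadPow S P g) :
    LeadPow S P (f * g) := by
  obtain ⟨a, ha, ea⟩ := hf
  obtain ⟨b, hb, eb⟩ := hg
  exact ⟨a * b, mul_mem ha hb, by rw [mul_pow, ea, eb, map_mul]⟩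

theorem LeadPow.pow {f : 𝐅 L} (hf : LeadPow S P f) (n : ℕ) : LeadPow S P (f ^ n) := by
  obtain ⟨a, ha, ea⟩ := hf
  exact ⟨a ^ n, pow_mem ha n, by rw [← pow_mul, mul_comm, pow_mul, ea, map_pow]⟩

theorem LeadPow.inv {f : 𝐅 L} (hf : LeadPow S P f) (hf0 : f ≠ 0) : LeadPow S P f⁻¹ := by
  obtain ⟨a, ha, ea⟩ := hf
  refine ⟨a⁻¹, inv_mem ha, ?_⟩
  rw [inv_pow, ea]
  exact (eq_inv_of_mul_eq_one_left (by rw [← map_mul, inv_mul_cancel₀ hf0, map_one])).symm

theorem LeadPow.galN {f : 𝐅 L} (hf : LeadPow S P f) {σ : GQ} (hσ : ∀ x ∈ S, σ x ∈ S) :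
    LeadPow S P (galN L σ • f) := by
  obtain ⟨a, ha, ea⟩ := hf
  exact ⟨σ a, hσ a ha, by rw [← map_pow, ea, leadHom_galN]⟩

theorem leadPow_pow_self {G : 𝐅 L} (hG : G ∈ fixedFun S L) : LeadPow S P (G ^ P) :=
  ⟨leadHom G, leadHom_mem S hG, (map_pow _ _ _).symm⟩

/-- **Roots stay over `S`.** -/
theorem mem_fixedFun_of_pow {ζ : ℚbar} (hζ : IsPrimitiveRoot ζ P) (hζS : ζ ∈ S) (hP : 0 < P)
    {q : ℕ} (hq : q ∣ P) {u Φ : 𝐅 L} (hu : u ∈ fixedFun S L) (hu0 : u ≠ 0) (hl : LeadPow S P u)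
    (hΦ : Φ ^ q = u) : Φ ∈ fixedFun S L := by
  have hq0 : 0 < q := Nat.pos_of_dvd_of_pos hq hP
  obtain ⟨e, he⟩ := hq
  have hη : IsPrimitiveRoot (ζ ^ e) q := hζ.pow hP (by rw [he, mul_comm])
  have : NeZero q := ⟨hq0.ne'⟩
  have hΦ0 : Φ ≠ 0 := fun h => hu0 (by rw [← hΦ, h, zero_pow hq0.ne'])
  obtain ⟨a, ha, ea⟩ := hl
  have ha0 : a ≠ 0 := fun h => leadHom_ne_zero hu0 (by rw [← ea, h, zero_pow hP.ne'])
  obtain ⟨j, -, hj⟩ := hη.eq_pow_of_pow_eq_one (ξ := leadHom Φ / a ^ e) (by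
    rw [div_pow, ← map_pow, hΦ, ← pow_mul, mul_comm e q, ← he, ea, div_self (leadHom_ne_zero hu0)])
  have hlead : leadHom Φ ∈ S := by
    rw [show leadHom Φ = (ζ ^ e) ^ j * a ^ e by rw [hj, div_mul_cancel₀ _ (pow_ne_zero _ ha0)]]
    exact mul_mem (pow_mem (pow_mem hζS _) _) (pow_mem ha _)
  intro σ hσ
  have hF : IsPrimitiveRoot (algebraMap ℚbar (𝐅 L) (ζ ^ e)) q :=
    hη.map_of_injective (algebraMap ℚbar (𝐅 L)).injective
  obtain ⟨i, -, hi⟩ := hF.eq_pow_of_pow_eq_one (ξ := galN L σ • Φ / Φ) (by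
    rw [div_pow, ← smul_pow', hΦ, hu σ hσ, div_self hu0])
  have hmul : galN L σ • Φ = algebraMap ℚbar (𝐅 L) ((ζ ^ e) ^ i) * Φ := by
    rw [map_pow, hi, div_mul_cancel₀ _ hΦ0]
  have h1 := congrArg leadHom hmul
  rw [leadHom_galN, (IntermediateField.mem_fixingSubgroup_iff S σ).mp hσ _ hlead, map_mul] at h1
  have h2 : leadHom (algebraMap ℚbar (𝐅 L) ((ζ ^ e) ^ i)) = (ζ ^ e) ^ i := by
    show ((algebraMap ℚbar (𝐅 L) ((ζ ^ e) ^ i) : 𝐅 L) : LaurentSeries ℚbar).leadingCoeff = _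
    rw [IntermediateField.coe_algebraMap_apply, algebraMap_laurentSeries_eq_single,
      HahnSeries.leadingCoeff_of_single]
  rw [h2] at h1
  have h3 : (ζ ^ e) ^ i = 1 := mul_right_cancel₀ (leadHom_ne_zero hΦ0) (by rw [one_mul]; exact h1.symm)
  rw [hmul, h3, map_one, one_mul]

end FermatAgent.BadRed.AtP
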