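import Fermat.Agent.MazurPrinciple.NodeTwist
import Fermat.Agent.BadRed.Semistable.Semilinear

/-!
# Semilinear automorphisms at the node of a chart

An automorphism fixing the coordinates of the chart and the node, and moving the scalars, preserves
the local ring at the node, and the gluing constants move by its action on the roots of unity.
-/

set_option autoImplicit false
set_option linter.unusedSectionVars false
set_option linter.style.haveILetI false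
set_option maxHeartbeats 800000

noncomputable section

namespace FermatAgent.BadRed.AtP

open IsLocalRing AlgebraicCurve
open FermatAgent.MazurPrinciple FermatAgent.BadRed.Carayol FermatAgent.BadRed.Semistable
open FermatAgent.Curve FermatAgent.Curve.RR

variable {q : ℕ} [Fact q.Prime] {W K F F₁ F₂ : Type*}
  [CommRing W] [IsDomain W] [IsDiscreteValuationRing W] [IsAlgClosed (IsLocalRing.ResidueField W)]
  [Field K] [CharZero K] [Algebra W K] [IsFractionRing W K]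
  [Field F] [Field F₁] [Field F₂] [Algebra K F] [Algebra K F₁] [Algebra K F₂]
  [Algebra W F] [Algebra W F₁] [Algebra W F₂]
  [IsScalarTower W K F] [IsScalarTower W K F₁] [IsScalarTower W K F₂]
  {T : QTower q K F F₁ F₂} {u : F}
variable {L : Type*} [Field L] [IsAlgClosed L] {A : ValuationSubring L} {k : Type*} [Field k]
  [IsAlgClosed k] {π : A →+* k} {E G₁ G₂ : Type*} [Field E] [Field G₁] [Field G₂]
  [Algebra L E] [Algebra k G₁] [Algebra k G₂] [IsFunctionField1 L E] [IsFunctionField1 k G₁]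
  [IsFunctionField1 k G₂] [RRSetting L E] [RRSetting k G₁] [RRSetting k G₂]
variable {d : NodalDatum A π E G₁ G₂}
variable {C : ChartLink W T u d} {i : d.C.ι} {cs : Finset W}

/-- An automorphism of the chart fixing its coordinates and a node. -/
structure ChartSymm (C : ChartLink W T u d) (i : d.C.ι) where
  θ₀ : W ≃+* W
  τ₁ : F₁ ≃+* F₁
  τ : E ≃+* E
  Φ₁ : SemilinearAut k G₁
  hom_comm : ∀ f, τ (C.hom f) = C.hom (τ₁ f)
  map_const : ∀ c, τ₁ (algebraMap W F₁ c) = algebraMap W F₁ (θ₀ c)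
  map_t : τ₁ (T.t u) = T.t u
  map_s : τ₁ (T.s u) = T.s u
  red₁ : ∀ x (h : x ∈ d.g₁.integers), ∃ h' : τ x ∈ d.g₁.integers,
    d.g₁.red ⟨τ x, h'⟩ = Φ₁ • d.g₁.red ⟨x, h⟩
  fix_x : Φ₁ • d.C.x i = d.C.x i

namespace ChartSymm

variable (Ψ : ChartSymm C i)

theorem symm_const (c : W) :
    Ψ.τ₁.symm (algebraMap W F₁ c) = algebraMap W F₁ (Ψ.θ₀.symm c) := by
  rw [RingEquiv.symm_apply_eq, Ψ.map_const, RingEquiv.apply_symm_apply]

theorem map_adjoin {z : F₁} (hz : z ∈ Algebra.adjoin W {T.t u}) :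
    Ψ.τ₁ z ∈ Algebra.adjoin W {T.t u} ∧ Ψ.τ₁.symm z ∈ Algebra.adjoin W {T.t u} := by
  refine Algebra.adjoin_induction (p := fun y _ => Ψ.τ₁ y ∈ Algebra.adjoin W {T.t u} ∧
    Ψ.τ₁.symm y ∈ Algebra.adjoin W {T.t u}) ?_ (fun c => ?_)
    (fun a b _ _ ha hb => ⟨by rw [map_add]; exact add_mem ha.1 hb.1,
      by rw [map_add]; exact add_mem ha.2 hb.2⟩)
    (fun a b _ _ ha hb => ⟨by rw [map_mul]; exact mul_mem ha.1 hb.1,
      by rw [map_mul]; exact mul_mem ha.2 hb.2⟩) hz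
  · rintro _ rfl
    have h := Algebra.self_mem_adjoin_singleton W (T.t u)
    refine ⟨by rw [Ψ.map_t]; exact h, ?_⟩
    rw [(RingEquiv.symm_apply_eq Ψ.τ₁).mpr Ψ.map_t.symm]
    exact h
  · rw [Ψ.map_const, Ψ.symm_const]
    exact ⟨Subalgebra.algebraMap_mem _ _, Subalgebra.algebraMap_mem _ _⟩

theorem map_chartRing {z : F₁} (hz : z ∈ chartRing W (T.t u)) :
    Ψ.τ₁ z ∈ chartRing W (T.t u) ∧ Ψ.τ₁.symm z ∈ chartRing W (T.t u) := by
  have key : ∀ f : F₁ →+* F₁, (∀ y ∈ Algebra.adjoin W {T.t u}, f y ∈ Algebra.adjoin W {T.t u}) →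
      f z ∈ chartRing W (T.t u) := by
    intro f hf
    obtain ⟨P, hP, hPz⟩ := hz
    set j : Algebra.adjoin W {T.t u} →+* Algebra.adjoin W {T.t u} :=
      (f.comp (Algebra.adjoin W {T.t u}).val.toRingHom).codRestrict _ fun y => hf _ y.2
    refine ⟨P.map j, hP.map j, ?_⟩
    rw [Polynomial.eval₂_map]
    have h := congrArg f hPz
    rw [map_zero, Polynomial.hom_eval₂] at h
    exact h
  exact ⟨key (Ψ.τ₁ : F₁ →+* F₁) fun y hy => (Ψ.map_adjoin hy).1,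
    key (Ψ.τ₁.symm : F₁ →+* F₁) fun y hy => (Ψ.map_adjoin hy).2⟩

variable (NC : NodeChart C i cs) (hq : maximalIdeal W = Ideal.span {(q : W)})
include hq

/-- The point under the node is fixed. -/
theorem map_point (z : chartRing W (T.t u)) :
    (⟨Ψ.τ₁ (z : F₁), (Ψ.map_chartRing z.2).1⟩ : chartRing W (T.t u)) ∈ NC.P ↔ z ∈ NC.P := by
  haveI := NC.isMax.isPrime
  have key : ∀ y : chartRing W (T.t u), ∀ h : C.hom (y : F₁) ∈ d.g₁.integers,
      (y ∈ NC.P ↔ valueAt (d.C.x i) (d.g₁.red ⟨C.hom (y : F₁), h⟩) = 0) := by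
    intro y h
    set r : locRing NC.P := algebraMap (chartRing W (T.t u)) (locRing NC.P) y with hr
    obtain ⟨c, hc⟩ := NC.res_surj r
    rw [show valueAt (d.C.x i) (d.g₁.red ⟨C.hom (y : F₁), h⟩) = π (C.κ c) from
      (NC.value₁ r c hc h).2, C.pi_κ_eq_zero_iff hq, residue_eq_zero_iff, hq,
      Ideal.mem_span_singleton]
    constructor
    · intro hy
      have hrm : r ∈ maximalIdeal (locRing NC.P) :=
        (IsLocalization.AtPrime.to_map_mem_maximal_iff (locRing NC.P) NC.P y).mpr hy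
      refine NC.mem_max c ?_
      have := sub_mem hrm hc
      rwa [sub_sub_cancel] at this
    · rintro ⟨b, rfl⟩
      refine (IsLocalization.AtPrime.to_map_mem_maximal_iff (locRing NC.P) NC.P y).mp ?_
      have hq' : (q : locRing NC.P) ∈ maximalIdeal (locRing NC.P) := by
        rw [← NC.mul_eq]
        exact Ideal.mul_mem_left _ _ (by rw [NC.max_eq]; exact Ideal.subset_span (by simp))
      rw [map_mul, map_natCast] at hc
      have := add_mem hc (Ideal.mul_mem_right (locConst NC.P b) _ hq')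
      rwa [sub_add_cancel] at this
  have hz : C.hom (z : F₁) ∈ d.g₁.integers :=
    (NC.ker₁ (algebraMap (chartRing W (T.t u)) (locRing NC.P) z)).choose
  obtain ⟨h', e⟩ := Ψ.red₁ _ hz
  have h'' : C.hom (Ψ.τ₁ (z : F₁)) ∈ d.g₁.integers := (Ψ.hom_comm _) ▸ h'
  rw [key _ h'', key _ hz, GaussRed.red_congr _ (Ψ.hom_comm (z : F₁)).symm h'', e]
  conv_lhs => rw [← Ψ.fix_x, valueAt_semilinear_smul]
  exact map_eq_zero_iff _ (SemilinearAut.baseAut Ψ.Φ₁).injective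

theorem map_locRing {y : F₁} :
    (haveI := NC.isMax.isPrime; y ∈ locRing NC.P →
      Ψ.τ₁ y ∈ locRing NC.P ∧ Ψ.τ₁.symm y ∈ locRing NC.P) := by
  haveI := NC.isMax.isPrime
  rintro ⟨r, a, hr, hra⟩
  refine ⟨⟨⟨_, (Ψ.map_chartRing r.2).1⟩, ⟨_, (Ψ.map_chartRing a.2).1⟩,
    fun h => hr ((Ψ.map_point NC hq r).mp h), ?_⟩,
    ⟨⟨_, (Ψ.map_chartRing r.2).2⟩, ⟨_, (Ψ.map_chartRing a.2).2⟩, fun h => hr ?_, ?_⟩⟩
  · show Ψ.τ₁ (r : F₁) * Ψ.τ₁ y = Ψ.τ₁ (a : F₁)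
    rw [← map_mul, hra]
  · have := (Ψ.map_point NC hq ⟨_, (Ψ.map_chartRing r.2).2⟩).mpr h
    convert this using 1
    exact Subtype.ext (Ψ.τ₁.apply_symm_apply _).symm
  · show Ψ.τ₁.symm (r : F₁) * Ψ.τ₁.symm y = Ψ.τ₁.symm (a : F₁)
    rw [← map_mul, hra]

/-- The action on the local ring. -/
def locEquiv : (haveI := NC.isMax.isPrime; locRing NC.P ≃+* locRing NC.P) :=
  haveI := NC.isMax.isPrime
  { toFun := fun y => ⟨Ψ.τ₁ (y : F₁), (Ψ.map_locRing NC hq y.2).1⟩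
    invFun := fun y => ⟨Ψ.τ₁.symm (y : F₁), (Ψ.map_locRing NC hq y.2).2⟩
    left_inv := fun _ => Subtype.ext (Ψ.τ₁.symm_apply_apply _)
    right_inv := fun _ => Subtype.ext (Ψ.τ₁.apply_symm_apply _)
    map_mul' := fun _ _ => Subtype.ext (map_mul Ψ.τ₁ _ _)
    map_add' := fun _ _ => Subtype.ext (map_add Ψ.τ₁ _ _) }

variable (hX : (haveI := NC.isMax.isPrime; (NC.X : F₁) = T.s u - T.t u ^ q))
include hX

theorem map_X : (haveI := NC.isMax.isPrime; Ψ.τ₁ (NC.X : F₁) = (NC.X : F₁)) := by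
  haveI := NC.isMax.isPrime
  rw [hX, map_sub, map_pow, Ψ.map_s, Ψ.map_t]

theorem map_Y : (haveI := NC.isMax.isPrime; Ψ.τ₁ (NC.Y : F₁) = (NC.Y : F₁)) := by
  haveI := NC.isMax.isPrime
  have hXY : (NC.X : F₁) * (NC.Y : F₁) = (q : F₁) := by
    have := congrArg (fun r : locRing NC.P => (r : F₁)) NC.mul_eq
    simpa using this
  have h0 : (NC.X : F₁) ≠ 0 := fun e => NC.prime_X.ne_zero (Subtype.ext e)
  refine mul_left_cancel₀ h0 ?_
  conv_lhs => rw [← Ψ.map_X NC hq hX, ← map_mul, hXY, map_natCast, ← hXY]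

end ChartSymm

variable {Wc : Type*} [CommRing Wc] [IsDomain Wc] [IsDiscreteValuationRing Wc]
variable {E' : Subfield E} {ϖ : A} {ϖW : Wc} (S : NodeScalars C E' cs ϖ ϖW)
  (NC : NodeChart C i cs) (hq : maximalIdeal W = Ideal.span {(q : W)}) (D : ChartData W T u)
  [IsAdicComplete (Ideal.span {ϖW}) Wc] (Ψ : ChartSymm C i)
  (hX : (haveI := NC.isMax.isPrime; (NC.X : F₁) = T.s u - T.t u ^ q))
  {s : ScalarTwist ϖW} (hφ : ∀ c, s.σ (S.φ c) = S.φ (Ψ.θ₀ c))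

/-- The symmetry of the node. -/
def chartNodeSymm : NodeSymm (S.nodeData NC hq) s :=
  haveI := NC.isMax.isPrime
  haveI := NC.noeth
  { θ₀ := Ψ.θ₀
    ρ := Ψ.locEquiv NC hq
    φ_comm := hφ
    map_q := map_natCast (Ψ.θ₀ : W →+* W) q
    map_a := fun c => Subtype.ext (Ψ.map_const c)
    map_X := Subtype.ext (Ψ.map_X NC hq hX)
    map_Y := Subtype.ext (Ψ.map_Y NC hq hX) }

variable (hmem : ∀ x ∈ E', Ψ.τ x ∈ E') (a : ℕ → W)
  (ha : Ψ.τ (algebraMap L E (ϖ : L)) =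
    algebraMap L E (∑ j ∈ Finset.range S.e, (C.κ (a j) : L) * (ϖ : L) ^ j))
  (haW : s.σ ϖW = ∑ j ∈ Finset.range S.e, S.φ (a j) * ϖW ^ j)
include hX hφ ha haW

theorem embE_semiTwist (z : E') :
    S.embE NC hq D ⟨Ψ.τ z, hmem _ z.2⟩ = s.loc S.irreducible (S.embE NC hq D z) := by
  have hθ' : algebraMap L E (ϖ : L) ∈ E' :=
    (S.mem_field_iff NC hq D _).mp (S.nodeExt NC hq).θ_mem
  refine (chartNodeSymm S NC hq Ψ hX hφ).emb_twist S.irreducible (S.nodeExt NC hq)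
    Ψ.τ.toRingHom (fun r => Ψ.hom_comm _) (S.mem_field NC hq D (hmem _ hθ')) ?_ _ _ rfl
  rw [haW]
  exact S.embE_sum NC hq D a ⟨_, hmem _ hθ'⟩ ha

theorem end₁_semiTwist (n : ℕ) (z : (E'.toSubring ⊓ d.g₁.integers : Subring E))
    (hz : Ψ.τ z ∈ d.g₁.integers) :
    (S.nodeEmb NC hq D).end₁ n ⟨Ψ.τ z, hmem _ z.2.1, hz⟩ =
      s.serX n ((S.nodeEmb NC hq D).end₁ n z) :=
  (chartNodeSymm S NC hq Ψ hX hφ).endHom_twist (S.red₁ NC hq) (S.fracHyp₁ NC hq D)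
    (chartNodeSymm S NC hq Ψ hX hφ).map_Y n _ (s.toX_ann n) z ⟨Ψ.τ z, hmem _ z.2.1, hz⟩
    (embE_semiTwist S NC hq D Ψ hX hφ hmem a ha haW ⟨z, z.2.1⟩)

theorem end₂_semiTwist (n : ℕ) (z : (E'.toSubring ⊓ d.g₂.integers : Subring E))
    (hz : Ψ.τ z ∈ d.g₂.integers) :
    (S.nodeEmb NC hq D).end₂ n ⟨Ψ.τ z, hmem _ z.2.1, hz⟩ =
      s.serY n ((S.nodeEmb NC hq D).end₂ n z) :=
  (chartNodeSymm S NC hq Ψ hX hφ).endHom_twist (S.red₂ NC hq) (S.fracHyp₂ NC hq D)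
    (chartNodeSymm S NC hq Ψ hX hφ).map_X n _ (s.toY_ann n) z ⟨Ψ.τ z, hmem _ z.2.1, hz⟩
    (embE_semiTwist S NC hq D Ψ hX hφ hmem a ha haW ⟨z, z.2.1⟩)

/-- **Gluing constants are moved by the cyclotomic character.** -/
theorem node_semiTwist {ζ : Wc} {w : ℕ} (hζ : s.σ ζ = ζ ^ w) (R c : ℕ) (r : Ann ϖW)
    (T₁ : (E'.toSubring ⊓ d.g₁.integers : Subring E))
    (T₂ : (E'.toSubring ⊓ d.g₂.integers : Subring E))
    (h₁ : Ψ.τ T₁ ∈ d.g₁.integers) (h₂ : Ψ.τ T₂ ∈ d.g₂.integers)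
    (eX : Ann.toX ϖW R r = (S.nodeEmb NC hq D).end₁ R T₁)
    (eY : Ann.toY ϖW R r =
      HahnSeries.C (modPowMk ϖW R (ζ ^ c)) * (S.nodeEmb NC hq D).end₂ R T₂) :
    ∃ r', Ann.toX ϖW R r' = (S.nodeEmb NC hq D).end₁ R ⟨Ψ.τ T₁, hmem _ T₁.2.1, h₁⟩ ∧
      Ann.toY ϖW R r' = HahnSeries.C (modPowMk ϖW R (ζ ^ (w * c))) *
        (S.nodeEmb NC hq D).end₂ R ⟨Ψ.τ T₂, hmem _ T₂.2.1, h₂⟩ := by
  refine ⟨s.ann r, ?_, ?_⟩
  · rw [s.toX_ann, eX, end₁_semiTwist S NC hq D Ψ hX hφ hmem a ha haW R T₁ h₁]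
  · rw [s.toY_ann, eY, map_mul, s.serY_C, map_pow, hζ, ← pow_mul,
      end₂_semiTwist S NC hq D Ψ hX hφ hmem a ha haW R T₂ h₂]

end FermatAgent.BadRed.AtP
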