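import Fermat.Agent.BadRed.AtP.LevelMain
import Fermat.Agent.BadRed.AtP.NodeSemiChart
import Fermat.Agent.BadRed.AtP.DecompScalar
import Fermat.Agent.MazurPrinciple.LevelNode
import Fermat.Agent.MazurPrinciple.LevelSetup
import Fermat.Agent.BadRed.Carayol.Instance.Final

/-!
# The geometry of the level datum over a local base

The nodes, the section, the rational structures and the roots of unity of the datum at `p M` over
`LocalBase.ofField` supply `LevelGeometry` for the decomposition elements fixing the nodes.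
-/

set_option autoImplicit false
set_option linter.unusedSectionVars false
set_option linter.style.haveILetI false
set_option maxHeartbeats 1000000
set_option maxRecDepth 4000

noncomputable section

open Polynomial ModularCurve AlgebraicCurve IsLocalRing

namespace FermatAgent.BadRed.AtP

open FermatAgent.ModFun FermatAgent.BadRed.Semistable FermatAgent.MazurPrinciple
open FermatAgent.BadRed.Carayol FermatAgent.BadRed.Carayol.Instance
open FermatAgent.Curve (IsFunctionField1 divisorOf)
open FermatAgent.ModCurveTorsion (galN coe_galN_smul)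

local notation "ℚbar" => AlgebraicClosure ℚ
local notation "GQ" => AlgebraicClosure ℚ ≃ₐ[ℚ] AlgebraicClosure ℚ
local notation "𝐅" N:max => laurentBaseChange ℚbar (modularFunctionFieldFull N)

attribute [local instance] ModCurveTorsion.isFunctionField1_laurent
attribute [local instance] MazurPrinciple.isAlgClosed_residue

section Base

variable {A : ValuationSubring ℚbar} {σ : GQ} (hσ : σ ∈ A.decompositionSubgroup ℚ)

/-- A decomposition element on the inertia field. -/
def inertiaFieldAut : inertiaField A ≃ₐ[ℚ] inertiaField A where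
  toFun x := ⟨σ x, decomp_mem_inertiaField hσ x.2⟩
  invFun x := ⟨σ⁻¹ x, decomp_mem_inertiaField (inv_mem hσ) x.2⟩
  left_inv _ := Subtype.ext (σ.symm_apply_apply _)
  right_inv _ := Subtype.ext (σ.apply_symm_apply _)
  map_mul' _ _ := Subtype.ext (map_mul σ _ _)
  map_add' _ _ := Subtype.ext (map_add σ _ _)
  commutes' r := Subtype.ext (σ.commutes r)

/-- A decomposition element on the integers of the inertia field. -/
def inertiaRingAut : inertiaRing A ≃+* inertiaRing A where
  toFun x := ⟨inertiaFieldAut hσ x, (Local.decomposition_mem_iff hσ _).mpr x.2⟩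
  invFun x := ⟨(inertiaFieldAut hσ).symm x, (Local.decomposition_mem_iff (inv_mem hσ) _).mpr x.2⟩
  left_inv _ := Subtype.ext ((inertiaFieldAut hσ).symm_apply_apply _)
  right_inv _ := Subtype.ext ((inertiaFieldAut hσ).apply_symm_apply _)
  map_mul' _ _ := Subtype.ext (map_mul (inertiaFieldAut hσ) _ _)
  map_add' _ _ := Subtype.ext (map_add (inertiaFieldAut hσ) _ _)

/-- A decomposition element on the functions of the tower. -/
def levelFieldAut (M : ℕ) : LevelField (inertiaField A) M ≃+* LevelField (inertiaField A) M :=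
  SemilinearAut.toRingAut (arithmeticGalois (modularFunctionFieldFull M) (inertiaFieldAut hσ))

theorem coe_levelFieldAut {M : ℕ} (f : LevelField (inertiaField A) M) :
    (levelFieldAut hσ M f : LaurentSeries (inertiaField A)) =
      coeffMap (inertiaFieldAut hσ : inertiaField A →+* inertiaField A)
        (f : LaurentSeries (inertiaField A)) :=
  coe_arithmeticGalois_smul _ _ f

end Base

/-- A decomposition element fixing the nodes of the datum. -/
def FixesNodes {p : ℕ} [Fact p.Prime] {A : ValuationSubring ℚbar} (hA : A.LiesOverPrime p)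
    {M : ℕ} [NeZero M] (hM : p.Coprime M) (σ : GQ) : Prop :=
  haveI := isFunctionField1_fib p A hA hM
  ∃ hσ : σ ∈ A.decompositionSubgroup ℚ, ∀ i,
    (decompAut hσ).fib M • (levelData p A hA hM).C.x i = (levelData p A hA hM).C.x i

variable {p : ℕ} [hp : Fact p.Prime] [NeZero p] {A : ValuationSubring ℚbar}
  (hA : A.LiesOverPrime p) {N' : ℕ} [NeZero N'] (hco : p.Coprime N')
  [IsFunctionField1 (IsLocalRing.ResidueField A) (FibField A N')]
  [IsDiscreteValuationRing (inertiaRing A)] [IsAlgClosed (ResidueField (inertiaRing A))]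
  [Infinite (IsLocalRing.ResidueField A)]
  (B : LocalBase A p) (hB : ∀ a ∈ inertiaField A, a ∈ B.S)
  (H : Hauptmodul p) (hN : H.L ∣ N') (hpN : ¬ p ∣ N') {R : ℤ[X]} (hR : IsCuspPoly H R)
  (D : ChartData (inertiaRing A) (tower (inertiaField A) N' hpN) (uElt (inertiaField A) H hN))
  (hDc : D.cusps = cuspSet R (inertiaRing A))

theorem levelFieldAut_levelHom {σ : GQ} (hσ : σ ∈ A.decompositionSubgroup ℚ)
    (f : LevelField (inertiaField A) (N' * p)) :
    galN (p * N') σ • levelHom A p N' f = levelHom A p N' (levelFieldAut hσ (N' * p) f) := by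
  refine Subtype.ext ?_
  rw [coe_galN_smul, coe_levelHom, coe_levelHom, coe_levelFieldAut, coeffMap_coeffMap,
    coeffMap_coeffMap]
  exact coeffMap_congr (RingHom.ext fun _ => rfl) _

theorem levelFieldAut_fixed {σ : GQ} (hσ : σ ∈ A.decompositionSubgroup ℚ)
    {f : LevelField (inertiaField A) (N' * p)} {s : LaurentSeries ℤ}
    (hf : (levelHom A p N' f : LaurentSeries ℚbar) = coeffMap (Int.castRingHom ℚbar) s) :
    levelFieldAut hσ (N' * p) f = f := by
  refine (levelHom A p N').injective (Subtype.ext ?_)
  rw [← levelFieldAut_levelHom hσ, coe_galN_smul, hf, coeffMap_coeffMap]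
  exact coeffMap_congr (RingHom.ext_int _ _) _

/-- The symmetry of the chart attached to an element fixing the node. -/
def levelChartSymm {σ : GQ} (hσ : σ ∈ A.decompositionSubgroup ℚ) (i : (levelData p A hA hco).C.ι)
    (hfix : (decompAut hσ).fib N' • (levelData p A hA hco).C.x i = (levelData p A hA hco).C.x i) :
    ChartSymm (levelLink hA hco H hN hpN hR) i where
  θ₀ := inertiaRingAut hσ
  τ₁ := levelFieldAut hσ (N' * p)
  τ := galEquiv (p * N') σ
  Φ₁ := (decompAut hσ).fib N'
  hom_comm f := levelFieldAut_levelHom hσ f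
  map_const c := by
    refine (levelHom A p N').injective ?_
    show levelHom A p N' (levelFieldAut hσ (N' * p)
        (algebraMap (inertiaField A) _ (c : inertiaField A))) =
      levelHom A p N' (algebraMap (inertiaField A) _ (inertiaRingAut hσ c : inertiaField A))
    rw [← levelFieldAut_levelHom hσ, levelHom_algebraMap, levelHom_algebraMap]
    exact SemilinearAut.commutes (galN (p * N') σ) _
  map_t := levelFieldAut_fixed hσ (s := qExpand ℤ p (uSeries H))
    ((congrArg _ (levelHom_beta (A := A) H hN)).trans (coe_tCoord H hN))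
  map_s := levelFieldAut_fixed hσ (s := uSeries H)
    ((congrArg _ (levelHom_alpha (A := A) H hN)).trans (coe_sCoord H hN))
  red₁ x h := decomp_red₁ hσ hA hco h
  fix_x := hfix

include hDc in
theorem exists_coordChart (i : (levelData p A hA hco).C.ι) :
    ∃ NC : NodeChart (levelLink hA hco H hN hpN hR) i (cuspSet R (inertiaRing A)),
      (haveI := NC.isMax.isPrime; (NC.X : LevelField (inertiaField A) (N' * p)) =
        (tower (inertiaField A) N' hpN).s (uElt (inertiaField A) H hN) -
          (tower (inertiaField A) N' hpN).t (uElt (inertiaField A) H hN) ^ p) :=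
  hDc ▸ exists_nodeChart_coord _ (maximalIdeal_inertiaRing Fact.out hA) D i

/-- The embedding at a node through the chart with `X = s - t ^ p`. -/
def coordNode (i : (levelData p A hA hco).C.ι) :
    NodeEmb (levelData p A hA hco) (B.funField (p * N')) i B.unif B.unifW :=
  (levelScalars B hA hco H hN hpN hR hB).nodeEmb
    (exists_coordChart hA hco H hN hpN hR D hDc i).choose
    (maximalIdeal_inertiaRing Fact.out hA) D

theorem coordNode_const (i : (levelData p A hA hco).C.ι) (c : B.int) (z : B.funField (p * N'))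
    (hz : (z : 𝐅 (p * N')) = algebraMap ℚbar (𝐅 (p * N')) (c : ℚbar)) :
    (coordNode hA hco B hB H hN hpN hR D hDc i).emb z =
      algebraMap _ _ (Ann.const B.unifW (algebraMap B.int B.W c)) :=
  levelScalars_nodeEmb_const B hA hco H hN hpN hR hB D _ c z hz

/-- The setting of the level datum. -/
def levelGround : Ground (levelData p A hA hco) (B.funField (p * N')) B.unif B.unifW p where
  prime := hp.out
  irreducible := B.irreducible_unifW
  unif_ne_zero := B.unif_ne_zero
  pi_unif := B.pi_unif _ IsLocalRing.residue_surjective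
  arch _ hδ := B.arch hδ
  smul_mem y := by
    rw [Algebra.smul_def]
    exact mul_mem (algebraMap_mem_fixedFun.mpr B.unifQ_mem) y.2
  v := B.idx
  one_le := B.idx_pos
  p_eq := by
    obtain ⟨u, hu⟩ := B.exists_p_eq_idx
    refine ⟨⟨((u : B.int) : ℚbar), (u : B.int).2.1⟩, Subtype.ext ?_, fun h => ?_⟩
    · have e := congrArg Subtype.val hu
      rw [show ((p : B.int) : ℚbar) = (p : ℚbar) from map_natCast B.int.subtype p] at e
      rw [show ((p : A) : ℚbar) = (p : ℚbar) from map_natCast A.subtype p, e]
      rfl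
    · rw [IsLocalRing.residue_eq_zero_iff] at h
      exact ((A.valuation_lt_one_iff _).1 h).ne (B.val_unit u)
  p_eqW := by
    obtain ⟨u, hu⟩ := B.exists_p_eq_idx
    refine ⟨algebraMap B.int B.W (u : B.int), u.isUnit.map _, ?_⟩
    rw [← map_natCast (algebraMap B.int B.W) p, hu, map_mul, map_pow]
    rfl
  node i := coordNode hA hco B hB H hN hpN hR D hDc i
  sec := levelSec hA hco
  sec_mem := levelSec_mem hA hco
  sec_unit := isDiscUnit_levelSec hA hco
  secDeg := levelSecDeg hA hco
  one_le_secDeg := one_le_levelSecDeg hA hco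
  sec_rr := levelSec_rr hA hco
  sec_div := levelSec_div hA hco
  rational := levelData_rational B hA hco H hN hpN hR hB D hDc

variable {hB H hN hpN hR D hDc}

/-- A root of unity of the local base seen at the nodes. -/
def levelSeenRoot {P : ℕ} {ζ : ℚbar}
    (hζ : IsPrimitiveRoot ζ P) (hζA : ζ ∈ A) (hζS : ζ ∈ B.S) :
    SeenRoot (levelGround hA hco B hB H hN hpN hR D hDc) P where
  ζ := ζ
  ζW := algebraMap B.int B.W ⟨ζ, hζA, hζS⟩
  primK := hζ
  primW :=
    (IsPrimitiveRoot.of_map_of_injective (f := B.int.subtype) (ζ := (⟨ζ, hζA, hζS⟩ : B.int)) hζ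
      Subtype.val_injective).map_of_injective B.algebraMap_injective
  mem_A := hζA
  mem_E := algebraMap_mem_fixedFun.mpr hζS
  end₁ i n := by
    have h := (coordNode hA hco B hB H hN hpN hR D hDc i).end₁_eq_toX B.irreducible_unifW n
      ⟨algebraMap ℚbar (𝐅 (p * N')) ζ, algebraMap_mem_fixedFun.mpr hζS,
        (levelData p A hA hco).g₁.algebraMap_mem ⟨ζ, hζA⟩⟩
      (coordNode_const hA hco B hB H hN hpN hR D hDc i ⟨ζ, hζA, hζS⟩ _ rfl)
    rw [Ann.toX_const] at h
    exact h
  end₂ i n := by
    have h := (coordNode hA hco B hB H hN hpN hR D hDc i).end₂_eq_toY B.irreducible_unifW n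
      ⟨algebraMap ℚbar (𝐅 (p * N')) ζ, algebraMap_mem_fixedFun.mpr hζS,
        (levelData p A hA hco).g₂.algebraMap_mem ⟨ζ, hζA⟩⟩
      (coordNode_const hA hco B hB H hN hpN hR D hDc i ⟨ζ, hζA, hζS⟩ _ rfl)
    rw [Ann.toY_const] at h
    exact h

/-- The geometry of the nodal datum at an odd `p` and an auxiliary level divisible by `4`. -/
theorem levelGeometry {p : ℕ} [hp : Fact p.Prime] (hp2 : p ≠ 2) {A : ValuationSubring ℚbar}
    (hA : A.LiesOverPrime p) {M : ℕ} [NeZero M] (hM : p.Coprime M) (hcL : coordLevel p ∣ M) :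
    LevelGeometry hA hM (FixesNodes hA hM) := by
  haveI := isFunctionField1_fib p A hA hM
  haveI : NeZero p := ⟨hp.out.ne_zero⟩
  haveI := isDiscreteValuationRing_inertiaRing hp.out hA
  haveI : IsAlgClosed (ResidueField (inertiaRing A)) :=
    isAlgClosed_residue_inertiaRing hp.out hA
  have hpM : ¬ p ∣ M := (Nat.Prime.coprime_iff_not_dvd hp.out).mp hM
  have hodd : ¬ 2 ∣ p := fun h =>
    hp2 ((Nat.prime_dvd_prime_iff_eq Nat.prime_two hp.out).mp h).symm
  have hc : (hauptmodul4 p hodd).L ∣ M := by rw [coordLevel, if_neg hp2] at hcL; exact hcL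
  have hR := hauptmodul4_isCuspPoly hodd
  have hH := hauptmodul4_isCoord p hodd
  set D := uChartData hpM _ hc hR (by simp) hA hH
    (etaleAway_uElt hA hpM _ hc hR (by simp) hH) with hD
  intro L _ hL m ζ hζ hζL σ ⟨hσ, hfix⟩ w hσζ
  set B := LocalBase.ofField hp.out hA L
  have hB : ∀ a ∈ inertiaField A, a ∈ B.S := fun a ha =>
    LocalBase.mem_ofField_left hp.out hA L ha
  have hσS : ∀ x ∈ B.S, σ x ∈ B.S := by
    have hle : inertiaField A ⊔ L ≤ (inertiaField A ⊔ L).comap (σ : ℚbar →ₐ[ℚ] ℚbar) :=
      sup_le (fun y hy => (le_sup_left : inertiaField A ≤ inertiaField A ⊔ L)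
          (show σ y ∈ inertiaField A from decomp_mem_inertiaField hσ hy))
        (fun y hy => (le_sup_right : L ≤ inertiaField A ⊔ L) (hL σ y hy))
    exact fun y hy => hle hy
  have hζA : ζ ∈ A := mem_of_pow_eq_one (pow_ne_zero m hp.out.ne_zero) hζ.pow_eq_one
  have hζS : ζ ∈ B.S := LocalBase.mem_ofField_right hp.out hA L hζL
  refine ⟨levelGround hA hM B hB _ hc hpM hR D rfl,
    levelSeenRoot hA hM B hζ hζA hζS, fun x hx h h0 => ?_, fun x hx h h0 => ?_,
    fun hE i n c r T₁ T₂ h₁ h₂ hX hY => ?_⟩
  · obtain ⟨y, hy, e⟩ := levelData_div₁ B hA hM _ hc hpM hR hB D rfl hx h h0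
    exact ⟨y, hy, by rw [sub_zero, pow_one]; exact e⟩
  · obtain ⟨y, hy, e⟩ := levelData_div₂ B hA hM _ hc hpM hR hB D rfl hx h h0
    exact ⟨y, hy, by rw [sub_zero, pow_one]; exact e⟩
  · obtain ⟨a, ha⟩ := B.exists_int_coord hB (intDecomp hσ B hσS B.unifO)
    refine node_semiTwist (levelScalars B hA hM _ hc hpM hR hB)
      (exists_coordChart hA hM _ hc hpM hR D rfl i).choose
      (maximalIdeal_inertiaRing Fact.out hA) D (levelChartSymm hA hM _ hc hpM hR hσ i (hfix i))
      (exists_coordChart hA hM _ hc hpM hR D rfl i).choose_spec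
      (s := decompScalar hσ B hσS) (fun c => ?_) hE a ?_ ?_ ?_ n c r T₁ T₂ h₁ h₂ hX hY
    · exact (decompScalar_algebraMap hσ B hσS _).trans (congrArg _ (Subtype.ext rfl))
    · refine (SemilinearAut.commutes (galN (p * M) σ) _).trans (congrArg _ ?_)
      show ((intDecomp hσ B hσS B.unifO : B.int) : ℚbar) = _
      rw [ha, AddSubmonoidClass.coe_finsetSum]
      rfl
    · refine (decompScalar_algebraMap hσ B hσS B.unifO).trans ?_
      rw [ha, map_sum]
      refine Finset.sum_congr rfl fun j _ => ?_
      rw [map_mul, map_pow]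
      rfl
    · refine (decompScalar_algebraMap hσ B hσS _).trans ?_
      show algebraMap B.int B.W _ = algebraMap B.int B.W _ ^ w
      rw [← map_pow]
      exact congrArg _ (Subtype.ext hσζ)

end FermatAgent.BadRed.AtP
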