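import Fermat.Agent.BadRed.AtP.UpLevel
import Fermat.Agent.BadRed.AtP.Congr
import Fermat.Agent.BadRed.Semistable.LevelSymm
import Fermat.Agent.MazurPrinciple.Invariant
import Fermat.Agent.TW.Tame

/-!
# Inertia elements on the nodal datum of `X₀(p N')`

An element of inertia gives a twist of the datum that fixes both reductions and commutes with the
contractions.
-/

set_option autoImplicit false
set_option linter.unusedSectionVars false

noncomputable section

open ModularCurve AlgebraicCurve

namespace FermatAgent.BadRed.AtP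

open FermatAgent.ModFun FermatAgent.BadRed.Semistable FermatAgent.MazurPrinciple
open FermatAgent.ModCurveTorsion (galN coe_galN_smul)
open FermatAgent.Local

local notation "ℚbar" => AlgebraicClosure ℚ
local notation "GQ" => AlgebraicClosure ℚ ≃ₐ[ℚ] AlgebraicClosure ℚ
local notation "𝐅" N:max => laurentBaseChange ℚbar (modularFunctionFieldFull N)

attribute [local instance] ModCurveTorsion.isFunctionField1_laurent
attribute [local instance] MazurPrinciple.isAlgClosed_residue

variable {A : ValuationSubring ℚbar} {σ : GQ} (hσ : σ ∈ A.inertiaSubgroupIn ℚ)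

include hσ in
theorem inertia_val (c : ℚbar) : A.valuation (σ c) = A.valuation c :=
  val_galois_eq (mem_decomposition_of_inertia hσ) c

/-- The symmetry of the place attached to an inertia element. -/
def inertiaAut : PlaceAut A (IsLocalRing.residue A) where
  τ := σ
  mem z := decomposition_mem_iff (mem_decomposition_of_inertia hσ) z
  θ := RingEquiv.refl _
  compat z _ := TW.residue_eq_iff.mpr (inertia_val_sub_lt_one hσ z.2)

/-- The action on functions as a ring automorphism. -/
def galEquiv (M : ℕ) (σ : GQ) : 𝐅 M ≃+* 𝐅 M := SemilinearAut.toRingAut (galN M σ)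

theorem galEquiv_apply (M : ℕ) (σ : GQ) (x : 𝐅 M) : galEquiv M σ x = galN M σ • x := rfl

theorem galN_smul_const (M : ℕ) [NeZero M] (σ : GQ) (c : ℚbar) (x : 𝐅 M) :
    galN M σ • (c • x) = σ c • (galN M σ • x) := by
  refine Subtype.ext ?_
  rw [coe_galN_smul, coe_smul_ratSeries, coe_smul_ratSeries, coe_galN_smul, map_mul,
    algebraMap_laurentSeries_eq_single, algebraMap_laurentSeries_eq_single, coeffMap_single]
  rfl

/-- A twisted valuation inherits fixed reductions from a commuting automorphism. -/
theorem fixesRed_twist {K : Type*} [Field K] {A : ValuationSubring K} {k : Type*} [Field k]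
    {π : A →+* k} {F : Type*} [Field F] [Algebra K F] {R : Type*} [Field R] [Algebra k R]
    {g : GaussRed A π F R} {w : F ≃ₐ[K] F} {τ : F ≃+* F} (comm : ∀ x, w (τ x) = τ (w x))
    (h : FixesRed g τ) : FixesRed (g.twist w) τ := fun x hx => by
  obtain ⟨h', e⟩ := h (w x) hx
  have hm : w (τ x) ∈ g.integers := (comm x).symm ▸ h'
  exact ⟨hm, (g.red_congr (comm x) hm).trans e⟩

/-- A semilinear automorphism fixing `z` preserves the spaces of `n` times its poles. -/
theorem smul_mem_rrSpace {K : Type*} [Field K] {F : Type*} [Field F] [Algebra K F] [IsAlgClosed K]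
    [Curve.IsFunctionField1 K F] (g : SemilinearAut K F) {z : F} (hz : g • z = z) {n : ℕ} {x : F}
    (hx : x ∈ riemannRochSpace (n • poleDiv (K := K) z)) :
    g • x ∈ riemannRochSpace (n • poleDiv (K := K) z) := by
  rw [mem_riemannRochSpace_iff] at hx ⊢
  intro v
  have ho : ∀ f : F, v.ord (g • f) = (g⁻¹ • v).ord f := fun f => by
    have := SemilinearAut.ord_smul g (g⁻¹ • v) f
    rwa [smul_inv_smul] at this
  rcases hx (g⁻¹ • v) with h | h
  · exact Or.inl (by rw [h, smul_zero])
  · refine Or.inr ?_
    rw [Finsupp.smul_apply, poleDiv_apply] at h ⊢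
    rw [← ho, ← ho, hz] at h
    exact h

variable {p : ℕ} [Fact p.Prime] (hA : A.LiesOverPrime p) {N' : ℕ} [NeZero N']
  (hco : p.Coprime N')

include hσ in
/-- **Inertia fixes the first reduction.** -/
theorem fixesRed₁ :
    haveI := isFunctionField1_fib p A hA hco
    FixesRed (levelData p A hA hco).g₁ (galEquiv (p * N') σ) := by
  have := isFunctionField1_fib p A hA hco
  have := charP_residueField p A hA
  intro x hx
  obtain ⟨h, e⟩ := (inertiaAut hσ).levelGauss_red hco (placeHom p A hA) (f := x) hx
  refine ⟨h, e.trans (Subtype.ext ?_)⟩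
  rw [PlaceAut.coe_fib]
  exact coeffMap_id _

include hσ in
/-- **Inertia fixes the second reduction.** -/
theorem fixesRed₂ :
    haveI := isFunctionField1_fib p A hA hco
    FixesRed (levelData p A hA hco).g₂ (galEquiv (p * N') σ) := by
  have := isFunctionField1_fib p A hA hco
  exact fixesRed_twist (atkinLehnerBar_galN hco σ) (fixesRed₁ hσ hA hco)

theorem levelData_coord :
    haveI := isFunctionField1_fib p A hA hco
    (levelData p A hA hco).z = jBar ℚbar (p * N') := rfl

variable (S : IntermediateField ℚ ℚbar) (hS : ∀ x ∈ S, σ x ∈ S) (ϖ : A)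

/-- The twist of the datum attached to an inertia element. -/
def levelTwist :
    haveI := isFunctionField1_fib p A hA hco
    Twist (levelData p A hA hco) (fixedFun S (p * N')) ϖ :=
  haveI := isFunctionField1_fib p A hA hco
  { σ := σ.toRingEquiv
    τ := galEquiv (p * N') σ
    map_smul := galN_smul_const _ σ
    map_unif := by
      refine ⟨σ ϖ / ϖ, ?_, ?_⟩
      · rcases eq_or_ne (ϖ : ℚbar) 0 with h | h
        · rw [h, div_zero]; exact zero_mem _
        · exact TW.ratio_mem (mem_decomposition_of_inertia hσ) h
      · rcases eq_or_ne (ϖ : ℚbar) 0 with h | h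
        · show σ ϖ = _
          simp [h]
        · exact (div_mul_cancel₀ _ h).symm
    mem_E := fun x hx => mem_fixedFun_iff_coeff.mpr fun n => by
      rw [galEquiv_apply, coe_galN_smul, coeffMap_coeff]
      exact hS _ (mem_fixedFun_iff_coeff.mp hx n)
    mem₁ := fun x h => by
      obtain ⟨h', e⟩ := fixesRed₁ hσ hA hco x h
      exact ⟨h', fun h0 => ne_of_eq_of_ne e h0⟩
    mem₂ := fun x h => by
      obtain ⟨h', e⟩ := fixesRed₂ hσ hA hco x h
      exact ⟨h', fun h0 => ne_of_eq_of_ne e h0⟩
    place := fun P => ⟨(galN (p * N') σ)⁻¹ • P, fun f => by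
      have := SemilinearAut.ord_smul (galN (p * N') σ) ((galN (p * N') σ)⁻¹ • P) f
      rwa [smul_inv_smul] at this⟩
    mem_rr := fun n x hx => by
      have hz : galN (p * N') σ • jBar ℚbar (p * N') = jBar ℚbar (p * N') :=
        Subtype.ext (by rw [coe_galN_smul, ModFun.coe_jBar, coeffMap_jqModC])
      rw [← levelData_coord hA hco] at hz
      rw [galEquiv_apply]
      exact smul_mem_rrSpace (galN (p * N') σ) hz hx }

theorem levelTwist_val :
    haveI := isFunctionField1_fib p A hA hco
    ∀ c : ℚbar, A.valuation ((levelTwist hσ hA hco S hS ϖ).σ c) = A.valuation c :=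
  inertia_val hσ

include hσ in
/-- The contractions commute with the twist. -/
theorem levelContract_galEquiv (v : A) (hpϖ : (p : A) = ϖ * v) (x : 𝐅 (p * N')) :
    haveI := isFunctionField1_fib p A hA hco
    (levelContract₁ p A hA hco S S ϖ v hpϖ).N (galEquiv (p * N') σ x) =
        galEquiv (p * N') σ ((levelContract₁ p A hA hco S S ϖ v hpϖ).N x) ∧
      (levelContract₂ p A hA hco S S ϖ v hpϖ).N (galEquiv (p * N') σ x) =
        galEquiv (p * N') σ ((levelContract₂ p A hA hco S S ϖ v hpϖ).N x) := by
  have : NeZero p := ⟨(Fact.out : p.Prime).ne_zero⟩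
  have hu := rootK_primitive (exists_rootUnit A p).choose_spec
  rw [levelContract₁_N, levelContract₂_N]
  simp only [conjHom_apply, galEquiv_apply]
  exact ⟨upNorm_galN hco hu σ x,
    by rw [atkinLehnerBar_galN, upNorm_galN hco hu, atkinLehnerBar_galN]⟩

end FermatAgent.BadRed.AtP
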