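import Fermat.Agent.MazurPrinciple.Smooth
import Fermat.Agent.Curve.Basics

/-!
# Clearing poles away from the cusps by a unit of both components

A function defined over a subfield of constants becomes regular outside the poles of `z` after
multiplication by a power of a polynomial in `z` with both reductions non-zero.
-/

set_option autoImplicit false
set_option linter.unusedSectionVars false

noncomputable section

open AlgebraicCurve Polynomial

namespace FermatAgent.BadRed.AtP

open MazurPrinciple Semistable FermatAgent.Curve FermatAgent.Curve.RR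

variable {K : Type*} [Field K] [IsAlgClosed K] {A : ValuationSubring K} {k : Type*}
    [Field k] [IsAlgClosed k] {π : A →+* k} {F F₁ F₂ : Type*} [Field F] [Field F₁] [Field F₂]
    [Algebra K F] [Algebra k F₁] [Algebra k F₂] [IsFunctionField1 K F] [IsFunctionField1 k F₁]
    [IsFunctionField1 k F₂] [RRSetting K F] [RRSetting k F₁] [RRSetting k F₂] [Infinite k]
variable {d : NodalDatum A π F F₁ F₂}

/-- The coordinate is integral with transcendental reductions. -/
def CoordUnit (d : NodalDatum A π F F₁ F₂) : Prop :=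
  ∃ h : d.z ∈ d.int, Transcendental k (d.red ⟨d.z, h⟩).1 ∧ Transcendental k (d.red ⟨d.z, h⟩).2

theorem D_nonneg (v : Place K F) : 0 ≤ d.D v := Finsupp.le_def.mp (poleDiv_nonneg d.z) v

theorem rrSpace_nsmul_mono {m n : ℕ} (h : m ≤ n) :
    riemannRochSpace (K := K) (m • d.D) ≤ riemannRochSpace (n • d.D) := fun f hf => by
  rw [mem_riemannRochSpace_iff] at hf ⊢
  intro v
  refine (hf v).imp_right fun hv => le_trans (neg_le_neg ?_) hv
  rw [Finsupp.smul_apply, Finsupp.smul_apply, nsmul_eq_mul, nsmul_eq_mul]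
  exact mul_le_mul_of_nonneg_right (by exact_mod_cast h) (D_nonneg v)

theorem pow_z_mem_rrSpace (j : ℕ) : d.z ^ j ∈ riemannRochSpace (K := K) (j • d.D) := by
  induction j with
  | zero =>
    rw [mem_riemannRochSpace_iff]
    intro v
    exact Or.inr (by rw [pow_zero, Place.ord_one, zero_smul, Finsupp.zero_apply, neg_zero])
  | succ j ih =>
    rw [pow_succ, succ_nsmul]
    exact mul_mem_rrSpace ih (self_mem_rrSpace_poleDiv d.z)

theorem eval₂_ne_zero_of_transcendental {R : Type*} [CommRing R] (π : R →+* k) {Fb : Type*}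
    [Field Fb] [Algebra k Fb] {J : Fb} (hJ : Transcendental k J) {S : R[X]} (hS : S.map π ≠ 0) :
    eval₂ ((algebraMap k Fb).comp π) J S ≠ 0 := fun e =>
  hS (transcendental_iff.mp hJ _ (by rwa [aeval_def, eval₂_map]))

/-- The zero of a unit at a given value of the coordinate. -/
theorem exists_zero_unit (hz : CoordUnit d) {E : Subfield F} (hzE : d.z ∈ E) (Sc : Subfield K)
    (hSc : ∀ a ∈ Sc, algebraMap K F a ∈ E) (hint : ∀ c : K, IsIntegral Sc c) (c : K) :
    ∃ (h : F) (n : ℕ), h ∈ E ∧ IsDiscUnit d h ∧ h ∈ riemannRochSpace (n • d.D) ∧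
      ∀ v : Place K F, d.z ∈ v.toValuationSubring → valueAt v d.z = c → 0 < v.ord h := by
  classical
  obtain ⟨hzi, ht₁, ht₂⟩ := hz
  set Q : K[X] := (minpoly Sc c).map Sc.subtype with hQ
  have hQ0 : Q ≠ 0 := ((minpoly.monic (hint c)).map _).ne_zero
  have hQc : Q.eval c = 0 := by
    rw [hQ, eval_map, ← minpoly.aeval Sc c, aeval_def]
    rfl
  have hv : (fun i : Fin (Q.natDegree + 1) => Q.coeff i) ≠ 0 := fun e =>
    hQ0 (leadingCoeff_eq_zero.mp (congrFun e (Fin.last _)))
  obtain ⟨i, hi, hdom⟩ := exists_dominant (A := A) _ hv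
  set R : K[X] := C (Q.coeff i)⁻¹ * Q with hR
  have hRA : ∀ j, R.coeff j ∈ A := fun j => by
    rw [hR, coeff_C_mul, mul_comm, ← div_eq_mul_inv]
    rcases Nat.lt_or_ge j (Q.natDegree + 1) with hj | hj
    · exact hdom ⟨j, hj⟩
    · rw [coeff_eq_zero_of_natDegree_lt (by omega), zero_div]; exact zero_mem A
  have hRS : ∀ j, R.coeff j ∈ Sc := fun j => by
    have hQS : ∀ l, Q.coeff l ∈ Sc := fun l => by rw [hQ, coeff_map]; exact SetLike.coe_mem _
    rw [hR, coeff_C_mul]
    exact Sc.mul_mem (Sc.inv_mem (hQS _)) (hQS _)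
  obtain ⟨R', hR'⟩ : ∃ R' : A[X], R'.map A.subtype = R := by
    rw [← Set.mem_range, ← coe_mapRingHom, ← RingHom.coe_range, SetLike.mem_coe, mem_map_range]
    exact fun j => ⟨⟨_, hRA j⟩, rfl⟩
  let ι : A →+* d.int := ((algebraMap K F).comp A.subtype).codRestrict d.int
    fun a => ⟨d.g₁.algebraMap_mem a, d.g₂.algebraMap_mem a⟩
  have hredι : ∀ a : A, d.red (ι a) = (algebraMap k F₁ (π a), algebraMap k F₂ (π a)) := fun a =>
    Prod.ext (d.g₁.red_algebraMap a) (d.g₂.red_algebraMap a)
  set h : d.int := eval₂ ι ⟨d.z, hzi⟩ R' with hh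
  have hval : (h : F) = aeval d.z R := by
    rw [hh, ← Subring.coe_subtype, hom_eval₂, ← hR', aeval_def, eval₂_map]
    rfl
  have hi1 : (R'.map π).coeff i = 1 := by
    have e : A.subtype (R'.coeff i) = 1 := by
      rw [← coeff_map, hR', hR, coeff_C_mul, inv_mul_cancel₀ hi]
    rw [coeff_map, show R'.coeff i = 1 from Subtype.ext e, map_one]
  have hne : R'.map π ≠ 0 := fun e => by simp [e] at hi1
  have hu : IsDiscUnit d (h : F) := by
    refine ⟨h.2, ?_, ?_⟩
    · rw [show (⟨(h : F), h.2⟩ : d.int) = h from rfl, hh, hom_eval₂, ← RingHom.coe_fst, hom_eval₂]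
      convert eval₂_ne_zero_of_transcendental π ht₁ hne using 2
      exacts [RingHom.ext fun a => congrArg Prod.fst (hredι a), rfl]
    · rw [show (⟨(h : F), h.2⟩ : d.int) = h from rfl, hh, hom_eval₂, ← RingHom.coe_snd, hom_eval₂]
      convert eval₂_ne_zero_of_transcendental π ht₂ hne using 2
      exacts [RingHom.ext fun a => congrArg Prod.snd (hredι a), rfl]
  refine ⟨h, R.natDegree, ?_, hu, ?_, fun v hv hc => ?_⟩
  · rw [hval, aeval_eq_sum_range]
    exact sum_mem fun j _ => by
      rw [Algebra.smul_def]; exact E.mul_mem (hSc _ (hRS j)) (pow_mem hzE j)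
  · rw [hval, aeval_eq_sum_range]
    exact Submodule.sum_mem _ fun j hj => Submodule.smul_mem _ _
      (rrSpace_nsmul_mono (by simpa [Nat.lt_succ_iff] using hj) (pow_z_mem_rrSpace j))
  · have e : valueAt v (h : F) = 0 := by
      rw [hval, valueAt_aeval v hv, hc, ← coe_aeval_eq_eval, coe_aeval_eq_eval, hR, eval_mul, hQc,
        mul_zero]
    have hm : (h : F) ∈ v.toValuationSubring := by
      rw [hval, aeval_eq_sum_range]
      exact sum_mem fun j _ => by
        rw [Algebra.smul_def]; exact mul_mem (v.algebraMap_mem' _) (pow_mem hv j)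
    exact ((valueAt_eq_zero_iff v hm).mp e).resolve_left hu.ne_zero

/-- **Regularisation.** -/
theorem exists_regularise (hz : CoordUnit d) {E : Subfield F} (hzE : d.z ∈ E) (Sc : Subfield K)
    (hSc : ∀ a ∈ Sc, algebraMap K F a ∈ E) (hint : ∀ c : K, IsIntegral Sc c) {t : F}
    (ht : t ≠ 0) {P : ℕ} (hP : 1 ≤ P) :
    ∃ G ∈ E, IsDiscUnit d G ∧ ∃ n : ℕ, t * G ^ P ∈ riemannRochSpace ((P * n) • d.D) := by
  classical
  choose h deg hE hu hrr hzero using
    fun c => exists_zero_unit (d := d) hz hzE Sc hSc hint c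
  set T := (divisorOf (K := K) t).support
  set G₀ := ∏ w ∈ T, h (valueAt w d.z) ^ (w.ord t).natAbs with hG₀
  set n₀ := ∑ w ∈ T, (w.ord t).natAbs * deg (valueAt w d.z)
  set n₁ := ∑ w ∈ T, (w.ord t).natAbs
  have hG : IsDiscUnit d G₀ :=
    Finset.prod_induction _ _ (fun _ _ => IsDiscUnit.mul) isDiscUnit_one fun w _ => (hu _).pow _
  refine ⟨G₀, prod_mem fun w _ => pow_mem (hE _) _, hG, n₀ + n₁, ?_⟩
  rw [mem_riemannRochSpace_iff]
  intro v
  refine Or.inr ?_
  have hordc : ∀ c, -((deg c : ℤ) * d.D v) ≤ v.ord (h c) := fun c => by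
    rcases (mem_riemannRochSpace_iff.mp (hrr c)) v with e | e
    · exact absurd e (hu c).ne_zero
    · rwa [Finsupp.smul_apply, nsmul_eq_mul] at e
  have hord : v.ord G₀ = ∑ w ∈ T, ((w.ord t).natAbs : ℤ) * v.ord (h (valueAt w d.z)) := by
    rw [hG₀, ord_prod v _ _ fun w _ => pow_ne_zero _ (hu _).ne_zero]
    exact Finset.sum_congr rfl fun w _ => ord_pow' v _ _
  rw [v.ord_mul ht (pow_ne_zero _ hG.ne_zero), ord_pow' v, Finsupp.smul_apply, nsmul_eq_mul]
  push_cast
  have hDv := D_nonneg (d := d) v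
  rcases (lt_or_ge 0 (d.D v)) with hpos | hle
  · have h1 : -((n₀ : ℤ) * d.D v) ≤ v.ord G₀ := by
      rw [hord, Nat.cast_sum, Finset.sum_mul, ← Finset.sum_neg_distrib]
      refine Finset.sum_le_sum fun w _ => ?_
      push_cast
      rw [mul_assoc, ← mul_neg]
      exact mul_le_mul_of_nonneg_left (hordc _) (by positivity)
    have h2 : -(n₁ : ℤ) ≤ v.ord t := by
      by_cases hv : v ∈ T
      · have : ((v.ord t).natAbs : ℤ) ≤ n₁ := by
          exact_mod_cast Finset.single_le_sum (f := fun w : Place K F => (w.ord t).natAbs)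
            (fun _ _ => Nat.zero_le _) hv
        omega
      · rw [Finsupp.notMem_support_iff, divisorOf_apply] at hv
        omega
    have hP' : (1 : ℤ) ≤ P := by exact_mod_cast hP
    nlinarith [mul_le_mul_of_nonneg_left h1 (Int.natCast_nonneg P),
      mul_nonneg (Int.natCast_nonneg n₁) (sub_nonneg.mpr (show (1 : ℤ) ≤ P * d.D v by nlinarith))]
  · have h0 : d.D v = 0 := le_antisymm hle hDv
    rw [h0, mul_zero, neg_zero]
    have hge : ∀ c, 0 ≤ v.ord (h c) := fun c => by
      have := hordc c; rw [h0, mul_zero, neg_zero] at this; exact this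
    by_cases hv : v ∈ T
    · have hzv : d.z ∈ v.toValuationSubring := by
        rw [mem_iff_ord_nonneg']
        have := h0
        rw [NodalDatum.D, Semistable.poleDiv_apply] at this
        omega
      have h1 : ((v.ord t).natAbs : ℤ) ≤ v.ord G₀ := by
        rw [hord]
        refine le_trans ?_ (Finset.single_le_sum (f := fun w : Place K F =>
          ((w.ord t).natAbs : ℤ) * v.ord (h (valueAt w d.z)))
          (fun w _ => mul_nonneg (Int.natCast_nonneg _) (hge _)) hv)
        exact le_mul_of_one_le_right (Int.natCast_nonneg _) (hzero _ v hzv rfl)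
      have hP' : (1 : ℤ) ≤ P := by exact_mod_cast hP
      have h2 : -v.ord t ≤ ((v.ord t).natAbs : ℤ) := by omega
      nlinarith [mul_le_mul hP' h1 (Int.natCast_nonneg _) (Int.natCast_nonneg P)]
    · rw [Finsupp.notMem_support_iff, divisorOf_apply] at hv
      rw [hv, zero_add]
      refine mul_nonneg (Int.natCast_nonneg P) ?_
      rw [hord]
      exact Finset.sum_nonneg fun w _ => mul_nonneg (Int.natCast_nonneg _) (hge _)

end FermatAgent.BadRed.AtP
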