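import Fermat.Agent.BadRed.AtP.Core
import Fermat.Agent.BadRed.AtP.Regularise
import Fermat.Agent.BadRed.AtP.LevelTwist
import Fermat.Agent.BadRed.AtP.DecompTwist
import Fermat.Agent.BadRed.AtP.Classes
import Fermat.Agent.BadRed.AtP.LeadPow
import Fermat.Agent.MazurPrinciple.InertiaField

/-!
# Torsion of `J₀(p N)` killed by both push forwards, under inertia at `p`

For such a class `x` of order dividing `p ^ m`, `τ` in inertia and a decomposition element `σ`
fixing the nodes, a fixed non-zero multiple of `(σ - w) (τ x - x)` vanishes, `w` being the action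
of `σ` on the roots of unity of that order.
-/

set_option autoImplicit false
set_option maxRecDepth 4000

noncomputable section

open ModularCurve AlgebraicCurve

namespace FermatAgent.BadRed.AtP

open FermatAgent.ModFun FermatAgent.ES FermatAgent.BadRed.Semistable FermatAgent.MazurPrinciple
open FermatAgent.Curve (divisorOf IsFunctionField1)
open FermatAgent.Curve.RR (RRSetting)
open FermatAgent.ModCurveTorsion (galN coe_galN_smul)

local notation "ℚbar" => AlgebraicClosure ℚ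
local notation "GQ" => AlgebraicClosure ℚ ≃ₐ[ℚ] AlgebraicClosure ℚ
local notation "𝐅" N:max => laurentBaseChange ℚbar (modularFunctionFieldFull N)

attribute [local instance] ModCurveTorsion.isFunctionField1_laurent
attribute [local instance] MazurPrinciple.isAlgClosed_residue

variable {p : ℕ} [hp : Fact p.Prime] {A : ValuationSubring ℚbar} (hA : A.LiesOverPrime p)
  {M : ℕ} [NeZero M] (hM : p.Coprime M)

/-- The geometry of the nodal datum over a local base, for the elements satisfying `Q`. -/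
def LevelGeometry (Q : GQ → Prop) : Prop :=
  haveI := isFunctionField1_fib p A hA hM
  ∀ (L : IntermediateField ℚ ℚbar) [FiniteDimensional ℚ L], (∀ (σ : GQ), ∀ x ∈ L, σ x ∈ L) →
    ∀ (m : ℕ) (ζ : ℚbar), IsPrimitiveRoot ζ (p ^ m) → ζ ∈ L →
    ∀ σ : GQ, Q σ → ∀ w : ℕ, σ ζ = ζ ^ w →
      let B := LocalBase.ofField hp.out hA L
      let d := levelData p A hA hM
      ∃ (G : Ground d (fixedFun B.base (p * M)) B.unif B.unifW p) (z : SeenRoot G (p ^ m)),
        (∀ x ∈ fixedFun B.base (p * M), ∀ h : x ∈ d.g₁.integers,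
          d.g₁.red ⟨x, h⟩ = 0 → CongMod d.g₁ B.unif 1 x 0) ∧
        (∀ x ∈ fixedFun B.base (p * M), ∀ h : x ∈ d.g₂.integers,
          d.g₂.red ⟨x, h⟩ = 0 → CongMod d.g₂ B.unif 1 x 0) ∧
        ∀ (hE : ∀ x ∈ fixedFun B.base (p * M), galEquiv (p * M) σ x ∈ fixedFun B.base (p * M))
          (i : d.C.ι) (R c : ℕ) (r : Ann B.unifW)
          (T₁ : ((fixedFun B.base (p * M)).toSubring ⊓ d.g₁.integers : Subring (𝐅 (p * M))))
          (T₂ : ((fixedFun B.base (p * M)).toSubring ⊓ d.g₂.integers : Subring (𝐅 (p * M))))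
          (h₁ : galEquiv (p * M) σ T₁ ∈ d.g₁.integers) (h₂ : galEquiv (p * M) σ T₂ ∈ d.g₂.integers),
          Ann.toX B.unifW R r = (G.node i).end₁ R T₁ →
          Ann.toY B.unifW R r =
            HahnSeries.C (modPowMk B.unifW R (z.ζW ^ c)) * (G.node i).end₂ R T₂ →
          ∃ r', Ann.toX B.unifW R r' =
              (G.node i).end₁ R ⟨galEquiv (p * M) σ T₁, hE _ T₁.2.1, h₁⟩ ∧
            Ann.toY B.unifW R r' = HahnSeries.C (modPowMk B.unifW R (z.ζW ^ (w * c))) *
              (G.node i).end₂ R ⟨galEquiv (p * M) σ T₂, hE _ T₂.2.1, h₂⟩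

/-- The coordinate of the datum is a unit on both components. -/
theorem coordUnit_level :
    haveI := isFunctionField1_fib p A hA hM
    CoordUnit (levelData p A hA hM) := by
  have := isFunctionField1_fib p A hA hM
  have := charP_residueField p A hA
  have h := level_twist hM (placeHom p A hA)
  refine ⟨⟨h.mem, h.mem'⟩, h.transcendental, ?_⟩
  show Transcendental _ ((levelGauss _ hM _).red ⟨atkinLehnerBar hM ℚbar _, h.mem'⟩)
  rw [h.red_twist]
  exact h.transcendental.pow hp.out.pos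

/-- Constants of the base are functions over it. -/
theorem algebraMap_mem {S : IntermediateField ℚ ℚbar} {L : ℕ} [NeZero L] {c : ℚbar} (hc : c ∈ S) :
    algebraMap ℚbar (𝐅 L) c ∈ fixedFun S L := algebraMap_mem_fixedFun.mpr hc

include hM in
theorem normAlong_upLevel_smul {N : ℕ} [NeZero N] [NeZero (p * N)] (hN : p.Coprime N) (hd : N ∣ M)
    {ζ : ℚbarˣ} (hζ : IsPrimitiveRoot ζ p) {f : 𝐅 (p * N)} {G : 𝐅 N} {c : ℚbar} {P : ℕ}
    (h : normAlong (levelIncl p N ℚbar) f = c • G ^ P) :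
    normAlong (levelIncl p M ℚbar) (upLevel hd ℚbar f) = c • upBase hd ℚbar G ^ P := by
  rw [normAlong_upLevel hN hM hd hζ, h, Algebra.smul_def, map_mul, map_pow, AlgHom.commutes,
    ← Algebra.smul_def]

variable {N : ℕ} [NeZero N] [NeZero (p * N)] (hN : p.Coprime N) (hd : N ∣ M)

include hN hd hM in
/-- **The relation on torsion killed by both push forwards.** -/
theorem twisted_smul_eq_zero {Q : GQ → Prop} (hgeo : LevelGeometry hA hM Q) {m : ℕ} {ζ : ℚbar}
    (hζ : IsPrimitiveRoot ζ (p ^ m)) {x : JZero (p * N)} (hx : p ^ m • x = 0)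
    (h₁ : pushOne p N x = 0) (h₂ : pushTwo hN x = 0) {σ τ : GQ}
    (hσQ : Q σ) (hσ : σ ∈ A.decompositionSubgroup ℚ) (hτ : τ ∈ A.inertiaSubgroupIn ℚ) {w : ℕ}
    (hw : w ≤ p ^ m) (hσζ : σ ζ = ζ ^ w) :
    finrankAlong ℚbar (upLevel (p := p) hd ℚbar) •
      (σ • (τ • x - x) - w • (τ • x - x)) = 0 := by
  classical
  have := isFunctionField1_fib p A hA hM
  have := charP_residueField p A hA
  have : NeZero p := ⟨hp.out.ne_zero⟩
  have hP : 0 < p ^ m := pow_pos hp.out.pos m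
  obtain ⟨D, f₀, c, c', G₀, G₀', rfl, hf₀, hfD, hn, hn'⟩ := exists_norms hN hx h₁ h₂
  set f := upLevel (p := p) hd ℚbar f₀ with hfdef
  have hf : f ≠ 0 := (map_ne_zero_iff _ (upLevel (p := p) hd ℚbar).toRingHom.injective).mpr hf₀
  have hu := rootK_primitive (exists_rootUnit A p).choose_spec
  have e₁ : normAlong (levelIncl p M ℚbar) f = c • upBase hd ℚbar G₀ ^ (p ^ m) :=
    normAlong_upLevel_smul hM hN hd hu hn
  have e₂ : normAlong (levelIncl p M ℚbar) (atkinLehnerBar hM ℚbar f) =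
      c' • upBase hd ℚbar G₀' ^ (p ^ m) := by
    rw [hfdef, atkinLehnerBar_upLevel hN hM hd]
    exact normAlong_upLevel_smul hM hN hd hu hn'
  have id₁ := eq_upNorm_upNorm hM hu hf e₁ e₂
  have id₂ := eq_conjNorm_conjNorm hM hu hf e₁ e₂
  set i := levelIncl p M ℚbar
  set H₁ := i (upBase hd ℚbar G₀) / upNorm hM ℚbar (i (upBase hd ℚbar G₀')) with hH₁
  set H₂ := atkinLehnerBar hM ℚbar
    (i (upBase hd ℚbar G₀') / upNorm hM ℚbar (i (upBase hd ℚbar G₀))) with hH₂
  -- the normalising constants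
  let C₁ := levelContract₁ p A hA hM ⊤ ⊤ (p : A) 1 (mul_one _).symm
  let C₂ := levelContract₂ p A hA hM ⊤ ⊤ (p : A) 1 (mul_one _).symm
  have hH₁0 : H₁ ≠ 0 := fun h => hf (by rw [id₁, h, zero_pow hP.ne', zero_mul, smul_zero])
  have hH₂0 : H₂ ≠ 0 := fun h => hf (by rw [id₂, h, zero_pow hP.ne', zero_mul, smul_zero])
  have hC₁ : C₁.N = upNorm hM ℚbar := rfl
  have hC₂ : C₂.N = conjHom (atkinLehnerBar hM ℚbar) (upNorm hM ℚbar) := rfl
  have id₁' : f = (c / c' ^ p) • (H₁ ^ (p ^ m) * C₁.N (C₁.N f)) := by rw [hC₁]; exact id₁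
  have id₂' : f = (c' / c ^ p) • (H₂ ^ (p ^ m) * C₂.N (C₂.N f)) := by rw [hC₂]; exact id₂
  obtain ⟨α₁, ρ₁, hα₁, u₁, v₁, n₁⟩ := exists_normalised_eqn
    (levelData p A hA hM).residue_surjective C₁ hP hf hH₁0 id₁'
  obtain ⟨α₂, ρ₂, hα₂, u₂, v₂, n₂⟩ := exists_normalised_eqn
    (levelData p A hA hM).residue_surjective C₂ hP hf hH₂0 id₂'
  obtain ⟨η₁, rfl⟩ := IsAlgClosed.exists_pow_nat_eq α₁ hP
  obtain ⟨η₂, rfl⟩ := IsAlgClosed.exists_pow_nat_eq α₂ hP
  obtain ⟨a, ha⟩ := IsAlgClosed.exists_pow_nat_eq (leadHom f) hP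
  -- the field of definition
  obtain ⟨L, hLfin, hL, hfL, hGL, hG'L, hsL⟩ :=
    exists_normal_field (p := p) f₀ G₀ G₀' {ζ, η₁, η₂, ρ₁, ρ₂, a}
  set B := LocalBase.ofField hp.out hA L with hB
  set S := B.base with hS
  have hLS : L ≤ S := fun y hy => LocalBase.mem_ofField_right hp.out hA L hy
  have hmem : ∀ y ∈ ({ζ, η₁, η₂, ρ₁, ρ₂, a} : Finset ℚbar), y ∈ S := fun y hy => hLS (hsL y hy)
  simp only [Finset.mem_insert, Finset.mem_singleton, forall_eq_or_imp, forall_eq] at hmem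
  obtain ⟨hζS, hη₁S, hη₂S, hρ₁S, hρ₂S, haS⟩ := hmem
  have hτ' := Local.mem_decomposition_of_inertia hτ
  have hstab : ∀ g : GQ, g ∈ A.decompositionSubgroup ℚ → ∀ y ∈ S, g y ∈ S := by
    intro g hg
    have hle : inertiaField A ⊔ L ≤ (inertiaField A ⊔ L).comap (g : ℚbar →ₐ[ℚ] ℚbar) :=
      sup_le (fun y hy => (le_sup_left : inertiaField A ≤ inertiaField A ⊔ L)
          (show g y ∈ inertiaField A from decomp_mem_inertiaField hg hy))
        (fun y hy => (le_sup_right : L ≤ inertiaField A ⊔ L) (hL g y hy))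
    exact fun y hy => hle hy
  have hfE : f ∈ fixedFun S (p * M) := upLevel_mem_fixedFun hd (fixedFun_mono hLS hfL)
  have hGE : upBase hd ℚbar G₀ ∈ fixedFun S M := upBase_mem_fixedFun hd (fixedFun_mono hLS hGL)
  have hG'E : upBase hd ℚbar G₀' ∈ fixedFun S M := upBase_mem_fixedFun hd (fixedFun_mono hLS hG'L)
  have hH₁E : H₁ ∈ fixedFun S (p * M) := (fixedFun S (p * M)).div_mem
    (levelIncl_mem_fixedFun S hGE) (upNorm_mem_fixedFun hM S hu (levelIncl_mem_fixedFun S hG'E))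
  have hH₂E : H₂ ∈ fixedFun S (p * M) := atkinLehnerBar_mem_fixedFun hM S
    ((fixedFun S (p * M)).div_mem (levelIncl_mem_fixedFun S hG'E)
      (upNorm_mem_fixedFun hM S hu (levelIncl_mem_fixedFun S hGE)))
  obtain ⟨G, z, hdiv₁, hdiv₂, hnode⟩ :=
    hgeo L hL m ζ hζ (hsL ζ (Finset.mem_insert_self _ _)) σ hσQ w hσζ
  obtain ⟨v, hv⟩ : ∃ v : A, (p : A) = B.unif * v := by
    obtain ⟨u, hu', -⟩ := G.p_eq
    obtain ⟨k, hk⟩ : ∃ k, G.v = k + 1 := ⟨G.v - 1, by have := G.one_le; omega⟩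
    exact ⟨B.unif ^ k * u, by rw [hu', hk, pow_succ']; ring⟩
  let C₁' := levelContract₁ p A hA hM S S B.unif v hv
  let C₂' := levelContract₂ p A hA hM S S B.unif v hv
  let D₁ : NormalEqn (levelData p A hA hM).g₁ C₁' (p ^ m) f :=
    { η := η₁
      η_ne_zero := fun e => hα₁ (by rw [e, zero_pow hP.ne'])
      η_mem := algebraMap_mem hη₁S
      H := ρ₁ • H₁
      H_mem := by rw [Algebra.smul_def]; exact mul_mem (algebraMap_mem hρ₁S) hH₁E
      unit := u₁
      unit_H := v₁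
      eqn := n₁ }
  let D₂ : NormalEqn (levelData p A hA hM).g₂ C₂' (p ^ m) f :=
    { η := η₂
      η_ne_zero := fun e => hα₂ (by rw [e, zero_pow hP.ne'])
      η_mem := algebraMap_mem hη₂S
      H := ρ₂ • H₂
      H_mem := by rw [Algebra.smul_def]; exact mul_mem (algebraMap_mem hρ₂S) hH₂E
      unit := u₂
      unit_H := v₂
      eqn := n₂ }
  let T := levelTwist hτ hA hM S (hstab τ hτ') B.unif
  let TS := decompTwist hσ hA hM S (hstab σ hσ) B.unif
  have hfdiv : ∀ u : Place ℚbar (𝐅 (p * N)), ((p ^ m : ℕ) : ℤ) ∣ u.ord f₀ := fun u => by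
    have := DFunLike.congr_fun hfD u
    rw [Finsupp.smul_apply, nsmul_eq_mul, Curve.divisorOf_apply] at this
    exact ⟨_, this.symm⟩
  obtain ⟨Φ, hΦ⟩ := exists_rootPow_ratio G z hdiv₁ hdiv₂ C₁' C₂' T
    (levelTwist_val hτ hA hM S (hstab τ hτ') B.unif) (fixesRed₁ hτ hA hM) (fixesRed₂ hτ hA hM)
    (fun y => (levelContract_galEquiv hτ hA hM S B.unif v hv y).1)
    (fun y => (levelContract_galEquiv hτ hA hM S B.unif v hv y).2) TS hw
    (fun i R c r T₁ T₂ hX hY =>
      hnode TS.mem_E i R c r T₁ T₂ (TS.mem₁ _ T₁.2.2).1 (TS.mem₂ _ T₂.2.2).1 hX hY)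
    (fun t ht ht0 => exists_regularise (coordUnit_level hA hM) jBar_mem_fixedFun S.toSubfield
      (fun b hb => algebraMap_mem hb)
      (fun b => ((AlgebraicClosure.isAlgebraic ℚ).isAlgebraic b).isIntegral.tower_top) ht0 hP)
    hfE (fun u => by
      rw [hfdef, u.ord_restrictAlong (upLevel (p := p) hd ℚbar)
        (Curve.isIntegralAlong (upLevel (p := p) hd ℚbar))]
      exact (hfdiv _).mul_left _)
    D₁ D₂ (fun G' hG' Ψ j hj hΨ => by
      have hl : LeadPow S (p ^ m) f := ⟨a, haS, ha⟩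
      have hτf : galN (p * M) τ • f ∈ fixedFun S (p * M) :=
        (levelTwist hτ hA hM S (hstab τ hτ') B.unif).mem_E f hfE
      set t := galN (p * M) τ • f / f * G' ^ p ^ m with ht
      have htE : t ∈ fixedFun S (p * M) :=
        mul_mem (div_mem hτf hfE) (pow_mem hG' _)
      have hG'0 : G' ≠ 0 ∨ G' = 0 := (em (G' = 0)).symm
      rcases hG'0 with hG'0 | hG'0
      swap
      · have hz : Ψ ^ p ^ j = 0 := by
          rw [hΨ, hG'0, zero_pow hP.ne', mul_zero, map_zero, zero_mul]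
        rw [pow_eq_zero_iff (pow_ne_zero _ hp.out.ne_zero)] at hz
        rw [hz]; exact zero_mem _
      have ht0 : t ≠ 0 := mul_ne_zero (div_ne_zero ((smul_ne_zero_iff_ne _).mpr hf) hf)
        (pow_ne_zero _ hG'0)
      have hlt : LeadPow S (p ^ m) t := by
        rw [ht, div_eq_mul_inv]
        exact ((hl.galN (hstab τ hτ')).mul (hl.inv hf)).mul (leadPow_pow_self hG')
      exact mem_fixedFun_of_pow hζ hζS hP (pow_dvd_pow p hj)
        (mul_mem (TS.mem_E t htE) (pow_mem htE _))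
        (mul_ne_zero ((map_ne_zero_iff _ TS.τ.injective).mpr ht0) (pow_ne_zero _ ht0))
        ((hlt.galN (hstab σ hσ)).mul (hlt.pow _)) hΨ)
  refine smul_twisted_eq_zero hd hP hw hf₀ hfD hx (Φ := Φ) ?_
  rw [hΦ, map_mul, map_pow, upLevel_galN, map_div₀ (upLevel (p := p) hd ℚbar), upLevel_galN]
  rfl

end FermatAgent.BadRed.AtP
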