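import Fermat.Agent.LocalP.UnitRoot.Relations
import Fermat.Agent.Conductor.Residual
import Fermat.Agent.GalRep.Construct.Inputs
import Fermat.Prelude.Thm_IsLocalRing_isAdicComplete_of_module_finite

/-!
# Relations at a lower level hold modulo the operators vanishing there

If `π : H → T` has the Frobenius characteristic polynomials of `ρ` and `φ : H → H'` restricts to
level `N'`, a relation on the Tate module of level `N'` holds in `ρ` modulo `π (ker φ)`.
-/

set_option autoImplicit false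
set_option linter.style.haveILetI false
set_option maxHeartbeats 800000

noncomputable section

open CuspForm IsLocalRing Polynomial
open scoped TensorProduct

namespace FermatAgent.BadRed.AtP

open FermatAgent.GalRep FermatAgent.LocalP.UnitRoot

local notation "GQ" => AlgebraicClosure ℚ ≃ₐ[ℚ] AlgebraicClosure ℚ

variable {p : ℕ} [Fact p.Prime]

theorem map_padicToRing' {R R' : Type} [CommRing R] [IsLocalRing R]
    [IsAdicComplete (maximalIdeal R) R] [CommRing R'] [IsLocalRing R']
    [IsAdicComplete (maximalIdeal R') R'] (f : R →+* R') [IsLocalHom f]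
    (hp : (p : R) ∈ maximalIdeal R) (hp' : (p : R') ∈ maximalIdeal R') (x : ℤ_[p]) :
    f (padicToRing hp x) = padicToRing hp' x := by
  refine eq_of_forall_sub_mem_pow fun n => ?_
  have hx : (p : ℤ_[p]) ^ n ∣ x - (x.appr n : ℕ) :=
    Ideal.mem_span_singleton.mp (PadicInt.appr_spec n x)
  have h1 := padicToRing_mem_pow hp hx
  have h2 := padicToRing_mem_pow hp' hx
  rw [map_sub, map_natCast] at h1 h2
  have hle : (maximalIdeal R ^ n).map f ≤ maximalIdeal R' ^ n := by
    rw [Ideal.map_pow]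
    exact Ideal.pow_right_mono (Ideal.map_le_iff_le_comap.mpr fun a ha =>
      Ideal.mem_comap.mpr (map_nonunit f a ha)) n
  have h3 := hle (Ideal.mem_map_of_mem f h1)
  rw [map_sub, map_natCast] at h3
  simpa using Ideal.sub_mem _ h3 h2

theorem mem_smul_top_of_tmul_eq_zero {R : Type} [CommRing R] (J : Ideal R) {V : Type}
    [AddCommGroup V] [Module R V] [Module.Free R V] [Module.Finite R V] {x : V}
    (h : (1 : R ⧸ J) ⊗ₜ[R] x = 0) : x ∈ J • (⊤ : Submodule R V) := by
  let b := Module.Free.chooseBasis R V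
  rw [← b.sum_repr x]
  refine Submodule.sum_mem _ fun i _ => Submodule.smul_mem_smul ?_ Submodule.mem_top
  have h1 := congrArg (fun y => (b.baseChange (R ⧸ J)).repr y i) h
  simp only [Module.Basis.baseChange_repr_tmul, map_zero, Finsupp.zero_apply, Algebra.smul_def,
    mul_one] at h1
  exact Ideal.Quotient.eq_zero_iff_mem.mp h1

variable {N N' : ℕ} [NeZero N] [NeZero N'] {S : Finset ℕ} {T : Type} [CommRing T] [IsLocalRing T]
  [IsNoetherianRing T] [IsAdicComplete (maximalIdeal T) T] (hpT : (p : T) ∈ maximalIdeal T)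
  (π : heckeAlgebra N 2 (↑S : Set ℕ) →+* T) (ρ : GaloisRepAdic T)
  (hρ : HasFrobCharpolys π ρ S) (hirr : ρ.residual.IsAbsolutelyIrreducible)
  (φ : heckeAlgebra N 2 (↑S : Set ℕ) →+* heckeAlgebra N' 2 (↑S : Set ℕ))
  (hφ : Function.Surjective φ)

include hρ hirr hφ in
/-- A relation at level `N'` holds modulo the operators vanishing at level `N'`. -/
theorem adicCombH_mem_of_tateCombH_eq_zero
    (hφT : ∀ (l : ℕ) (hl : l.Prime) (hlN : ¬ l ∣ N) (hlS : l ∉ (↑S : Set ℕ)) (hlN' : ¬ l ∣ N'),
      φ (heckeAlgebra.T hl hlN hlS) = heckeAlgebra.T hl hlN' hlS)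
    (hN : ∀ r : ℕ, r.Prime → r ∣ N → r ∈ S) (D' : HeckeTateData N' p (↑S : Set ℕ))
    (J : Ideal T) (hJ : ∀ t, φ t = 0 → π t ∈ J) (l : GQ →₀ ℤ_[p])
    (hl : tateCombH D' (l.mapDomain fun g => (g, 1)) = 0) (v : ρ.V) :
    adicCombH hpT π ρ (l.mapDomain fun g => (g, 1)) v ∈ J • (⊤ : Submodule T ρ.V) := by
  classical
  rcases eq_or_ne J ⊤ with rfl | hJtop
  · simp
  haveI : Nontrivial (T ⧸ J) := Ideal.Quotient.nontrivial_iff.mpr hJtop
  haveI : IsLocalRing (T ⧸ J) :=
    IsLocalRing.of_surjective' (Ideal.Quotient.mk J) Ideal.Quotient.mk_surjective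
  haveI hloc : IsLocalHom (algebraMap T (T ⧸ J)) :=
    IsLocalHom.of_surjective _ Ideal.Quotient.mk_surjective
  haveI : IsAdicComplete (maximalIdeal (T ⧸ J)) (T ⧸ J) :=
    IsLocalRing.isAdicComplete_of_module_finite (𝒪 := T)
  haveI : IsLocalHom (Ideal.Quotient.mk J) := hloc
  have hpb : (p : T ⧸ J) ∈ maximalIdeal (T ⧸ J) := by
    rw [← map_natCast (Ideal.Quotient.mk J)]
    exact map_nonunit _ _ hpT
  set ρb := ρ.baseChangeAlong (Ideal.Quotient.mk J) hloc
  let χb : heckeAlgebra N' 2 (↑S : Set ℕ) →+* T ⧸ J :=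
    φ.liftOfSurjective hφ ⟨(Ideal.Quotient.mk J).comp π, fun t ht => by
      rw [RingHom.mem_ker, RingHom.comp_apply, Ideal.Quotient.eq_zero_iff_mem]
      exact hJ t ht⟩
  have hχb : ∀ t, χb (φ t) = Ideal.Quotient.mk J (π t) := fun t =>
    RingHom.liftOfSurjective_comp_apply _ _ _ t
  have hcharb : ∀ σ, LinearMap.charpoly (ρb.ρ σ) =
      (LinearMap.charpoly (ρ.ρ σ)).map (Ideal.Quotient.mk J) := fun σ =>
    LinearMap.charpoly_baseChange (ρ.ρ σ) (A := T ⧸ J)
  have hρb : HasFrobCharpolys χb ρb S := by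
    intro l hl hlN hlS hlS' A hA σ hσ
    have hlN₀ : ¬ l ∣ N := fun h => hlS (hN l hl h)
    rw [hcharb, hρ l hl hlN₀ hlS hlS' A hA σ hσ, ← hφT l hl hlN₀ hlS hlN, hχb]
    simp [Polynomial.map_sub, Polynomial.map_add, Polynomial.map_mul, Polynomial.map_pow]
  have hirrb : ρb.residual.IsAbsolutelyIrreducible := by
    refine Conductor.isAbsolutelyIrreducible_of_charpoly_map ρ.residual hirr
      (ResidueField.map (Ideal.Quotient.mk J)) ρb.residual fun σ => ?_
    show LinearMap.charpoly ((ρb.ρ σ).baseChange (ResidueField (T ⧸ J))) =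
      (LinearMap.charpoly ((ρ.ρ σ).baseChange (ResidueField T))).map _
    rw [LinearMap.charpoly_baseChange, LinearMap.charpoly_baseChange, hcharb, Polynomial.map_map,
      Polynomial.map_map]
    rfl
  have h0 := adicCombH_eq_zero D' hpb χb ρb frobDense hρb hirrb _ hl
  refine mem_smul_top_of_tmul_eq_zero J ?_
  let vb : ρb.V := (1 : T ⧸ J) ⊗ₜ[T] v
  have key : ∀ m : GQ →₀ ℤ_[p],
      ((1 : T ⧸ J) ⊗ₜ[T] adicCombH hpT π ρ (m.mapDomain fun g => (g, 1)) v : ρb.V) =
        adicCombH hpb χb ρb (m.mapDomain fun g => (g, 1)) vb := by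
    intro m
    induction m using Finsupp.induction_linear with
    | zero =>
      rw [Finsupp.mapDomain_zero, Finsupp.mapDomain_zero, map_zero, map_zero]
      exact TensorProduct.tmul_zero _ _
    | add a b ha hb =>
      rw [Finsupp.mapDomain_add, Finsupp.mapDomain_add, map_add, map_add, LinearMap.add_apply,
        LinearMap.add_apply, ← ha, ← hb]
      exact TensorProduct.tmul_add _ _ _
    | single g c =>
      rw [Finsupp.mapDomain_single, Finsupp.mapDomain_single, adicCombH_single, adicCombH_single,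
        map_one, map_one, mul_one, mul_one, LinearMap.smul_apply, LinearMap.smul_apply,
        ← map_padicToRing' (Ideal.Quotient.mk J) hpT hpb c]
      show (1 : T ⧸ J) ⊗ₜ[T] (padicToRing hpT c • ρ.ρ g v) =
        (Ideal.Quotient.mk J (padicToRing hpT c) * 1) ⊗ₜ[T] ρ.ρ g v
      rw [← TensorProduct.smul_tmul, Algebra.smul_def]
      rfl
  exact (key l).trans (LinearMap.congr_fun h0 vb)

end FermatAgent.BadRed.AtP
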