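import Fermat.Agent.BadRed.AtP.ToricHecke
import Fermat.Agent.BadRed.AtP.DatumFacts
import Fermat.Agent.BadRed.AtP.OldQuotient
import Fermat.Agent.LocalP.UnitRoot.Final
import Fermat.Prelude.Def_CuspForm_HeckeGaloisRepDatum
import Fermat.Prelude.Def_GaloisRep_LocalConditions

/-!
# Hecke data at `p ∥ N` are ordinary when residually ordinary

On the part killing the forms of level `N'` inertia satisfies `(σ - χ σ) (τ - 1) = 0`; modulo that
part the relation of good reduction holds. The product of the two combinations of inertia elements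
kills `τ - 1`, as the Hecke ring is reduced, and cuts out the line.
-/

set_option autoImplicit false
set_option linter.style.haveILetI false
set_option maxHeartbeats 1600000

noncomputable section

open CuspForm IsLocalRing
open scoped TensorProduct

namespace FermatAgent.BadRed.AtP

open FermatAgent.GalRep FermatAgent.LocalP.UnitRoot FermatAgent.BadRed.Semistable

local notation "GQ" => AlgebraicClosure ℚ ≃ₐ[ℚ] AlgebraicClosure ℚ
local notation "ℚbar" => AlgebraicClosure ℚ

variable {p N' : ℕ} [Fact p.Prime] [NeZero N'] [NeZero (p * N')]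

/-- Restriction to level `N'` is onto when the excluded sets agree. -/
theorem oldRes_surjective (hco : p.Coprime N') {S : Set ℕ}
    (hS : ∀ r : ℕ, r.Prime → r ∣ p * N' → r ∈ S) :
    Function.Surjective (oldRes hco hS (subset_rfl : S ⊆ S)) := by
  rintro ⟨t, ht⟩
  induction ht using Algebra.adjoin_induction with
  | mem x hx =>
    rcases hx with ⟨l, hl, hlN, hlS, rfl⟩ | ⟨r, hrN, hr, hrS, -⟩
    · exact ⟨heckeAlgebra.T hl (fun e => hlS (hS l hl e)) hlS, oldRes_T hco hS _ hl _ hlS hlN hlS⟩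
    · exact absurd (hS r hr (dvd_mul_of_dvd_right hrN p)) hrS
  | algebraMap c =>
    refine ⟨algebraMap ℤ _ c, ?_⟩
    rw [eq_intCast, map_intCast]
    rfl
  | add a b _ _ iha ihb =>
    obtain ⟨x, hx⟩ := iha
    obtain ⟨y, hy⟩ := ihb
    exact ⟨x + y, (map_add _ x y).trans (congrArg₂ (· + ·) hx hy)⟩
  | mul a b _ _ iha ihb =>
    obtain ⟨x, hx⟩ := iha
    obtain ⟨y, hy⟩ := ihb
    exact ⟨x * y, (map_mul _ x y).trans (congrArg₂ (· * ·) hx hy)⟩

/-- A vector of `J • ⊤` killed by `J` is zero over a reduced ring. -/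
theorem eq_zero_of_mem_smul_top_of_smul_eq_zero {R : Type} [CommRing R] [IsReduced R] {V : Type}
    [AddCommGroup V] [Module R V] [Module.Free R V] [Module.Finite R V] (J : Ideal R) {x : V}
    (hx : x ∈ J • (⊤ : Submodule R V)) (hJ : ∀ a ∈ J, a • x = 0) : x = 0 := by
  let b := Module.Free.chooseBasis R V
  refine b.repr.injective (Finsupp.ext fun i => ?_)
  have hc : b.repr x i ∈ J := Submodule.smul_induction_on (p := fun y => b.repr y i ∈ J) hx
    (fun r hr y _ => by rw [map_smul, Finsupp.smul_apply, smul_eq_mul]; exact J.mul_mem_right _ hr)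
    (fun y z hy hz => by rw [map_add, Finsupp.add_apply]; exact J.add_mem hy hz)
  have h := hJ _ hc
  have h' : b.repr x i * b.repr x i = 0 := by
    rw [← smul_eq_mul, ← Finsupp.smul_apply, ← map_smul, h, map_zero, Finsupp.zero_apply]
  rw [map_zero, Finsupp.zero_apply]
  exact IsReduced.eq_zero _ ⟨2, by rw [sq, h']⟩

variable {S : Finset ℕ} {𝒪 : Type} [CommRing 𝒪] [IsDomain 𝒪] [IsDiscreteValuationRing 𝒪]
  [IsAdicComplete (maximalIdeal 𝒪) 𝒪] [CharZero 𝒪]
  {θ : heckeAlgebra (p * N') 2 (↑S : Set ℕ) →+* ResidueField 𝒪}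
  {T : Type} [CommRing T] [IsLocalRing T] [IsNoetherianRing T]
  [IsAdicComplete (maximalIdeal T) T] [Algebra 𝒪 T] [IsLocalHom (algebraMap 𝒪 T)]
  [Module.Finite 𝒪 T] [Module.Free 𝒪 T]

omit [Algebra 𝒪 T] [IsLocalHom (algebraMap 𝒪 T)] [Module.Finite 𝒪 T] [Module.Free 𝒪 T] in
/-- **Ordinarity at `p ∥ N` of point data over a reduced ring.** -/
theorem pointDatum_isOrdinaryAt [IsReduced T] (hp2 : p ≠ 2) (hco : p.Coprime N')
    (hT : TorsionToric p N' hco) (hpT : (p : T) ∈ maximalIdeal T)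
    (hNS : ∀ r : ℕ, r.Prime → r ∣ p * N' → r ∈ (↑S : Set ℕ))
    (H : PointDatum (p * N') (↑S : Set ℕ) T)
    (hres : (GaloisRepAdic.ofResidualGaloisRep H.ρ.residual).IsOrdinaryAt p) :
    H.ρ.IsOrdinaryAt p := by
  classical
  intro A hA
  set D := modelTate (p * N') p hNS
  have hS' : ∀ r : ℕ, r.Prime → r ∣ N' → r ∈ (↑S : Set ℕ) :=
    fun r hr h => hNS r hr (dvd_mul_of_dvd_right h p)
  set D' := modelTate N' p hS'
  have hpN' : ¬ p ∣ N' := (Nat.Prime.coprime_iff_not_dvd Fact.out).mp hco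
  have hρ : HasFrobCharpolys H.π H.ρ S :=
    fun l hl hlN hlS _ B hB σ hσ => H.charpoly_frob l hl hlN hlS B hB σ hσ
  obtain ⟨l₂, hl₂, hrel₀, -⟩ := exists_tate_relation (p := p)
    (modelTorsion N' p (↑N'.primeFactors : Set ℕ)) A hp2 hpN'
    (fun h => hpN' (Nat.dvd_of_mem_primeFactors h)) hA (hasReductionModels Fact.out hpN' hA)
  have hrel : ∀ τ ∈ A.inertiaSubgroupIn ℚ,
      (l₂.sum fun σ c => c • D'.ρ σ) * (D'.ρ τ - 1) = 0 := hrel₀
  obtain ⟨σ₀, hσ₀, hunit⟩ := exists_inertia_cycChar_sub_one (p := p) hp2 hA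
  set ψ := padicToRing hpT
  set c₀ := ψ (cycChar p σ₀)
  set a : T := (((hunit.map ψ).unit⁻¹ : Tˣ) : T)
  have ha : a * (c₀ - 1) = 1 := by
    have e : c₀ - 1 = ψ (cycChar p σ₀ - 1) := by rw [map_sub, map_one]
    rw [e]
    exact (hunit.map ψ).val_inv_mul
  let Λ : (↥(A.inertiaSubgroupIn ℚ) →₀ T) →ₗ[T] Module.End T H.ρ.V :=
    Finsupp.linearCombination T fun σ => H.ρ.ρ σ
  let aug : (↥(A.inertiaSubgroupIn ℚ) →₀ T) →ₗ[T] T := Finsupp.linearCombination T fun _ => 1
  let c₂ : ↥(A.inertiaSubgroupIn ℚ) →₀ T := l₂.mapRange ψ (map_zero _)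
  let c : ↥(A.inertiaSubgroupIn ℚ) →₀ T :=
    a • (c₀ • c₂ - c₂.mapDomain fun σ => (⟨σ₀, hσ₀⟩ : ↥(A.inertiaSubgroupIn ℚ)) * σ)
  set R₁ : Module.End T H.ρ.V := a • (c₀ • 1 - H.ρ.ρ σ₀)
  have hΛmul : ∀ d : ↥(A.inertiaSubgroupIn ℚ) →₀ T,
      Λ (d.mapDomain fun σ => (⟨σ₀, hσ₀⟩ : ↥(A.inertiaSubgroupIn ℚ)) * σ) = H.ρ.ρ σ₀ * Λ d := by
    intro d
    induction d using Finsupp.induction_linear with
    | zero => simp
    | add x y hx hy => rw [Finsupp.mapDomain_add, map_add, map_add, hx, hy, mul_add]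
    | single σ b =>
      rw [Finsupp.mapDomain_single, Finsupp.linearCombination_single,
        Finsupp.linearCombination_single, Subgroup.coe_mul, map_mul, mul_smul_comm]
  have hR : Λ c = R₁ * Λ c₂ := by
    rw [map_smul, map_sub, map_smul, hΛmul, smul_mul_assoc, sub_mul, smul_mul_assoc, one_mul]
  have hcunit : IsUnit (c.sum fun _ b => b) := by
    have h1 : ∀ d : ↥(A.inertiaSubgroupIn ℚ) →₀ T, (d.sum fun _ b => b) = aug d := fun d => by
      simp [aug, Finsupp.linearCombination_apply]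
    have h2 : aug (c₂.mapDomain fun σ => (⟨σ₀, hσ₀⟩ : ↥(A.inertiaSubgroupIn ℚ)) * σ) = aug c₂ := by
      simp only [aug, Finsupp.linearCombination_mapDomain]
      rfl
    rw [h1, map_smul, map_sub, map_smul, h2, smul_eq_mul, smul_eq_mul, ← sub_one_mul, ← mul_assoc,
      ha, one_mul, ← h1, Finsupp.sum_mapRange_index (fun _ => rfl), ← map_finsuppSum]
    exact hl₂.map ψ
  set J : Ideal T := Ideal.span (H.π '' (RingHom.ker (oldRes hco hNS subset_rfl) : Set _)) with hJ
  -- toric part
  have htor : ∀ t, oldRes hco hNS subset_rfl t = 0 → ∀ τ ∈ A.inertiaSubgroupIn ℚ,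
      H.π t • (R₁ * (H.ρ.ρ τ - 1)) = 0 := by
    intro t ht τ hτ
    have h := adicCombH_eq_zero D hpT H.π H.ρ frobDense hρ H.residual_absIrr
      (Finsupp.single (σ₀ * τ, t) 1 - Finsupp.single (σ₀, t) 1 -
        Finsupp.single (τ, t) (cycChar p σ₀) + Finsupp.single ((1 : GQ), t) (cycChar p σ₀)) (by
      have h0 := hecMat_toric hco hNS hT hA hσ₀ hτ ht
      simp only [map_add, map_sub, tateCombH, Finsupp.linearCombination_single, one_smul, map_mul,
        map_one, mul_one]
      rw [← h0]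
      simp only [mul_sub, sub_mul, mul_one, one_mul, smul_mul_assoc, mul_smul_comm, ← mul_assoc]
      abel)
    rw [map_add, map_sub, map_sub, adicCombH_single, adicCombH_single, adicCombH_single,
      adicCombH_single] at h
    have h' : H.π t • ((c₀ • 1 - H.ρ.ρ σ₀) * (H.ρ.ρ τ - 1)) = 0 := by
      rw [← neg_eq_zero, ← h]
      simp only [map_mul, map_one, one_mul, mul_sub, sub_mul, smul_mul_assoc, mul_one, smul_sub,
        smul_smul, mul_comm (H.π t) c₀, c₀, ψ]
      abel
    rw [smul_mul_assoc, smul_comm, h', smul_zero]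
  -- old part
  have hold : ∀ τ ∈ A.inertiaSubgroupIn ℚ, ∀ v,
      (Λ c₂ * (H.ρ.ρ τ - 1)) v ∈ J • (⊤ : Submodule T H.ρ.V) := by
    intro τ hτ v
    let l : GQ →₀ ℤ_[p] := l₂.mapDomain (fun σ : ↥(A.inertiaSubgroupIn ℚ) => (σ : GQ) * τ) - l₂.mapDomain fun σ : ↥(A.inertiaSubgroupIn ℚ) => (σ : GQ)
    have htate : ∀ m : ↥(A.inertiaSubgroupIn ℚ) →₀ ℤ_[p],
        tateCombH D' (((m.mapDomain (fun σ : ↥(A.inertiaSubgroupIn ℚ) => (σ : GQ) * τ) - m.mapDomain fun σ : ↥(A.inertiaSubgroupIn ℚ) => (σ : GQ))).mapDomain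
          fun g => (g, 1)) = (m.sum fun σ b => b • D'.ρ σ) * (D'.ρ τ - 1) := by
      intro m
      induction m using Finsupp.induction_linear with
      | zero => simp
      | add x y hx hy =>
        rw [Finsupp.mapDomain_add, Finsupp.mapDomain_add, add_sub_add_comm, Finsupp.mapDomain_add,
          map_add, hx, hy, Finsupp.sum_add_index'
            (h := fun (σ : ↥(A.inertiaSubgroupIn ℚ)) (b : ℤ_[p]) => b • D'.ρ (σ : GQ))
            (fun σ => zero_smul _ _) (fun σ a b => add_smul a b _), add_mul]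
      | single σ b =>
        rw [Finsupp.mapDomain_single, Finsupp.mapDomain_single, Finsupp.mapDomain_sub,
          Finsupp.mapDomain_single, Finsupp.mapDomain_single, map_sub, tateCombH,
          Finsupp.linearCombination_single, Finsupp.linearCombination_single,
          Finsupp.sum_single_index
            (h := fun (σ : ↥(A.inertiaSubgroupIn ℚ)) (b : ℤ_[p]) => b • D'.ρ (σ : GQ))
            (zero_smul _ _)]
        simp only [map_one, one_mul, map_mul, mul_sub, mul_one, smul_mul_assoc]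
    have hadic : ∀ m : ↥(A.inertiaSubgroupIn ℚ) →₀ ℤ_[p],
        adicCombH hpT H.π H.ρ (((m.mapDomain (fun σ : ↥(A.inertiaSubgroupIn ℚ) => (σ : GQ) * τ) -
          m.mapDomain fun σ : ↥(A.inertiaSubgroupIn ℚ) => (σ : GQ))).mapDomain fun g => (g, 1)) =
          Λ (m.mapRange ψ (map_zero _)) * (H.ρ.ρ τ - 1) := by
      intro m
      induction m using Finsupp.induction_linear with
      | zero => simp
      | add x y hx hy =>
        rw [Finsupp.mapDomain_add, Finsupp.mapDomain_add, add_sub_add_comm, Finsupp.mapDomain_add,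
          map_add, hx, hy, Finsupp.mapRange_add (map_add ψ), map_add, add_mul]
      | single σ b =>
        rw [Finsupp.mapDomain_single, Finsupp.mapDomain_single, Finsupp.mapDomain_sub,
          Finsupp.mapDomain_single, Finsupp.mapDomain_single, map_sub, adicCombH_single,
          adicCombH_single, Finsupp.mapRange_single, Finsupp.linearCombination_single]
        simp only [map_one, mul_one, map_mul, mul_sub, smul_mul_assoc, ψ]
    have h := adicCombH_mem_of_tateCombH_eq_zero hpT H.π H.ρ hρ H.residual_absIrr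
      (oldRes hco hNS subset_rfl) (oldRes_surjective hco hNS)
      (fun l hl hlN hlS hlN' => oldRes_T hco hNS subset_rfl hl hlN hlS hlN' hlS) hNS D' J
      (fun t ht => Ideal.subset_span ⟨t, ht, rfl⟩) l ((htate l₂).trans (hrel τ hτ)) v
    rwa [hadic] at h
  have hRτ : ∀ τ ∈ A.inertiaSubgroupIn ℚ, Λ c * (H.ρ.ρ τ - 1) = 0 := by
    intro τ hτ
    refine LinearMap.ext fun v => eq_zero_of_mem_smul_top_of_smul_eq_zero J ?_ fun b hb => ?_
    · rw [hR, mul_assoc]
      exact Submodule.smul_top_le_comap_smul_top J R₁ (hold τ hτ v)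
    · induction hb using Submodule.span_induction with
      | mem b hb =>
        obtain ⟨t, ht, rfl⟩ := hb
        have h : H.π t • (R₁ * Λ c₂ * (H.ρ.ρ τ - 1)) = 0 := by
          have key : ∀ d, H.π t • (R₁ * Λ d * (H.ρ.ρ τ - 1)) = 0 := by
            intro d
            induction d using Finsupp.induction_linear with
            | zero => simp
            | add x y hx hy => rw [map_add, mul_add, add_mul, smul_add, hx, hy, add_zero]
            | single σ b =>
              have e : H.ρ.ρ (σ : GQ) * (H.ρ.ρ τ - 1) =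
                  (H.ρ.ρ ((σ : GQ) * τ) - 1) - (H.ρ.ρ σ - 1) := by
                rw [mul_sub, mul_one, map_mul]; abel
              rw [Finsupp.linearCombination_single, mul_smul_comm, smul_mul_assoc, mul_assoc, e,
                mul_sub, smul_comm, smul_sub,
                htor t (RingHom.mem_ker.mp ht) _ (mul_mem σ.2 hτ),
                htor t (RingHom.mem_ker.mp ht) _ σ.2, sub_zero, smul_zero]
          exact key c₂
        rw [← LinearMap.smul_apply, hR]
        exact LinearMap.congr_fun h v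
      | zero => exact zero_smul _ _
      | add x y _ _ hx hy => rw [add_smul, hx, hy, add_zero]
      | smul r x _ hx => rw [smul_eq_mul, mul_smul, hx, smul_zero]
  have hne : ∃ σ ∈ A.inertiaSubgroupIn ℚ, (H.ρ.ρ σ).baseChange (ResidueField T) ≠ 1 := by
    refine ⟨σ₀, hσ₀, fun h => ?_⟩
    have hd := congrArg LinearMap.det h
    rw [LinearMap.det_baseChange, det_eq_cycChar D hpT hp2 H.π H.ρ hρ σ₀, map_one,
      ← map_one (algebraMap T (ResidueField T)), ResidueField.algebraMap_eq, ← sub_eq_zero,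
      ← map_sub, residue_eq_zero_iff] at hd
    exact ((mem_maximalIdeal _).mp hd) (by
      have := hunit.map ψ
      rwa [map_sub, map_one] at this)
  obtain ⟨b, -, hD, hI⟩ := exists_line_of_relation H.ρ c hcunit (Λ c)
    (Finsupp.linearCombination_apply T c) hRτ (exists_residual_line hres hA) hne
  refine ⟨T ∙ b 0, ⟨b, rfl⟩, fun σ hσ v hv => ?_, hI⟩
  obtain ⟨r, rfl⟩ := Submodule.mem_span_singleton.mp hv
  rw [map_smul]
  exact Submodule.smul_mem _ r (hD σ hσ)

/-- **Ordinarity at `p ∥ N`.** -/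
theorem datum_isOrdinaryAt (hp2 : p ≠ 2) (hco : p.Coprime N') (hT : TorsionToric p N' hco)
    (hp : (p : 𝒪) ∈ maximalIdeal 𝒪)
    (hNS : ∀ r : ℕ, r.Prime → r ∣ p * N' → r ∈ (↑S : Set ℕ))
    (H : HeckeGaloisRepDatum (p * N') (↑S : Set ℕ) 𝒪 θ T)
    (hres : (GaloisRepAdic.ofResidualGaloisRep H.ρ.residual).IsOrdinaryAt p) :
    H.ρ.IsOrdinaryAt p := by
  haveI := RTLift.Petersson.isReduced_heckeAlgebra (k := 2) hNS
  haveI : IsReduced T := isReduced_of_adjoin_range (modelTate (p * N') p hNS).ι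
    (modelTate (p * N') p hNS).ι_injective H.π H.adjoin_range_π
  exact pointDatum_isOrdinaryAt hp2 hco hT (natCast_mem_maximalIdeal_of_algebra (T := T) hp) hNS
    (pointDatum H) hres

end FermatAgent.BadRed.AtP
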