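import Fermat.Agent.BadRed.AtP.ToricProp
import Fermat.Agent.BadRed.Carayol.Assembly.Transfer
import Fermat.Agent.BadRed.Semistable.OldPart
import Fermat.Agent.BadRed.Semistable.TateModel

/-!
# The toric relation on the Tate module of `J₀(p N')`

An operator killing the forms from level `N'` has image killed by both push forwards, so
`t (ρ σ - χ σ) (ρ τ - 1) = 0` on the Tate module.
-/

set_option autoImplicit false

noncomputable section

open Matrix ModularCurve AlgebraicCurve CuspForm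

namespace FermatAgent.BadRed.AtP

open FermatAgent.GalRep FermatAgent.BadRed.Semistable FermatAgent.BadRed.Carayol

local notation "GQ" => AlgebraicClosure ℚ ≃ₐ[ℚ] AlgebraicClosure ℚ
local notation "ℚbar" => AlgebraicClosure ℚ

section General

variable {p : ℕ} [Fact p.Prime] {M N : ℕ} [NeZero M] [NeZero N] {S S' : Set ℕ}
  (D : HeckeTorsionData M p S)

/-- The Hecke operators on the coordinates of the Tate module. -/
def hecT : heckeAlgebra M 2 S →+* Matrix (Fin D.rank) (Fin D.rank) ℤ_[p] :=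
  ((Int.castRingHom ℤ_[p]).mapMatrix).comp D.ι

theorem torPt_smul (n : ℕ) (a : ℤ_[p]) (v : Fin D.rank → ℤ_[p]) :
    torPt D n (a • v) = (PadicInt.toZModPow n a).val • torPt D n v := by
  have : NeZero (p ^ n) := ⟨pow_ne_zero n (Fact.out : p.Prime).ne_zero⟩
  rw [← map_nsmul]
  show ((D.e n).symm (fun i => PadicInt.toZModPow n ((a • v) i)) : JZero M) =
    ((D.e n).symm (fun i => PadicInt.toZModPow n (((PadicInt.toZModPow n a).val • v) i)) : JZero M)
  congr 2
  funext i
  simp [nsmul_eq_mul]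

theorem torPt_mulVec_of_transMat (D' : HeckeTorsionData N p S') (φ : JZero M →+ JZero N)
    {v : Fin D.rank → ℤ_[p]} (h : transMat D D' φ *ᵥ v = 0) (n : ℕ) : φ (torPt D n v) = 0 :=
  map_torsionPoint D D' φ h n

theorem eq_zero_of_forall_smul_torPt {C : ℕ} (hC : C ≠ 0) {v : Fin D.rank → ℤ_[p]}
    (h : ∀ n, C • torPt D n v = 0) : v = 0 := by
  have h1 : C • v = 0 := torPt_ext D fun n => by rw [map_nsmul, h, map_zero]
  funext i
  have h2 := congrFun h1 i
  rw [Pi.smul_apply, nsmul_eq_mul, Pi.zero_apply] at h2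
  exact (mul_eq_zero.mp h2).resolve_left (Nat.cast_ne_zero.mpr hC)

end General

variable {p N' : ℕ} [Fact p.Prime] [NeZero N'] [NeZero (p * N')] (hco : p.Coprime N') {S : Set ℕ}
  (hS : ∀ r : ℕ, r.Prime → r ∣ p * N' → r ∈ S)

include hS in
/-- Equivariant maps intertwine the Hecke operators with their restriction to level `N'`. -/
theorem transMat_mul_hecMat
    (φ : JZero (p * N') →+ JZero N') (hφ : ∀ (σ : GQ) (x : JZero (p * N')), σ • φ x = φ (σ • x))
    (t : heckeAlgebra (p * N') 2 S) :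
    transMat (modelTorsion (p * N') p S) (modelTorsion N' p S) φ *
        hecT (modelTorsion (p * N') p S) t =
      hecT (modelTorsion N' p S) (oldRes hco hS subset_rfl t) *
        transMat (modelTorsion (p * N') p S) (modelTorsion N' p S) φ := by
  have hS' : ∀ r : ℕ, r.Prime → r ∣ N' → r ∈ S := fun r hr h => hS r hr (dvd_mul_of_dvd_right h p)
  set T₀ := modelTorsion (p * N') p S
  set T₁ := modelTorsion N' p S
  set P := transMat T₀ T₁ φ
  obtain ⟨t, ht⟩ := t
  induction ht using Algebra.adjoin_induction with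
  | mem x hx =>
    rcases hx with ⟨l, hl, hlM, hlS, rfl⟩ | ⟨r, hrM, hr, hrS, -⟩
    · have hlN : ¬ l ∣ N' := fun e => hlM (dvd_mul_of_dvd_right e p)
      have hlp : l ≠ p := fun e => hlS (e ▸ hS p Fact.out (dvd_mul_right p N'))
      obtain ⟨A, τ, hA, hτ⟩ := RT.exists_place_isFrobeniusAt hl
      show P * hecT T₀ (heckeAlgebra.T hl hlM hlS) =
        hecT T₁ (oldRes hco hS subset_rfl (heckeAlgebra.T hl hlM hlS)) * P
      rw [oldRes_T hco hS subset_rfl hl hlM hlS hlN hlS]
      exact transMat_mul_hecke T₀ T₁ φ hφ hl hlM hlS hlN hlS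
        ((modelTate (p * N') p hS).quad l hl hlM hlS hlp A hA τ hτ)
        ((modelTate N' p hS').quad l hl hlN hlS hlp A hA τ hτ)
    · exact absurd (hS r hr hrM) hrS
  | algebraMap c =>
    show P * hecT T₀ (algebraMap ℤ _ c) =
      hecT T₁ (oldRes hco hS subset_rfl (algebraMap ℤ _ c)) * P
    rw [eq_intCast, map_intCast, map_intCast, map_intCast, ← zsmul_one, ← zsmul_one,
      Matrix.mul_smul, Matrix.smul_mul, Matrix.mul_one, Matrix.one_mul]
  | add a b ha hb iha ihb =>
    show P * hecT T₀ (⟨a, ha⟩ + ⟨b, hb⟩) =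
      hecT T₁ (oldRes hco hS subset_rfl (⟨a, ha⟩ + ⟨b, hb⟩)) * P
    rw [map_add, map_add, map_add, Matrix.mul_add, Matrix.add_mul, iha, ihb]
  | mul a b ha hb iha ihb =>
    show P * hecT T₀ (⟨a, ha⟩ * ⟨b, hb⟩) =
      hecT T₁ (oldRes hco hS subset_rfl (⟨a, ha⟩ * ⟨b, hb⟩)) * P
    rw [map_mul, map_mul, map_mul, ← Matrix.mul_assoc, iha, Matrix.mul_assoc, ihb,
      ← Matrix.mul_assoc]

/-- `(σ - χ σ) (τ - 1)` is killed, up to a bounded integer, on the `p`-power torsion of `J₀(p N')`
killed by both push forwards. -/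
def ToricKill (σ τ : GQ) : Prop :=
  ∃ C : ℕ, C ≠ 0 ∧ ∀ (m w : ℕ) (x : JZero (p * N')),
    (∀ ζ : ℚbar, ζ ^ p ^ m = 1 → σ ζ = ζ ^ w) → p ^ m • x = 0 → pushOne p N' x = 0 →
      pushTwo hco x = 0 → C • (σ • (τ • x - x) - w • (τ • x - x)) = 0

include hco hS in
/-- The same, in terms of the torsion data. -/
theorem hecT_of_kill {σ τ : GQ} (hkill : ToricKill hco σ τ) {t : heckeAlgebra (p * N') 2 S}
    (ht : oldRes hco hS subset_rfl t = 0) :
    ((tateHom (modelTorsion (p * N') p S) σ - cycChar p σ • 1) *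
      (tateHom (modelTorsion (p * N') p S) τ - 1)) * hecT (modelTorsion (p * N') p S) t = 0 := by
  set T₀ := modelTorsion (p * N') p S
  set T₁ := modelTorsion N' p S
  obtain ⟨C, hC, hkill⟩ := hkill
  refine Matrix.ext_of_mulVec_single fun i => ?_
  rw [← Matrix.mulVec_mulVec, Matrix.zero_mulVec]
  set w := hecT T₀ t *ᵥ Pi.single i 1 with hw
  have hpush : ∀ φ : JZero (p * N') →+ JZero N',
      (∀ (g : GQ) (x : JZero (p * N')), g • φ x = φ (g • x)) → ∀ n, φ (torPt T₀ n w) = 0 :=
    fun φ hφ n => torPt_mulVec_of_transMat T₀ T₁ φ (by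
      rw [hw, Matrix.mulVec_mulVec, transMat_mul_hecMat hco hS φ hφ t, ht, map_zero, Matrix.zero_mul,
        Matrix.zero_mulVec]) n
  refine eq_zero_of_forall_smul_torPt T₀ hC fun n => ?_
  rw [← Matrix.mulVec_mulVec, Matrix.sub_mulVec, Matrix.smul_mulVec, Matrix.one_mulVec,
    Matrix.sub_mulVec, Matrix.one_mulVec, map_sub, torPt_smul, torPt_mulVec, map_sub, torPt_mulVec]
  exact hkill n _ (torPt T₀ n w) (fun ζ hζ => cycChar_spec p σ n hζ) (torPt_mem T₀ n w)
    (hpush _ galois_smul_pushOne n) (hpush _ (galois_smul_pushTwo hco) n)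

include hco in
/-- The relation of a pair on the part killing the forms from level `N'`. -/
theorem hecMat_of_kill {σ τ : GQ} (hkill : ToricKill hco σ τ) {t : heckeAlgebra (p * N') 2 S}
    (ht : oldRes hco hS subset_rfl t = 0) :
    hecMat (modelTate (p * N') p hS) t * (((modelTate (p * N') p hS).ρ σ - cycChar p σ • 1) *
      ((modelTate (p * N') p hS).ρ τ - 1)) = 0 := by
  set D := modelTate (p * N') p hS
  have hc : Commute (hecMat D t) ((D.ρ σ - cycChar p σ • 1) * (D.ρ τ - 1)) :=
    ((D.comm σ t).symm.sub_right ((Commute.one_right _).smul_right _)).mul_right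
      ((D.comm τ t).symm.sub_right (Commute.one_right _))
  rw [hc.eq]
  exact hecT_of_kill hco hS hkill ht

include hco in
/-- **The toric relation on the part killing the forms from level `N'`.** -/
theorem hecMat_toric (hT : TorsionToric p N' hco) {A : ValuationSubring ℚbar}
    (hA : A.LiesOverPrime p) {σ τ : GQ} (hσ : σ ∈ A.inertiaSubgroupIn ℚ)
    (hτ : τ ∈ A.inertiaSubgroupIn ℚ) {t : heckeAlgebra (p * N') 2 S}
    (ht : oldRes hco hS subset_rfl t = 0) :
    hecMat (modelTate (p * N') p hS) t * (((modelTate (p * N') p hS).ρ σ - cycChar p σ • 1) *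
      ((modelTate (p * N') p hS).ρ τ - 1)) = 0 :=
  hecMat_of_kill hco hS (hT A hA σ hσ τ hτ) ht

end FermatAgent.BadRed.AtP
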