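import Fermat.Agent.BadRed.AtP.TorsionMain
import Fermat.Agent.BadRed.AtP.Ordinary
import Fermat.Agent.BadRed.Semistable.Endgame
import Fermat.Agent.Conductor.Embedding
import Fermat.Agent.Conductor.Residual
import Fermat.Agent.Conductor.Compare
import Fermat.Agent.Descent3.ToricInterface
import Fermat.Agent.GalRep.Construct.Main

/-!
# Eigenforms new at `p`, `p` exactly dividing the level, are residually ordinary at `p`

An operator killing the forms of level `N` acts nontrivially on the eigenform, so in characteristic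
zero inertia satisfies `(σ - χ σ) (τ - 1) = 0`. Reduce modulo the prime cut out by the residual
character; the kernel of `σ - χ σ` is the line.
-/

set_option autoImplicit false
set_option linter.style.haveILetI false
set_option maxHeartbeats 1600000

noncomputable section

open CuspForm IsLocalRing Polynomial
open scoped TensorProduct

namespace FermatAgent.BadRed.AtP

open FermatAgent.GalRep FermatAgent.LocalP.UnitRoot FermatAgent.BadRed.Semistable

local notation "GQ" => AlgebraicClosure ℚ ≃ₐ[ℚ] AlgebraicClosure ℚ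
local notation "ℚbar" => AlgebraicClosure ℚ

/-- The completion of a number field at a given prime over `p`. -/
theorem exists_completion_over (K : Type) [Field K] [NumberField K] (p : ℕ) [Fact p.Prime]
    (v : Ideal (NumberField.RingOfIntegers K)) [v.IsMaximal]
    (hmem : (p : NumberField.RingOfIntegers K) ∈ v) :
    ∃ (O : Type) (_ : CommRing O) (_ : IsDomain O) (_ : IsDiscreteValuationRing O)
      (_ : IsAdicComplete (maximalIdeal O) O) (_ : Finite (ResidueField O))
      (_ : CharZero O), (p : O) ∈ maximalIdeal O ∧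
      ∃ ι : NumberField.RingOfIntegers K →+* O, Function.Injective ι ∧
        (maximalIdeal O).comap ι = v := by
  have hv0 : v ≠ ⊥ := by
    intro h
    rw [h, Ideal.mem_bot] at hmem
    exact (Fact.out : p.Prime).ne_zero (by exact_mod_cast hmem)
  let A := Localization.AtPrime v
  have : IsDiscreteValuationRing A :=
    IsLocalization.AtPrime.isDiscreteValuationRing_of_dedekind_domain _ hv0 A
  let B := AdicCompletion (maximalIdeal A) A
  obtain ⟨ϖ, hϖ⟩ := IsDiscreteValuationRing.exists_irreducible A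
  have hA : IsHausdorff (maximalIdeal A) A :=
    IsHausdorff.of_le_jacobson _ _ (by rw [IsLocalRing.jacobson_eq_maximalIdeal ⊥ bot_ne_top])
  have hinj : Function.Injective (algebraMap A B) := fun a b h =>
    AdicCompletion.of_injective (maximalIdeal A) A (by
      simpa [B, AdicCompletion.algebraMap_apply] using h)
  have hspan : maximalIdeal B = Ideal.span {algebraMap A B ϖ} := by
    rw [AdicCompletion.maximalIdeal_eq_map, ← Set.image_singleton, ← Ideal.map_span]
    exact congrArg (Ideal.map _) hϖ.maximalIdeal_eq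
  obtain ⟨hdom, hdvr⟩ := Conductor.isDomain_and_dvr_of_maximalIdeal_eq_span hspan fun n h => by
    rw [← map_pow, ← map_zero (algebraMap A B)] at h
    exact pow_ne_zero n hϖ.ne_zero (hinj h)
  have hfinA : Finite (ResidueField A) := by
    have : Finite (NumberField.RingOfIntegers K ⧸ v) := Ideal.finiteQuotientOfFreeOfNeBot v hv0
    exact Finite.of_equiv _ (IsLocalization.AtPrime.equivQuotMaximalIdeal v A).toEquiv
  have hfinB : Finite (ResidueField B) :=
    Finite.of_surjective _ (AdicCompletion.residueField_map_bijective A).2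
  set ι : NumberField.RingOfIntegers K →+* B :=
    (algebraMap A B).comp (algebraMap (NumberField.RingOfIntegers K) A) with hι
  have hinjι : Function.Injective ι :=
    hinj.comp (IsLocalization.injective A v.primeCompl_le_nonZeroDivisors)
  have hle : v ≤ (maximalIdeal B).comap ι := fun x hx => by
    have h2 : algebraMap (NumberField.RingOfIntegers K) A x ∈ maximalIdeal A := by
      rw [← Localization.AtPrime.map_eq_maximalIdeal]
      exact Ideal.mem_map_of_mem _ hx
    rw [Ideal.mem_comap, AdicCompletion.maximalIdeal_eq_map]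
    exact Ideal.mem_map_of_mem _ h2
  refine ⟨B, inferInstance, hdom, hdvr, inferInstance, hfinB,
    charZero_of_injective_ringHom hinjι, ?_, ι, hinjι,
    (Ideal.IsMaximal.eq_of_le ‹v.IsMaximal› (Ideal.comap_ne_top ι (maximalIdeal.isMaximal B).ne_top)
      hle).symm⟩
  simpa using Ideal.mem_comap.mp (hle hmem)

/-- A domain finite over `ℤ` embeds in a complete discrete valuation ring lying over a given
maximal ideal containing `p`. -/
theorem exists_embedding_over_aux (R : Type) [CommRing R] [IsDomain R] [CharZero R]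
    [Module.Finite ℤ R] (K : Type) [Field K] [Algebra R K] [IsFractionRing R K] (p : ℕ)
    [Fact p.Prime] (P : Ideal R) [P.IsMaximal] (hp : (p : R) ∈ P) :
    ∃ (O : Type) (_ : CommRing O) (_ : IsDomain O) (_ : IsDiscreteValuationRing O)
      (_ : IsAdicComplete (maximalIdeal O) O) (_ : Finite (ResidueField O))
      (_ : CharZero O), (p : O) ∈ maximalIdeal O ∧
      ∃ ι : R →+* O, Function.Injective ι ∧ (maximalIdeal O).comap ι = P := by
  have : CharZero K :=
    charZero_of_injective_ringHom (f := algebraMap R K) (IsFractionRing.injective R K)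
  have hint : ∀ r : R, IsIntegral ℤ (algebraMap R K r) := fun r =>
    (IsIntegral.of_finite ℤ r).map (algebraMap R K).toIntAlgHom
  obtain ⟨s, hs⟩ := Module.Finite.fg_top (R := ℤ) (M := R)
  let E := IntermediateField.adjoin ℚ (algebraMap R K '' (s : Set R))
  have : FiniteDimensional ℚ E :=
    IntermediateField.finiteDimensional_adjoin fun x hx => by
      obtain ⟨r, -, rfl⟩ := hx
      exact (hint r).tower_top
  have hE : ∀ r : R, algebraMap R K r ∈ E := by
    intro r
    have hr : r ∈ Submodule.span ℤ (s : Set R) := hs ▸ Submodule.mem_top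
    induction hr using Submodule.span_induction with
    | mem x hx => exact IntermediateField.subset_adjoin _ _ ⟨x, hx, rfl⟩
    | zero => rw [map_zero]; exact zero_mem E
    | add x y _ _ hx hy => rw [map_add]; exact add_mem hx hy
    | smul c x _ hx => rw [map_zsmul]; exact zsmul_mem hx c
  have hEtop : E = ⊤ := by
    refine eq_top_iff.2 fun z _ => ?_
    obtain ⟨a, b, -, rfl⟩ := IsFractionRing.div_surjective (A := R) z
    exact div_mem (hE a) (hE b)
  have : FiniteDimensional ℚ K :=
    LinearEquiv.finiteDimensional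
      ((IntermediateField.equivOfEq hEtop).trans IntermediateField.topEquiv).toLinearEquiv
  have : NumberField K := ⟨⟩
  let f : R →+* NumberField.RingOfIntegers K :=
    { toFun := fun r => ⟨algebraMap R K r, hint r⟩
      map_one' := Subtype.ext (map_one _)
      map_mul' := fun x y => Subtype.ext (map_mul _ x y)
      map_zero' := Subtype.ext (map_zero _)
      map_add' := fun x y => Subtype.ext (map_add _ x y) }
  have hf : Function.Injective f := fun x y hxy =>
    IsFractionRing.injective R K (congrArg Subtype.val hxy)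
  let _ : Algebra R (NumberField.RingOfIntegers K) := f.toAlgebra
  have : Algebra.IsIntegral R (NumberField.RingOfIntegers K) :=
    ⟨fun x => (Algebra.IsIntegral.isIntegral (R := ℤ) x).tower_top⟩
  obtain ⟨v, -, hv, hvP⟩ := Ideal.exists_ideal_over_prime_of_isIntegral P
    (⊥ : Ideal (NumberField.RingOfIntegers K))
    (by rw [← RingHom.ker_eq_comap_bot,
      (RingHom.injective_iff_ker_eq_bot (algebraMap R (NumberField.RingOfIntegers K))).mp hf]; exact bot_le)
  have hmem : (p : NumberField.RingOfIntegers K) ∈ v := by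
    rw [← hvP, Ideal.mem_comap, map_natCast] at hp
    exact hp
  have hv0 : v ≠ ⊥ := by
    intro h
    rw [h, Ideal.mem_bot] at hmem
    exact (Fact.out : p.Prime).ne_zero (by exact_mod_cast hmem)
  haveI := hv.isMaximal hv0
  obtain ⟨O, i1, i2, i3, i4, i5, i6, h, ι, hι, hιv⟩ := exists_completion_over K p v hmem
  exact ⟨O, i1, i2, i3, i4, i5, i6, h, ι.comp f, hι.comp hf, by
    rw [← Ideal.comap_comap, hιv]; exact hvP⟩

theorem exists_embedding_over (R : Type) [CommRing R] [IsDomain R] [CharZero R] [Module.Finite ℤ R]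
    (p : ℕ) [Fact p.Prime] (P : Ideal R) [P.IsMaximal] (hp : (p : R) ∈ P) :
    ∃ (O : Type) (_ : CommRing O) (_ : IsDomain O) (_ : IsDiscreteValuationRing O)
      (_ : IsAdicComplete (maximalIdeal O) O) (_ : Finite (ResidueField O))
      (_ : CharZero O), (p : O) ∈ maximalIdeal O ∧
      ∃ ι : R →+* O, Function.Injective ι ∧ (maximalIdeal O).comap ι = P :=
  exists_embedding_over_aux R (FractionRing R) p P hp

/-- Absolute irreducibility descends along the characteristic polynomials. -/
theorem isAbsolutelyIrreducible_descend {k₀ k : Type} [Field k₀] [Field k]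
    (ρ₀ : ResidualGaloisRep k₀) (φ : k₀ →+* k) (ρ : ResidualGaloisRep k)
    (hρ : ρ.IsAbsolutelyIrreducible)
    (h : ∀ σ : GQ, (ρ.ρ σ).charpoly = (ρ₀.ρ σ).charpoly.map φ) :
    ρ₀.IsAbsolutelyIrreducible := by
  classical
  set b₀ := Module.finBasisOfFinrankEq k₀ ρ₀.V ρ₀.finrank_eq
  set b := Module.finBasisOfFinrankEq k ρ.V ρ.finrank_eq
  set a₀ := GalRep.matrixHom b₀ ρ₀.ρ
  set a : GQ →* Matrix (Fin 2) (Fin 2) k := φ.mapMatrix.toMonoidHom.comp a₀
  set c : GQ →* Matrix (Fin 2) (Fin 2) k := GalRep.matrixHom b ρ.ρ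
  have hc : Submodule.span k (Set.range c) = ⊤ := (GalRep.span_range_matrixHom b ρ.ρ).2
    (GalRep.span_range_eq_top_of_isAbsolutelyIrreducible ρ hρ)
  have htr : ∀ g, (c g).trace = (a g).trace := fun g => by
    have hp : (c g).charpoly = (a g).charpoly := by
      show _ = ((a₀ g).map φ).charpoly
      rw [Matrix.charpoly_map]
      simp only [c, a₀, GalRep.matrixHom_apply]
      show ((LinearMap.toMatrix b b) (ρ.ρ g)).charpoly =
        ((LinearMap.toMatrix b₀ b₀) (ρ₀.ρ g)).charpoly.map φ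
      rw [LinearMap.charpoly_toMatrix, LinearMap.charpoly_toMatrix, h g]
    rw [Matrix.trace_eq_neg_charpoly_coeff, Matrix.trace_eq_neg_charpoly_coeff, hp]
  obtain ⟨Q, hQ, hQg⟩ := GalRep.exists_conj_of_trace_eq c a hc htr
  have ha : Submodule.span k (Set.range a) = ⊤ := by
    obtain ⟨Q, rfl⟩ := hQ
    refine eq_top_iff.2 fun M _ => ?_
    have key : ∀ X ∈ Submodule.span k (Set.range c),
        (Q : Matrix (Fin 2) (Fin 2) k) * X * (↑Q⁻¹ : Matrix (Fin 2) (Fin 2) k) ∈
          Submodule.span k (Set.range a) := fun X hX => by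
      induction hX using Submodule.span_induction with
      | mem X hX =>
        obtain ⟨g, rfl⟩ := hX
        rw [hQg g, mul_assoc, Units.mul_inv, mul_one]
        exact Submodule.subset_span ⟨g, rfl⟩
      | zero => simp
      | add X Y _ _ hX hY => rw [mul_add, add_mul]; exact Submodule.add_mem _ hX hY
      | smul r X _ hX => rw [mul_smul_comm, smul_mul_assoc]; exact Submodule.smul_mem _ r hX
    have := key ((↑Q⁻¹ : Matrix (Fin 2) (Fin 2) k) * M * Q) (hc ▸ Submodule.mem_top)
    simpa [← mul_assoc] using this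
  have ha₀ : Submodule.span k₀ (Set.range a₀) = ⊤ := by
    by_contra hne
    obtain ⟨u, hu0, hu⟩ := Submodule.exists_dual_map_eq_bot_of_lt_top (lt_top_iff_ne_top.mpr hne)
      inferInstance
    let U : Matrix (Fin 2) (Fin 2) k →ₗ[k] k :=
      { toFun := fun M => ∑ i, ∑ j, M i j * φ (u (Matrix.single i j 1))
        map_add' := fun M M' => by simp [add_mul, Finset.sum_add_distrib]
        map_smul' := fun r M => by simp [mul_add, mul_assoc] }
    have hU : ∀ X : Matrix (Fin 2) (Fin 2) k₀, U (X.map φ) = φ (u X) := fun X => by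
      show (∑ i, ∑ j, X.map φ i j * φ (u (Matrix.single i j 1))) = φ (u X)
      conv_rhs => rw [Matrix.matrix_eq_sum_single X]
      simp only [map_sum]
      refine Finset.sum_congr rfl fun i _ => Finset.sum_congr rfl fun j _ => ?_
      rw [show Matrix.single i j (X i j) = X i j • Matrix.single i j (1 : k₀) by simp,
        map_smul, smul_eq_mul, map_mul]
      rfl
    have hzero : U = 0 := LinearMap.ext_on_range ha fun g => by
      show U ((a₀ g).map φ) = 0
      have : u (a₀ g) ∈ (Submodule.span k₀ (Set.range a₀)).map u :=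
        Submodule.mem_map_of_mem (Submodule.subset_span ⟨g, rfl⟩)
      rw [hu, Submodule.mem_bot] at this
      rw [hU, this, map_zero]
    refine hu0 (LinearMap.ext fun X => φ.injective ?_)
    rw [← hU, hzero, LinearMap.zero_apply, LinearMap.zero_apply, map_zero]
  refine Conductor.isIrreducible_of_span_eq_top _
    ((GalRep.span_range_matrixHom (b₀.baseChange (AlgebraicClosure k₀)) _).1 ?_)
  rw [← Conductor.span_range_map_eq_top (algebraMap k₀ (AlgebraicClosure k₀)) a₀ ha₀]
  congr 2
  funext g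
  exact GalRep.matrixHom_baseChange b₀ ρ₀.ρ _ (fun _ => rfl) g

/-- The relation `(ρ σ - n) (ρ τ - 1) = 0`, pointwise. -/
def InertiaRel {k : Type} [Field k] (ρ : ResidualGaloisRep k) (n : ℕ) (σ τ : GQ) : Prop :=
  ∀ x : ρ.V, ρ.ρ σ (ρ.ρ τ x - x) = (n : k) • (ρ.ρ τ x - x)

theorem InertiaRel.baseChangeAlong {k k' : Type} [Field k] [Field k'] (φ : k →+* k')
    {ρ : ResidualGaloisRep k} {n : ℕ} {σ τ : GQ} (h : InertiaRel ρ n σ τ) :
    InertiaRel (ρ.baseChangeAlong φ) n σ τ := by
  let _ : Algebra k k' := φ.toAlgebra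
  show ∀ x : k' ⊗[k] ρ.V, (ρ.ρ σ).baseChange k' ((ρ.ρ τ).baseChange k' x - x) =
    (n : k') • ((ρ.ρ τ).baseChange k' x - x)
  intro x
  induction x using TensorProduct.induction_on with
  | zero => simp
  | tmul a v =>
    simp only [LinearMap.baseChange_tmul, ← TensorProduct.tmul_sub, h v]
    rw [Nat.cast_smul_eq_nsmul, Nat.cast_smul_eq_nsmul, TensorProduct.tmul_smul]
  | add x y hx hy =>
    rw [map_add, add_sub_add_comm, map_add, hx, hy, smul_add]

theorem InertiaRel.of_baseChangeAlong {k k' : Type} [Field k] [Field k'] (φ : k →+* k')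
    {ρ : ResidualGaloisRep k} {n : ℕ} {σ τ : GQ}
    (h : InertiaRel (ρ.baseChangeAlong φ) n σ τ) : InertiaRel ρ n σ τ := by
  let _ : Algebra k k' := φ.toAlgebra
  intro v
  have h1 := h ((1 : k') ⊗ₜ[k] v)
  change (ρ.ρ σ).baseChange k' ((ρ.ρ τ).baseChange k' ((1 : k') ⊗ₜ[k] v) - (1 : k') ⊗ₜ[k] v) =
    (n : k') • ((ρ.ρ τ).baseChange k' ((1 : k') ⊗ₜ[k] v) - (1 : k') ⊗ₜ[k] v) at h1
  simp only [LinearMap.baseChange_tmul, ← TensorProduct.tmul_sub] at h1
  rw [Nat.cast_smul_eq_nsmul, ← TensorProduct.tmul_smul, ← Nat.cast_smul_eq_nsmul k] at h1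
  exact Module.FaithfullyFlat.tensorProduct_mk_injective (B := k') ρ.V h1

theorem InertiaRel.of_equiv {k : Type} [Field k] {ρ₁ ρ₂ : ResidualGaloisRep k}
    (e : ρ₁.Equiv ρ₂) {n : ℕ} {σ τ : GQ} (h : InertiaRel ρ₁ n σ τ) : InertiaRel ρ₂ n σ τ := by
  intro y
  obtain ⟨x, rfl⟩ := e.toLinearEquiv.surjective y
  rw [← e.map_apply, ← map_sub, ← e.map_apply, h x, map_smul]

variable {p N : ℕ} [Fact p.Prime] [NeZero N] [NeZero (p * N)]

/-- A character of an eigenform not occurring at level `N` is nonzero on an operator killing the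
forms of level `N`. -/
theorem exists_mem_ker_oldRes_of_new (hco : p.Coprime N)
    {g : CuspForm (CongruenceSubgroup.Gamma0 (p * N)) 2} (hg : g.IsNormalizedEigenform)
    (hnew : ¬ GoodEigensystemOccursAt g N) {S : Finset ℕ}
    (chig : heckeAlgebra (p * N) 2 (↑S : Set ℕ) →+* ℂ)
    (hchig : ∀ (ℓ : ℕ) (hℓ : ℓ.Prime) (hℓM : ¬ ℓ ∣ p * N) (hℓS : ℓ ∉ (↑S : Set ℕ)),
      chig (heckeAlgebra.T hℓ hℓM hℓS) = ModularFormClass.qCoeff g ℓ)
    (hS : ∀ r : ℕ, r.Prime → r ∣ p * N → r ∈ (↑S : Set ℕ)) :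
    ∃ t, oldRes hco hS subset_rfl t = 0 ∧ chig t ≠ 0 := by
  by_contra hcon
  push Not at hcon
  set f := oldRes hco hS (subset_rfl : (↑S : Set ℕ) ⊆ ↑S)
  have hfin : Module.Finite ℤ (heckeAlgebra N 2 (↑S : Set ℕ)) :=
    DSLift.heckeAlgebra_finite (by norm_num) (ModCurve.Forms.hasIntegralStructure_two N) _
  let χ₀ : f.range →+* ℂ := f.rangeRestrict.liftOfSurjective f.rangeRestrict_surjective
    ⟨chig, fun a ha => RingHom.mem_ker.mpr (hcon a (congrArg Subtype.val (RingHom.mem_ker.mp ha)))⟩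
  obtain ⟨χ', hχ'⟩ := Carayol.exists_ringHom_extend f.range.subtype Subtype.val_injective
    (fun x => Algebra.IsIntegral.isIntegral x) χ₀
  have hcomp : ∀ t, χ' (f t) = chig t := fun t =>
    (RingHom.congr_fun hχ' (f.rangeRestrict t)).trans
      (RingHom.liftOfSurjective_comp_apply _ _ _ t)
  obtain ⟨F, hF, hFT⟩ := Carayol.exists_eigenform_of_character χ'
  refine hnew ⟨F, hF, fun ℓ hℓ hℓM => ?_⟩
  refine Carayol.qCoeff_eq_of_almost hg hF S.finite_toSet (fun l hl hlS hlM hlN => ?_) hℓ hℓM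
    fun h => hℓM (dvd_mul_of_dvd_right h p)
  rw [hFT l hl hlN hlS, ← oldRes_T hco hS subset_rfl hl hlM hlS hlN hlS, hcomp, hchig]

/-- **Eigenforms new at `p` with `p` exactly dividing the level are residually ordinary at `p`.** -/
theorem exists_toric_line (hp2 : p ≠ 2) (hco : p.Coprime N)
    {g : CuspForm (CongruenceSubgroup.Gamma0 (p * N)) 2} (hg : g.IsNormalizedEigenform)
    (hnew : ¬ GoodEigensystemOccursAt g N) {k : Type} [Field k] [CharP k p]
    (φ : integralClosure ℤ ℂ →+* k) (ρ : ResidualGaloisRep k) (hatt : ρ.IsAttachedTo g φ)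
    (hirr : ρ.IsAbsolutelyIrreducible) {A : ValuationSubring ℚbar} (hA : A.LiesOverPrime p) :
    ∃ L : Submodule k ρ.V, L ≠ ⊥ ∧ L ≠ ⊤ ∧
      (∀ σ ∈ A.inertiaSubgroupIn ℚ, ∀ x ∈ L, ρ.ρ σ x ∈ L) ∧
      (∀ σ ∈ A.inertiaSubgroupIn ℚ, ∀ x, ρ.ρ σ x - x ∈ L) := by
  classical
  let S : Finset ℕ := insert p (p * N).primeFactors
  have hS : ∀ r : ℕ, r.Prime → r ∣ p * N → r ∈ (↑S : Set ℕ) := fun r hr h => by
    simp [S, Nat.mem_primeFactors.mpr ⟨hr, h, NeZero.ne (p * N)⟩]
  have hpS : p ∈ S := Finset.mem_insert_self _ _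
  obtain ⟨χ, -, hχ, -⟩ := DSLift.exists_ringHom_of_isNormalizedEigenform hg (↑S : Set ℕ)
  obtain ⟨t, ht, hχt⟩ := exists_mem_ker_oldRes_of_new hco hg hnew χ hχ hS
  have hfinR : Module.Finite ℤ χ.range := Conductor.finite_range_hecke χ
  let incl : χ.range →+* integralClosure ℤ ℂ :=
    χ.range.subtype.codRestrict (integralClosure ℤ ℂ).toSubring fun r =>
      ((IsIntegral.of_finite ℤ r).map χ.range.subtype.toIntAlgHom :)
  let f : χ.range →+* k := φ.comp incl
  let P : Ideal χ.range := RingHom.ker f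
  haveI : Finite f.range := GalRep.range_finite (Fact.out : p.Prime) f
  haveI : Finite (χ.range ⧸ P) :=
    Finite.of_equiv _ (RingHom.quotientKerEquivRange f).symm.toEquiv
  haveI : P.IsPrime := RingHom.ker_isPrime f
  haveI : P.IsMaximal :=
    Ideal.Quotient.maximal_of_isField _ (Finite.isField_of_domain (χ.range ⧸ P))
  have hpP : (p : χ.range) ∈ P := by
    rw [RingHom.mem_ker, map_natCast]
    exact CharP.cast_eq_zero k p
  obtain ⟨O, iO₁, iO₂, iO₃, iO₄, iO₅, iO₆, hpO, ι, hι, hιP⟩ :=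
    exists_embedding_over χ.range p P hpP
  let χO : heckeAlgebra (p * N) 2 (↑S : Set ℕ) →+* O := ι.comp χ.rangeRestrict
  obtain ⟨ρO, hF, -, hdet⟩ :=
    GalRep.exists_galoisRepAdic_of_point p (p * N) S hpS hS O hpO χO
  have hρO : HasFrobCharpolys χO ρO S :=
    fun l hl hlN hlS _ B hB σ hσ => hF l hl hlN hlS B hB σ hσ
  -- the residue fields inside an algebraically closed field
  let k₀ := χ.range ⧸ P
  let _ : Field k₀ := Ideal.Quotient.field P
  let e₁ : k₀ →+* k := Ideal.Quotient.lift P f fun a ha => ha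
  let e₂ : k₀ →+* ResidueField O := Ideal.Quotient.lift P ((residue O).comp ι) fun a ha => by
    rw [← hιP, Ideal.mem_comap] at ha
    rw [RingHom.comp_apply, residue_eq_zero_iff]
    exact ha
  let Ω := AlgebraicClosure k
  let _ : Algebra k₀ Ω := ((algebraMap k Ω).comp e₁).toAlgebra
  let _ : Algebra k₀ (ResidueField O) := e₂.toAlgebra
  haveI : Module.Finite k₀ (ResidueField O) := Module.Finite.of_finite
  let ψ : ResidueField O →ₐ[k₀] Ω := IsAlgClosed.lift
  have hψ : ∀ r : χ.range, ψ (residue O (ι r)) = algebraMap k Ω (f r) := fun r =>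
    ψ.commutes (Ideal.Quotient.mk P r)
  let ρ₁ := ρ.baseChangeAlong (algebraMap k Ω)
  let ρ₂ := ρO.residual.baseChangeAlong ψ.toRingHom
  have hc₁ : ∀ σ, (ρ₁.ρ σ).charpoly = (ρ.ρ σ).charpoly.map (algebraMap k Ω) := fun σ => by
    let _ : Algebra k Ω := (algebraMap k Ω).toAlgebra
    exact LinearMap.charpoly_baseChange (ρ.ρ σ) Ω
  have hc₂ : ∀ σ, (ρ₂.ρ σ).charpoly = (ρO.residual.ρ σ).charpoly.map ψ.toRingHom := fun σ => by
    let _ : Algebra (ResidueField O) Ω := ψ.toRingHom.toAlgebra
    exact LinearMap.charpoly_baseChange (ρO.residual.ρ σ) Ω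
  have hirr₁ : ρ₁.IsAbsolutelyIrreducible :=
    Conductor.isAbsolutelyIrreducible_of_charpoly_map ρ hirr _ ρ₁ hc₁
  have hfrob : ∀ ℓ : ℕ, ℓ.Prime → ℓ ∉ (↑S : Set ℕ) → ∀ B : ValuationSubring ℚbar,
      B.LiesOverPrime ℓ → ∀ τ : GQ, B.IsFrobeniusAt τ ℓ →
        (ρ₁.ρ τ).charpoly = (ρ₂.ρ τ).charpoly := fun ℓ hℓ hℓS B hB τ hτ => by
    have hℓN : ¬ ℓ ∣ p * N := fun h => hℓS (hS ℓ hℓ h)
    have hℓk : (ℓ : k) ≠ 0 := fun h => hℓS (by
      rw [(Nat.prime_dvd_prime_iff_eq Fact.out hℓ).mp ((CharP.cast_eq_zero_iff k p ℓ).mp h)] at hpS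
      exact hpS)
    obtain ⟨a, ha, hcp⟩ := hatt ℓ hℓ hℓN hℓk B hB τ hτ
    rw [show a = incl (χ.rangeRestrict (heckeAlgebra.T hℓ hℓN hℓS)) from
      Subtype.ext (ha.trans (hχ ℓ hℓ hℓN hℓS).symm)] at hcp
    rw [hc₁, hc₂, Conductor.charpoly_residual_eq, hF ℓ hℓ hℓN hℓS B hB τ hτ, hcp]
    simp only [Polynomial.map_add, Polynomial.map_sub, Polynomial.map_pow, Polynomial.map_mul,
      Polynomial.map_X, Polynomial.map_C, map_natCast, Polynomial.map_natCast]
    rw [show ψ.toRingHom (residue O (χO (heckeAlgebra.T hℓ hℓN hℓS))) = _ from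
      hψ (χ.rangeRestrict (heckeAlgebra.T hℓ hℓN hℓS))]
    rfl
  have hcp : ∀ σ, (ρ₁.ρ σ).charpoly = (ρ₂.ρ σ).charpoly :=
    GalRep.residual_charpoly_eq_of_frobenius ρ₁ ρ₂ S.finite_toSet hfrob
  have hirrO : ρO.residual.IsAbsolutelyIrreducible :=
    isAbsolutelyIrreducible_descend ρO.residual ψ.toRingHom ρ₁ hirr₁
      fun σ => (hcp σ).trans (hc₂ σ)
  obtain ⟨e⟩ := GalRep.residual_isEquiv_of_frobenius ρ₁ ρ₂ hirr₁ S.finite_toSet hfrob
  -- the element of inertia and its character
  obtain ⟨σ₀, hσ₀, hunit⟩ := exists_inertia_cycChar_sub_one (p := p) hp2 hA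
  set n := (cycChar p σ₀).appr 1 with hn
  obtain ⟨w, hw⟩ : (p : ℤ_[p]) ∣ cycChar p σ₀ - (n : ℤ_[p]) := by
    have := PadicInt.appr_spec 1 (cycChar p σ₀)
    rwa [pow_one, Ideal.mem_span_singleton] at this
  have hres : residue O (padicToRing hpO (cycChar p σ₀)) = (n : ResidueField O) := by
    rw [← map_natCast ((residue O).comp (padicToRing hpO)), ← sub_eq_zero,
      ← RingHom.comp_apply, ← map_sub, hw, map_mul, map_natCast,
      show ((p : ResidueField O)) = 0 from by
        rw [← map_natCast (residue O), residue_eq_zero_iff]; exact hpO, zero_mul]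
  have hn1 : (n : k) ≠ 1 := fun h => by
    have h1 : (p : ℤ) ∣ (n : ℤ) - 1 := by
      rw [← CharP.intCast_eq_zero_iff k p, Int.cast_sub, Int.cast_natCast, h, Int.cast_one, sub_self]
    obtain ⟨m, hm⟩ := h1
    refine PadicInt.prime_p.not_isUnit (isUnit_of_dvd_unit (Dvd.intro (w + (m : ℤ_[p])) ?_) hunit)
    have h2 := congrArg (fun z : ℤ => (z : ℤ_[p])) hm
    push_cast at h2
    linear_combination -hw - h2
  have hdetk : LinearMap.det (ρ.ρ σ₀) = (n : k) := by
    refine (algebraMap k Ω).injective ?_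
    rw [map_natCast, ← Conductor.det_eq_of_charpoly_map ρ.finrank_eq ρ₁.finrank_eq _ (hc₁ σ₀),
      LinearMap.det_eq_sign_charpoly_coeff, ρ₁.finrank_eq, hcp σ₀, hc₂ σ₀,
      Conductor.charpoly_residual_eq, Polynomial.coeff_map, Polynomial.coeff_map,
      ← map_natCast ψ.toRingHom n, ← hres, ← hdet σ₀, LinearMap.det_eq_sign_charpoly_coeff (ρO.ρ σ₀)]
    rw [show ((-1 : O) ^ Module.finrank O ρO.V) = (-1) ^ 2 from congrArg _ ρO.finrank_eq]
    simp only [map_mul, map_pow, map_neg, map_one]
  -- the relation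
  have hrelO : ∀ τ ∈ A.inertiaSubgroupIn ℚ, ∀ x : ρO.V,
      ρO.ρ σ₀ (ρO.ρ τ x - x) = padicToRing hpO (cycChar p σ₀) • (ρO.ρ τ x - x) := by
    intro τ hτ x
    have h := adicCombH_eq_zero (modelTate (p * N) p hS) hpO χO ρO frobDense hρO hirrO
      (Finsupp.single (σ₀ * τ, t) 1 - Finsupp.single (σ₀, t) 1 -
        Finsupp.single (τ, t) (cycChar p σ₀) + Finsupp.single ((1 : GQ), t) (cycChar p σ₀)) (by
      have h0 := hecMat_toric hco hS (torsionToric hp2 hco) hA hσ₀ hτ ht
      simp only [map_add, map_sub, tateCombH, Finsupp.linearCombination_single, one_smul, map_mul,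
        map_one, mul_one]
      rw [← h0]
      simp only [mul_sub, sub_mul, mul_one, one_mul, smul_mul_assoc, mul_smul_comm, ← mul_assoc]
      abel)
    have hne : χO t ≠ 0 := fun h0 => hχt (congrArg Subtype.val
      ((map_eq_zero_iff ι hι).mp (h0 : ι (χ.rangeRestrict t) = 0)))
    have h' := LinearMap.congr_fun h x
    simp only [map_add, map_sub, adicCombH_single, map_one, one_mul, map_mul,
      LinearMap.add_apply, LinearMap.sub_apply, LinearMap.smul_apply, Module.End.mul_apply,
      Module.End.one_apply, LinearMap.zero_apply] at h'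
    rw [map_sub, ← sub_eq_zero]
    refine (smul_eq_zero.mp ?_).resolve_left hne
    rw [← h']
    simp only [smul_sub, smul_smul, mul_comm (χO t)]
    abel
  have hrel : ∀ τ ∈ A.inertiaSubgroupIn ℚ, InertiaRel ρ n σ₀ τ := by
    intro τ hτ
    refine InertiaRel.of_baseChangeAlong (algebraMap k Ω)
      (InertiaRel.of_equiv e.symm (InertiaRel.baseChangeAlong ψ.toRingHom ?_))
    show ∀ x : ResidueField O ⊗[O] ρO.V,
      (ρO.ρ σ₀).baseChange (ResidueField O) ((ρO.ρ τ).baseChange (ResidueField O) x - x) =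
        (n : ResidueField O) • ((ρO.ρ τ).baseChange (ResidueField O) x - x)
    intro x
    induction x using TensorProduct.induction_on with
    | zero => simp
    | tmul a v =>
      simp only [LinearMap.baseChange_tmul, ← TensorProduct.tmul_sub, hrelO τ hτ v]
      rw [← hres, TensorProduct.tmul_smul, TensorProduct.smul_tmul', TensorProduct.smul_tmul',
        Algebra.smul_def, smul_eq_mul, ResidueField.algebraMap_eq]
    | add x y hx hy =>
      rw [map_add, add_sub_add_comm, map_add, hx, hy, smul_add]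
  -- the line
  let L : Submodule k ρ.V := LinearMap.ker (ρ.ρ σ₀ - (n : k) • 1)
  have hmem : ∀ y : ρ.V, y ∈ L ↔ ρ.ρ σ₀ y = (n : k) • y := fun y => by
    rw [LinearMap.mem_ker, LinearMap.sub_apply, LinearMap.smul_apply, Module.End.one_apply,
      sub_eq_zero]
  have hquot : ∀ σ ∈ A.inertiaSubgroupIn ℚ, ∀ x, ρ.ρ σ x - x ∈ L :=
    fun σ hσ x => (hmem _).mpr (hrel σ hσ x)
  refine ⟨L, ?_, ?_, fun σ hσ x hx => ?_, hquot⟩
  · intro h
    have h1 : ρ.ρ σ₀ = 1 := LinearMap.ext fun x => by
      have := hquot σ₀ hσ₀ x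
      rwa [h, Submodule.mem_bot, sub_eq_zero] at this
    rw [h1, map_one] at hdetk
    exact hn1 hdetk.symm
  · intro h
    have h1 : ρ.ρ σ₀ = (n : k) • 1 := LinearMap.ext fun x =>
      (hmem x).mp (h ▸ Submodule.mem_top)
    have hn0 : (n : k) ≠ 0 := fun h0 => by
      have hu : IsUnit (LinearMap.det (ρ.ρ σ₀)) :=
        ((Group.isUnit σ₀).map ρ.ρ).map LinearMap.det
      rw [hdetk, h0] at hu
      exact not_isUnit_zero hu
    rw [h1, LinearMap.det_smul, map_one, ρ.finrank_eq, mul_one, sq] at hdetk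
    exact hn1 (mul_right_cancel₀ hn0 (hdetk.trans (one_mul _).symm))
  · have := L.add_mem (hquot σ hσ x) hx
    rwa [sub_add_cancel] at this

/-- The input at `p` of the descent. -/
theorem toricLine {p : ℕ} (hp : p.Prime) (hp2 : p ≠ 2) : Descent3.ToricLine p := by
  intro N _ hpN g hg hnew k _ _ φ ρ hatt hirr A hA
  haveI : Fact p.Prime := ⟨hp⟩
  haveI : NeZero (p * N) := ⟨mul_ne_zero hp.ne_zero (NeZero.ne N)⟩
  exact exists_toric_line hp2 (hp.coprime_iff_not_dvd.mpr hpN) hg hnew φ ρ hatt hirr hA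

theorem toricLine_three : Descent3.ToricLine 3 := toricLine Nat.prime_three (by decide)

end FermatAgent.BadRed.AtP
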