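import Fermat.Agent.BadRed.AtP.Classes

/-!
# The toric relation on torsion classes killed by both push forwards
-/

set_option autoImplicit false

noncomputable section

open ModularCurve AlgebraicCurve

namespace FermatAgent.BadRed.AtP

local notation "GQ" => AlgebraicClosure ℚ ≃ₐ[ℚ] AlgebraicClosure ℚ
local notation "ℚbar" => AlgebraicClosure ℚ

/-- At a place over `p` two inertia elements satisfy `(σ - χ σ) (τ - 1) = 0`, up to a bounded
integer, on the `p`-power torsion of `J₀(p N')` killed by both push forwards to level `N'`. -/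
def TorsionToric (p N' : ℕ) [Fact p.Prime] [NeZero N'] [NeZero (p * N')] (hN : p.Coprime N') :
    Prop :=
  ∀ A : ValuationSubring ℚbar, A.LiesOverPrime p → ∀ σ ∈ A.inertiaSubgroupIn ℚ,
    ∀ τ ∈ A.inertiaSubgroupIn ℚ, ∃ C : ℕ, C ≠ 0 ∧ ∀ (m w : ℕ) (x : JZero (p * N')),
      (∀ ζ : ℚbar, ζ ^ p ^ m = 1 → σ ζ = ζ ^ w) → p ^ m • x = 0 → pushOne p N' x = 0 →
        pushTwo hN x = 0 → C • (σ • (τ • x - x) - w • (τ • x - x)) = 0

end FermatAgent.BadRed.AtP
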