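import Fermat.Agent.BadRed.AtP.LevelGeom
import Fermat.Agent.BadRed.AtP.ToricProp

/-!
# The toric relation at `p`

`torsionToric`, `torsionToricFrobSq`: the relation of `LevelMain` at the auxiliary level `4 N'`.
-/

set_option autoImplicit false
set_option linter.style.haveILetI false

noncomputable section

open ModularCurve AlgebraicCurve

namespace FermatAgent.BadRed.AtP

open FermatAgent.BadRed.Carayol FermatAgent.BadRed.Carayol.Instance
open FermatAgent.BadRed.Semistable FermatAgent.MazurPrinciple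

local notation "ℚbar" => AlgebraicClosure ℚ
local notation "GQ" => AlgebraicClosure ℚ ≃ₐ[ℚ] AlgebraicClosure ℚ

attribute [local instance] ModCurveTorsion.isFunctionField1_laurent
attribute [local instance] MazurPrinciple.isAlgClosed_residue

/-- Inertia fixes the nodes. -/
theorem fixesNodes_of_inertia {p : ℕ} [Fact p.Prime] {A : ValuationSubring ℚbar}
    (hA : A.LiesOverPrime p) {M : ℕ} [NeZero M] (hM : p.Coprime M) {σ : GQ}
    (hσ : σ ∈ A.inertiaSubgroupIn ℚ) : FixesNodes hA hM σ := by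
  haveI := isFunctionField1_fib p A hA hM
  haveI := charP_residueField p A hA
  refine ⟨Local.mem_decomposition_of_inertia hσ, fun i => ?_⟩
  have hθ : (decompAut (Local.mem_decomposition_of_inertia hσ)).θ = RingEquiv.refl _ := by
    obtain ⟨⟨σ', hσ'⟩, hker, rfl⟩ := Subgroup.mem_map.mp hσ
    exact MonoidHom.mem_ker.mp hker
  exact ((decompAut (Local.mem_decomposition_of_inertia hσ)).inertSymm hM (placeHom p A hA) hA
    hθ).fix_x i

/-- **The relation for a decomposition element fixing the nodes and an inertia element.** -/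
theorem exists_twisted_kill {p N' : ℕ} [hp : Fact p.Prime] [NeZero N'] [NeZero (p * N')]
    (hp2 : p ≠ 2) (hN : p.Coprime N') {A : ValuationSubring ℚbar} (hA : A.LiesOverPrime p)
    {σ τ : GQ} (hσ : σ ∈ A.decompositionSubgroup ℚ)
    (hfix : ∀ (M : ℕ) [NeZero M] (hM : p.Coprime M), FixesNodes hA hM σ)
    (hτ : τ ∈ A.inertiaSubgroupIn ℚ) :
    ∃ C : ℕ, C ≠ 0 ∧ ∀ (m w : ℕ) (x : JZero (p * N')),
      (∀ ζ : ℚbar, ζ ^ p ^ m = 1 → σ ζ = ζ ^ w) → p ^ m • x = 0 → pushOne p N' x = 0 →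
        pushTwo hN x = 0 → C • (σ • (τ • x - x) - w • (τ • x - x)) = 0 := by
  have hc : coordLevel p = 4 := by rw [coordLevel, if_neg hp2]
  have hM : p.Coprime (N' * coordLevel p) := by
    refine Nat.Coprime.mul_right hN ?_
    rw [hc]
    exact (Nat.coprime_pow_right_iff (n := 2) two_pos p 2).mpr
      ((Nat.coprime_primes hp.out Nat.prime_two).mpr hp2)
  haveI : NeZero (N' * coordLevel p) := ⟨mul_ne_zero (NeZero.ne N') (by rw [hc]; norm_num)⟩
  haveI : NeZero p := ⟨hp.out.ne_zero⟩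
  have hd : N' ∣ N' * coordLevel p := dvd_mul_right _ _
  refine ⟨finrankAlong ℚbar (upLevel (p := p) hd ℚbar), (Curve.finrankAlong_pos _).ne', ?_⟩
  intro m w x hroots hx h₁ h₂
  haveI : NeZero ((p ^ m : ℕ) : ℚbar) := ⟨Nat.cast_ne_zero.mpr (pow_ne_zero m hp.out.ne_zero)⟩
  obtain ⟨ζ, hζ⟩ := HasEnoughRootsOfUnity.exists_primitiveRoot ℚbar (p ^ m)
  have hw : σ ζ = ζ ^ (w % p ^ m) := by
    rw [hroots ζ hζ.pow_eq_one, pow_eq_pow_mod w hζ.pow_eq_one]
  have key := twisted_smul_eq_zero hA hM hN hd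
    (levelGeometry hp2 hA hM (dvd_mul_left _ _)) hζ hx h₁ h₂ (hfix _ hM) hσ hτ
    (Nat.mod_lt _ (pow_pos hp.out.pos m)).le hw
  have hy : w • (τ • x - x) = (w % p ^ m) • (τ • x - x) := by
    refine nsmul_eq_mod_nsmul w ?_
    rw [nsmul_sub, ← galois_smul_nsmul, hx, sub_zero]
    exact map_zero (DistribSMul.toAddMonoidHom (JZero (p * N')) τ)
  rw [hy]
  exact key

theorem torsionToric {p N' : ℕ} [hp : Fact p.Prime] [NeZero N'] [NeZero (p * N')] (hp2 : p ≠ 2)
    (hN : p.Coprime N') : TorsionToric p N' hN := fun _A hA _σ hσ _τ hτ =>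
  exists_twisted_kill hp2 hN hA (Local.mem_decomposition_of_inertia hσ)
    (fun _M _ hM => fixesNodes_of_inertia hA hM hσ) hτ

/-- The relation for the square of a Frobenius element and an inertia element. -/
theorem torsionToricFrobSq {p N' : ℕ} [hp : Fact p.Prime] [NeZero N'] [NeZero (p * N')]
    (hp2 : p ≠ 2) (hN : p.Coprime N') {A : ValuationSubring ℚbar} (hA : A.LiesOverPrime p)
    {σ τ : GQ} (hσ : IsFrobSqAt A p σ) (hτ : τ ∈ A.inertiaSubgroupIn ℚ) :
    ∃ C : ℕ, C ≠ 0 ∧ ∀ (m w : ℕ) (x : JZero (p * N')),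
      (∀ ζ : ℚbar, ζ ^ p ^ m = 1 → σ ζ = ζ ^ w) → p ^ m • x = 0 → pushOne p N' x = 0 →
        pushTwo hN x = 0 → C • (σ • (τ • x - x) - w • (τ • x - x)) = 0 :=
  exists_twisted_kill hp2 hN hA hσ.choose
    (fun _M _ hM => ⟨hσ.choose, decomp_fix_node hσ.choose hA hM hσ⟩) hτ

end FermatAgent.BadRed.AtP
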