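import Fermat.Agent.BadRed.AtP.UpSeries
import Fermat.Agent.BadRed.Semistable.Series
import Mathlib.Algebra.CharP.Lemmas

/-!
# Representatives of products of twists

A representative `y / z` of a series gives one for the series whose `q ↦ q ^ p` is the product of
its twists; congruences to `1` improve when the residue characteristic is `p`.
-/

set_option autoImplicit false
set_option linter.unusedSectionVars false

noncomputable section

open ModularCurve

namespace FermatAgent.BadRed.AtP

open FermatAgent.ES FermatAgent.BadRed.Semistable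

section Ring

variable {R : Type*} [CommRing R] {p : ℕ} [NeZero p]

theorem qShrink_sub (f g : LaurentSeries R) :
    qShrink p (f - g) = qShrink p f - qShrink p g := by
  ext n
  simp only [coeff_qShrink, HahnSeries.coeff_sub]

theorem qTwist_C (u : Rˣ) (a : R) : qTwist u (HahnSeries.C a) = HahnSeries.C a := by
  rw [HahnSeries.C_apply, qTwist_single, zpow_zero, Units.val_one, one_mul]

theorem qTwist_ne_zero (u : Rˣ) {f : LaurentSeries R} (hf : f ≠ 0) : qTwist u f ≠ 0 := fun h =>
  hf (by
    have := congrArg (qTwist u⁻¹) h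
    rwa [qTwist_mul_apply, inv_mul_cancel, qTwist_one_apply, map_zero] at this)

theorem qTwist_pow_eq {u : Rˣ} {f : LaurentSeries R} (h : qTwist u f = f) (b : ℕ) :
    qTwist (u ^ b) f = f := by
  induction b with
  | zero => rw [pow_zero, qTwist_one_apply]
  | succ b ih => rw [pow_succ, ← qTwist_mul_apply, h, ih]

theorem twistProd'_pow_of_fixed {u : Rˣ} {f : LaurentSeries R} (h : qTwist u f = f) :
    twistProd' p u f = f ^ p := by
  simp [twistProd', qTwist_pow_eq h]

/-- Congruent factors give congruent products. -/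
theorem exists_prod_add_mul (s : Finset ℕ) (ε : R) (z a : ℕ → R) :
    ∃ r, ∏ b ∈ s, (z b + ε * a b) = ∏ b ∈ s, z b + ε * r := by
  classical
  induction s using Finset.induction_on with
  | empty => exact ⟨0, by simp⟩
  | insert i s hi ih =>
    obtain ⟨r, hr⟩ := ih
    refine ⟨a i * ∏ b ∈ s, z b + (z i + ε * a i) * r, ?_⟩
    rw [Finset.prod_insert hi, Finset.prod_insert hi, hr]
    ring

end Ring

variable {K : Type*} [Field K] {A : ValuationSubring K} {k : Type*} [Field k] {π : A →+* k}
  {p : ℕ} [hp : Fact p.Prime] {u : Aˣ}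

section Twist

variable [NeZero p] (hu : IsPrimitiveRoot u p)

/-- The root in `K`. -/
abbrev rootK (u : Aˣ) : Kˣ := Units.map A.subtype.toMonoidHom u

theorem rootK_primitive (hu : IsPrimitiveRoot u p) : IsPrimitiveRoot (rootK u) p :=
  hu.map_of_injective (f := Units.map A.subtype.toMonoidHom)
    (Units.map_injective A.subtype_injective)

include hu in
theorem coeffMap_qShrink_twistProd' (f : LaurentSeries A) :
    qExpand k p (coeffMap π (qShrink p (twistProd' p u f))) =
      twistProd' p (Units.map π.toMonoidHom u) (coeffMap π f) := by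
  rw [← coeffMap_qExpand, qExpand_qShrink_twistProd' hu, coeffMap_twistProd']

include hu in
theorem shrink_red_ne_zero {f : LaurentSeries A} (hf : coeffMap π f ≠ 0) :
    coeffMap π (qShrink p (twistProd' p u f)) ≠ 0 := fun h => by
  have := coeffMap_qShrink_twistProd' (π := π) hu f
  rw [h, map_zero] at this
  exact Finset.prod_ne_zero_iff.mpr (fun b _ => qTwist_ne_zero _ hf) this.symm

include hu in
/-- A representative for the shrunk product of twists. -/
theorem twistRep {x n : LaurentSeries K} (hn : qExpand K p n = twistProd' p (rootK u) x)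
    {y z : LaurentSeries A} (h : IsSeriesRep A π x y z) :
    IsSeriesRep A π n (qShrink p (twistProd' p u y)) (qShrink p (twistProd' p u z)) := by
  refine ⟨shrink_red_ne_zero hu h.1, qExpand_injective (R := K) p ?_⟩
  rw [map_mul, hn, ← coeffMap_qExpand, ← coeffMap_qExpand, qExpand_qShrink_twistProd' hu,
    qExpand_qShrink_twistProd' hu, coeffMap_twistProd', coeffMap_twistProd', ← twistProd'_mul, h.2]

theorem isSeriesRep_mul_right {x : LaurentSeries K} {y z c : LaurentSeries A}
    (h : IsSeriesRep A π x y z) (hc : coeffMap π c ≠ 0) : IsSeriesRep A π x (y * c) (z * c) :=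
  ⟨by rw [map_mul]; exact mul_ne_zero h.1 hc, by rw [map_mul, map_mul, ← mul_assoc, h.2]⟩

include hu in
/-- **Improvement of a congruence.** If `x ≡ 1` modulo `ϖ ^ R`, the shrunk product of its twists is
`≡ 1` modulo `ϖ ^ (R + 1)`. -/
theorem twistRep_step {ϖ v : A} (hpϖ : (p : A) = ϖ * v) {R : ℕ} (hR : 1 ≤ R)
    {x n : LaurentSeries K} (hn : qExpand K p n = twistProd' p (rootK u) x)
    {a z : LaurentSeries A} (h : IsSeriesRep A π x (z + HahnSeries.C (ϖ ^ R) * a) z) :
    ∃ a' z', IsSeriesRep A π n (z' + HahnSeries.C (ϖ ^ (R + 1)) * a') z' := by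
  classical
  set Z := twistProd' p u z with hZ
  set c := ∏ b ∈ (Finset.range p).erase 0, qTwist (u ^ b) z with hcdef
  have hzc : z * c = Z := by
    rw [hcdef, hZ, twistProd', ← Finset.mul_prod_erase (Finset.range p)
      (fun b => qTwist (u ^ b) z) (Finset.mem_range.mpr (NeZero.pos p)), pow_zero, qTwist_one_apply]
  have hc : coeffMap π c ≠ 0 := by
    rw [hcdef, map_prod]
    exact Finset.prod_ne_zero_iff.mpr fun b _ => by
      rw [coeffMap_qTwist]; exact qTwist_ne_zero _ h.1
  have hrep := isSeriesRep_mul_right h hc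
  rw [add_mul, hzc, mul_assoc] at hrep
  set a₁ := a * c
  set Y := Z + HahnSeries.C (ϖ ^ R) * a₁ with hY
  have hZfix : qTwist u Z = Z := qTwist_twistProd' hu.pow_eq_one z
  have hYprod : twistProd' p u Y =
      ∏ b ∈ Finset.range p, (Z + HahnSeries.C (ϖ ^ R) * qTwist (u ^ b) a₁) :=
    Finset.prod_congr rfl fun b _ => by rw [hY, map_add, map_mul, qTwist_C, qTwist_pow_eq hZfix]
  obtain ⟨r, hr⟩ := exists_prod_add (Finset.range p) Z (HahnSeries.C (ϖ ^ R))
    (fun b => qTwist (u ^ b) a₁)
  obtain ⟨g, hg⟩ := exists_sum_qTwist hu a₁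
  rw [hg, ← hYprod, Finset.card_range] at hr
  set D := HahnSeries.C v * (Z ^ p * g) + HahnSeries.C (ϖ ^ (R - 1)) * r with hD
  have key : twistProd' p u Y * Z - twistProd' p u Z * Z = HahnSeries.C (ϖ ^ (R + 1)) * D := by
    rw [hr, twistProd'_pow_of_fixed hZfix, hD, mul_add, ← mul_assoc (HahnSeries.C (ϖ ^ (R + 1))),
      ← mul_assoc (HahnSeries.C (ϖ ^ (R + 1))), ← map_mul, ← map_mul, ← pow_add,
      show R + 1 + (R - 1) = R + R by omega, pow_add ϖ R R, map_mul, hpϖ,
      pow_succ ϖ R, map_mul, map_mul, map_mul]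
    ring
  set Z' := qShrink p Z
  have hZ' : coeffMap π Z' ≠ 0 := shrink_red_ne_zero hu h.1
  have hrepN := isSeriesRep_mul_right (twistRep hu hn hrep) hZ'
  refine ⟨qShrink p D, qShrink p (twistProd' p u Z) * Z', ?_⟩
  convert hrepN using 2
  rw [← qShrink_C_mul, ← key, qShrink_sub]
  have e : ∀ w : LaurentSeries A, qShrink p (twistProd' p u w * Z) =
      qShrink p (twistProd' p u w) * Z' := fun w => by
    apply qExpand_injective (R := A) p
    rw [map_mul, qExpand_qShrink_twistProd' hu, qExpand_qShrink_twistProd' hu, qExpand_qShrink]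
    intro n hn'
    exact coeff_eq_zero_of_qTwist_eq hu
      (by rw [map_mul, qTwist_twistProd' hu.pow_eq_one, hZfix]) hn'
  rw [e, e, add_sub_cancel]

include hu in
/-- A representative for `x (q ^ p)` times the shrunk product of twists. -/
theorem heckeRep {x n : LaurentSeries K}
    (hn : qExpand K p n = qExpand K p (qExpand K p x) * twistProd' p (rootK u) x)
    {y z : LaurentSeries A} (h : IsSeriesRep A π x y z) :
    IsSeriesRep A π n (qExpand A p y * qShrink p (twistProd' p u y))
      (qExpand A p z * qShrink p (twistProd' p u z)) := by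
  refine ⟨?_, qExpand_injective (R := K) p ?_⟩
  · rw [map_mul, coeffMap_qExpand]
    exact mul_ne_zero ((map_ne_zero_iff _ (qExpand_injective (R := k) p)).mpr h.1)
      (shrink_red_ne_zero hu h.1)
  · rw [map_mul, hn, map_mul (coeffMap A.subtype), map_mul (coeffMap A.subtype), map_mul, map_mul,
      ← coeffMap_qExpand _ p (qShrink p _), ← coeffMap_qExpand _ p (qShrink p _),
      qExpand_qShrink_twistProd' hu, qExpand_qShrink_twistProd' hu, coeffMap_twistProd',
      coeffMap_twistProd', coeffMap_qExpand, coeffMap_qExpand, mul_mul_mul_comm, ← map_mul,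
      ← map_mul, ← twistProd'_mul, h.2]

include hu in
/-- Congruences to `1` are kept. -/
theorem heckeRep_congr {c : A} {x n : LaurentSeries K}
    (hn : qExpand K p n = qExpand K p (qExpand K p x) * twistProd' p (rootK u) x)
    {a z : LaurentSeries A} (h : IsSeriesRep A π x (z + HahnSeries.C c * a) z) :
    ∃ a' z', IsSeriesRep A π n (z' + HahnSeries.C c * a') z' := by
  have hrep := heckeRep hu hn h
  obtain ⟨r, hr⟩ := exists_prod_add_mul (Finset.range p) (HahnSeries.C c)
    (fun b => qTwist (u ^ b) z) (fun b => qTwist (u ^ b) a)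
  have hY : twistProd' p u (z + HahnSeries.C c * a) = twistProd' p u z + HahnSeries.C c * r := by
    rw [twistProd', twistProd', ← hr]
    exact Finset.prod_congr rfl fun b _ => by rw [map_add, map_mul, qTwist_C]
  have hs : qShrink p (twistProd' p u (z + HahnSeries.C c * a)) =
      qShrink p (twistProd' p u z) + HahnSeries.C c * qShrink p r := by
    rw [← qShrink_C_mul, ← sub_eq_iff_eq_add', ← qShrink_sub, hY, add_sub_cancel_left]
  refine ⟨qExpand A p z * qShrink p r + qExpand A p a * (qShrink p (twistProd' p u z) +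
    HahnSeries.C c * qShrink p r), qExpand A p z * qShrink p (twistProd' p u z), ?_⟩
  convert hrep using 2
  rw [hs, map_add, map_mul, HahnSeries.C_apply, qExpand_single, mul_zero, ← HahnSeries.C_apply]
  ring

end Twist

end FermatAgent.BadRed.AtP
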