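import Fermat.Agent.BadRed.AtP.UpNorm
import Fermat.Agent.BadRed.AtP.UpRep
import Fermat.Agent.BadRed.Semistable.SeriesField
import Fermat.Agent.MazurPrinciple.Contraction

/-!
# `upNorm` as a contraction, norms of Hecke correspondences

For the Gauss valuation of the expansion at a place of residue characteristic `p`, `upNorm`
improves congruences to `1`; the norm of a Hecke correspondence at `ℓ ≠ p` keeps them.
-/

set_option autoImplicit false

noncomputable section

open ModularCurve AlgebraicCurve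

namespace FermatAgent.BadRed.AtP

open FermatAgent.ModFun FermatAgent.ES FermatAgent.BadRed.Semistable FermatAgent.MazurPrinciple

variable {K : Type*} [Field K] [Algebra ℚ K] {A : ValuationSubring K} {k : Type*} [Field k]
  {π : A →+* k}

section Gauss

variable (q : ℕ) [Fact q.Prime] [CharP k q] {L : ℕ} [NeZero L] (hπ : Function.Surjective π)

theorem isUnitAt_iff_rep {x : laurentBaseChange K (modularFunctionFieldFull L)} :
    IsUnitAt (seriesGauss q L hπ) x ↔
      ∃ y z, IsSeriesRep A π (x : LaurentSeries K) y z ∧ coeffMap π y ≠ 0 := by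
  constructor
  · rintro ⟨hx, hr⟩
    obtain ⟨y, z, h⟩ := mem_fieldInt L hx
    obtain ⟨hf, e⟩ := seriesGauss_red_of_rep q hπ h
    exact ⟨y, z, h, fun h0 => hr (e.trans (by rw [h0, zero_div]))⟩
  · rintro ⟨y, z, h, hy⟩
    obtain ⟨hf, e⟩ := seriesGauss_red_of_rep q hπ h
    exact ⟨hf, by rw [e]; exact div_ne_zero hy h.1⟩

theorem coe_smul_eq_C (c : K) (f : laurentBaseChange K (modularFunctionFieldFull L)) :
    ((c • f : laurentBaseChange K (modularFunctionFieldFull L)) : LaurentSeries K) =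
      HahnSeries.C c * (f : LaurentSeries K) := by
  rw [coe_smul_ratSeries, algebraMap_laurentSeries_eq_single, HahnSeries.C_apply]

theorem congMod_one_iff_rep {ϖ : A} (hϖ : (ϖ : K) ≠ 0) (R : ℕ)
    {x : laurentBaseChange K (modularFunctionFieldFull L)} :
    CongMod (seriesGauss q L hπ) ϖ R x 1 ↔
      ∃ a z, IsSeriesRep A π (x : LaurentSeries K) (z + HahnSeries.C (ϖ ^ R) * a) z := by
  constructor
  · rintro ⟨w, hw, e⟩
    obtain ⟨a, z, h⟩ := mem_fieldInt L hw
    refine ⟨a, z, h.1, ?_⟩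
    have e' := congrArg (Subtype.val : _ → LaurentSeries K) (eq_add_of_sub_eq' e)
    rw [e', AddMemClass.coe_add, OneMemClass.coe_one, coe_smul_eq_C, add_mul, one_mul, mul_assoc,
      h.2, map_add, map_mul, coeffMap_const', ValuationSubring.subtype_apply,
      SubmonoidClass.coe_pow]
  · rintro ⟨a, z, h⟩
    refine ⟨((ϖ : K) ^ R)⁻¹ • (x - 1), ⟨a, z, h.1, ?_⟩,
      (smul_inv_smul₀ (pow_ne_zero R hϖ) _).symm⟩
    show ((((ϖ : K) ^ R)⁻¹ • (x - 1) : laurentBaseChange K (modularFunctionFieldFull L)) :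
      LaurentSeries K) * _ = _
    rw [coe_smul_eq_C, AddSubgroupClass.coe_sub, OneMemClass.coe_one, mul_assoc, sub_mul, one_mul,
      h.2, map_add, map_mul, add_sub_cancel_left, coeffMap_const', ← mul_assoc, ← map_mul,
      ValuationSubring.subtype_apply, SubmonoidClass.coe_pow,
      inv_mul_cancel₀ (pow_ne_zero R hϖ), map_one, one_mul]

end Gauss

section Up

variable {p : ℕ} [hp : Fact p.Prime] [CharP k p] {M : ℕ} [NeZero M] [NeZero (p * M)]
  (hco : p.Coprime M) (hπ : Function.Surjective π) {u : Aˣ} (hu : IsPrimitiveRoot u p)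

local notation "Ftop" => laurentBaseChange K (modularFunctionFieldFull (p * M))

include hu in
theorem qExpand_upNorm_rootK (x : Ftop) : qExpand K p (upNorm hco K x : LaurentSeries K) =
    twistProd' p (rootK u) (x : LaurentSeries K) :=
  qExpand_upNorm hco (rootK_primitive hu) x

include hu in
theorem upNorm_isUnitAt {x : Ftop} (hx : IsUnitAt (seriesGauss p (p * M) hπ) x) :
    IsUnitAt (seriesGauss p (p * M) hπ) (upNorm hco K x) := by
  obtain ⟨y, z, h, hy⟩ := (isUnitAt_iff_rep p hπ).mp hx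
  exact (isUnitAt_iff_rep p hπ).mpr ⟨_, _, twistRep hu (qExpand_upNorm_rootK hco hu x) h,
    shrink_red_ne_zero hu hy⟩

include hu in
theorem upNorm_step {ϖ v : A} (hϖ : (ϖ : K) ≠ 0) (hpϖ : (p : A) = ϖ * v) {R : ℕ} (hR : 1 ≤ R)
    {x : Ftop} (hx : CongMod (seriesGauss p (p * M) hπ) ϖ R x 1) :
    CongMod (seriesGauss p (p * M) hπ) ϖ (R + 1) (upNorm hco K x) 1 := by
  obtain ⟨a, z, h⟩ := (congMod_one_iff_rep p hπ hϖ R).mp hx
  exact (congMod_one_iff_rep p hπ hϖ (R + 1)).mpr
    (twistRep_step hu hpϖ hR (qExpand_upNorm_rootK hco hu x) h)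

include hu in
/-- `upNorm` contracts congruences for the valuation of the expansion. -/
def upContract {ϖ v : A} (hϖ : (ϖ : K) ≠ 0) (hpϖ : (p : A) = ϖ * v) (E E₀ : Subfield Ftop)
    (hE : ∀ x ∈ E, upNorm hco K x ∈ E) (hE₀ : ∀ x ∈ E₀, upNorm hco K x ∈ E₀) :
    ContractOp (seriesGauss p (p * M) hπ) E E₀ ϖ p where
  N := upNorm hco K
  mem_E := hE
  mem_E₀ := hE₀
  isUnitAt _ := upNorm_isUnitAt hco hπ hu
  step _ hR _ _ := upNorm_step hco hπ hu hϖ hpϖ hR
  const := upNorm_algebraMap hco (rootK_primitive hu)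

end Up

section Hecke

variable {ℓ : ℕ} [hℓ : Fact ℓ.Prime] {L : ℕ} [NeZero L] [NeZero (ℓ * L)] (hco : ℓ.Coprime L)
variable (K)

local notation "F_L" => laurentBaseChange K (modularFunctionFieldFull L)

/-- The norm of the correspondence `T ℓ` on functions. -/
def heckeNorm : F_L →* F_L where
  toFun x := normAlong (levelIncl ℓ L K) (atkinLehnerBar hco K (levelIncl ℓ L K x))
  map_one' := by
    let := algebraAlong (levelIncl ℓ L K)
    show Algebra.norm F_L (atkinLehnerBar hco K (levelIncl ℓ L K 1)) = 1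
    rw [map_one, map_one, map_one]
  map_mul' x y := by
    let := algebraAlong (levelIncl ℓ L K)
    show Algebra.norm F_L (atkinLehnerBar hco K (levelIncl ℓ L K (x * y))) = _
    rw [map_mul, map_mul, map_mul]
    rfl

theorem heckeNorm_apply (x : F_L) : heckeNorm K hco x =
    normAlong (levelIncl ℓ L K) (atkinLehnerBar hco K (levelIncl ℓ L K x)) := rfl

variable {K}

/-- **The expansion of `heckeNorm`.** -/
theorem qExpand_heckeNorm {ζ : Kˣ} (hζ : IsPrimitiveRoot ζ ℓ) (x : F_L) :
    qExpand K ℓ (heckeNorm K hco x : LaurentSeries K) =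
      qExpand K ℓ (qExpand K ℓ (x : LaurentSeries K)) *
        twistProd' ℓ ζ (x : LaurentSeries K) := by
  rw [heckeNorm_apply, qExpand_normAlong hco hζ, coe_atkinLehnerBar_levelIncl,
    atkinLehnerBar_atkinLehnerBar, coe_levelIncl]
  rfl

theorem heckeNorm_algebraMap {ζ : Kˣ} (hζ : IsPrimitiveRoot ζ ℓ) (c : K) :
    heckeNorm K hco (algebraMap K F_L c) = algebraMap K F_L (c ^ (ℓ + 1)) := by
  refine Subtype.ext (qExpand_injective (R := K) ℓ ?_)
  rw [qExpand_heckeNorm hco hζ, IntermediateField.coe_algebraMap_apply,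
    IntermediateField.coe_algebraMap_apply, algebraMap_laurentSeries_eq_single,
    algebraMap_laurentSeries_eq_single, twistProd']
  simp only [qExpand_single, qTwist_single, mul_zero, zpow_zero, Units.val_one, one_mul]
  rw [Finset.prod_const, Finset.card_range, HahnSeries.single_pow, nsmul_zero,
    HahnSeries.single_mul_single, add_zero, pow_succ']

variable (q : ℕ) [Fact q.Prime] [CharP k q] (hπ : Function.Surjective π) {u : Aˣ}
  (hu : IsPrimitiveRoot u ℓ)

include hu in
theorem heckeNorm_isUnitAt {x : F_L} (hx : IsUnitAt (seriesGauss q L hπ) x) :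
    IsUnitAt (seriesGauss q L hπ) (heckeNorm K hco x) := by
  obtain ⟨y, z, h, hy⟩ := (isUnitAt_iff_rep q hπ).mp hx
  refine (isUnitAt_iff_rep q hπ).mpr
    ⟨_, _, heckeRep hu (qExpand_heckeNorm hco (rootK_primitive hu) x) h, ?_⟩
  rw [map_mul, coeffMap_qExpand]
  exact mul_ne_zero ((map_ne_zero_iff _ (qExpand_injective (R := k) ℓ)).mpr hy)
    (shrink_red_ne_zero hu hy)

include hu in
theorem heckeNorm_congr {ϖ : A} (hϖ : (ϖ : K) ≠ 0) {R : ℕ} {x : F_L}
    (hx : CongMod (seriesGauss q L hπ) ϖ R x 1) :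
    CongMod (seriesGauss q L hπ) ϖ R (heckeNorm K hco x) 1 := by
  obtain ⟨a, z, h⟩ := (congMod_one_iff_rep q hπ hϖ R).mp hx
  exact (congMod_one_iff_rep q hπ hϖ R).mpr
    (heckeRep_congr hu (qExpand_heckeNorm hco (rootK_primitive hu) x) h)

include hu in
/-- `heckeNorm` as an operator preserving congruences. -/
def heckeOp {ϖ : A} (hϖ : (ϖ : K) ≠ 0) (E E₀ : Subfield F_L)
    (hE : ∀ x ∈ E, heckeNorm K hco x ∈ E) (hE₀ : ∀ x ∈ E₀, heckeNorm K hco x ∈ E₀) :
    HeckeOp (seriesGauss q L hπ) E E₀ ϖ (ℓ + 1) where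
  T := heckeNorm K hco
  mem_E := hE
  mem_E₀ := hE₀
  isUnitAt _ := heckeNorm_isUnitAt hco q hπ hu
  congr _ _ _ := heckeNorm_congr hco q hπ hu hϖ
  const := heckeNorm_algebraMap hco (rootK_primitive hu)

end Hecke

end FermatAgent.BadRed.AtP
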