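import Fermat.Agent.BadRed.AtP.UpContract
import Fermat.Agent.MazurPrinciple.FixedFun

/-!
# The operators commute with the Galois action on coefficients
-/

set_option autoImplicit false
set_option linter.unusedSectionVars false

noncomputable section

open ModularCurve AlgebraicCurve

namespace FermatAgent.BadRed.AtP

open FermatAgent.ModFun FermatAgent.ES FermatAgent.MazurPrinciple FermatAgent.ModCurveTorsion

local notation "ℚbar" => AlgebraicClosure ℚ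
local notation "𝐅" N:max => laurentBaseChange ℚbar (modularFunctionFieldFull N)

variable {p : ℕ} [hp : Fact p.Prime] {M : ℕ} [NeZero M] [NeZero (p * M)] (hco : p.Coprime M)

theorem atkinLehnerBar_galN (σ : ℚbar ≃ₐ[ℚ] ℚbar) (x : 𝐅 (p * M)) :
    atkinLehnerBar hco ℚbar (galN (p * M) σ • x) =
      galN (p * M) σ • atkinLehnerBar hco ℚbar x :=
  (atkinLehnerBar_arithmeticRingAut hco ℚbar σ x).symm

theorem levelIncl_galN (σ : ℚbar ≃ₐ[ℚ] ℚbar) (x : 𝐅 M) :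
    levelIncl p M ℚbar (galN M σ • x) = galN (p * M) σ • levelIncl p M ℚbar x := by
  refine Subtype.ext ?_
  rw [coe_levelIncl, coe_galN_smul, coe_galN_smul, coe_levelIncl]

theorem upNorm_galN {ζ : ℚbarˣ} (hζ : IsPrimitiveRoot ζ p) (σ : ℚbar ≃ₐ[ℚ] ℚbar) (x : 𝐅 (p * M)) :
    upNorm hco ℚbar (galN (p * M) σ • x) = galN (p * M) σ • upNorm hco ℚbar x :=
  upNorm_arithmeticRingAut hco hζ σ x

theorem heckeNorm_galN {ℓ : ℕ} [Fact ℓ.Prime] {L : ℕ} [NeZero L] [NeZero (ℓ * L)]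
    (hco : ℓ.Coprime L) {ζ : ℚbarˣ} (hζ : IsPrimitiveRoot ζ ℓ) (σ : ℚbar ≃ₐ[ℚ] ℚbar) (x : 𝐅 L) :
    heckeNorm ℚbar hco (galN L σ • x) = galN L σ • heckeNorm ℚbar hco x := by
  refine Subtype.ext (qExpand_injective (R := ℚbar) ℓ ?_)
  have hζ' : IsPrimitiveRoot (Units.map (σ : ℚbar →+* ℚbar).toMonoidHom ζ) ℓ :=
    hζ.map_of_injective (Units.map_injective σ.injective)
  rw [qExpand_heckeNorm hco hζ', coe_galN_smul, coe_galN_smul,
    ← coeffMap_qExpand _ _ (heckeNorm ℚbar hco x : LaurentSeries ℚbar),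
    qExpand_heckeNorm hco hζ, map_mul, coeffMap_twistProd', coeffMap_qExpand, coeffMap_qExpand]

variable (S : IntermediateField ℚ ℚbar)

theorem atkinLehnerBar_mem_fixedFun {x : 𝐅 (p * M)} (hx : x ∈ fixedFun S (p * M)) :
    atkinLehnerBar hco ℚbar x ∈ fixedFun S (p * M) := fun σ hσ => by
  rw [← atkinLehnerBar_galN, hx σ hσ]

theorem levelIncl_mem_fixedFun {x : 𝐅 M} (hx : x ∈ fixedFun S M) :
    levelIncl p M ℚbar x ∈ fixedFun S (p * M) := fun σ hσ => by rw [← levelIncl_galN, hx σ hσ]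

theorem upNorm_mem_fixedFun {ζ : ℚbarˣ} (hζ : IsPrimitiveRoot ζ p) {x : 𝐅 (p * M)}
    (hx : x ∈ fixedFun S (p * M)) : upNorm hco ℚbar x ∈ fixedFun S (p * M) := fun σ hσ => by
  rw [← upNorm_galN hco hζ, hx σ hσ]

theorem heckeNorm_mem_fixedFun {ℓ : ℕ} [Fact ℓ.Prime] {L : ℕ} [NeZero L] [NeZero (ℓ * L)]
    (hco : ℓ.Coprime L) {ζ : ℚbarˣ} (hζ : IsPrimitiveRoot ζ ℓ) {x : 𝐅 L}
    (hx : x ∈ fixedFun S L) : heckeNorm ℚbar hco x ∈ fixedFun S L := fun σ hσ => by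
  rw [← heckeNorm_galN hco hζ, hx σ hσ]

end FermatAgent.BadRed.AtP
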