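import Fermat.Agent.BadRed.AtP.UpTransfer
import Fermat.Agent.BadRed.AtP.UpGalois
import Fermat.Agent.MazurPrinciple.Level

/-!
# The operators on both components of the nodal datum of `X₀(p N')`
-/

set_option autoImplicit false

noncomputable section

open ModularCurve AlgebraicCurve

namespace FermatAgent.BadRed.AtP

open FermatAgent.ModFun FermatAgent.BadRed.Semistable FermatAgent.MazurPrinciple

local notation "ℚbar" => AlgebraicClosure ℚ
local notation "𝐅" N:max => laurentBaseChange ℚbar (modularFunctionFieldFull N)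

attribute [local instance] ModCurveTorsion.isFunctionField1_laurent
attribute [local instance] MazurPrinciple.isAlgClosed_residue

/-- A valuation ring contains the roots of unity. -/
theorem exists_rootUnit {K : Type*} [Field K] [IsAlgClosed K] [CharZero K] (A : ValuationSubring K)
    (n : ℕ) [NeZero n] : ∃ u : Aˣ, IsPrimitiveRoot u n := by
  obtain ⟨ζ, hζ⟩ := HasEnoughRootsOfUnity.exists_primitiveRoot K n
  have hv : A.valuation ζ = 1 := by
    refine TW.eq_one_of_pow_eq_one (NeZero.ne n) ?_
    rw [← map_pow, hζ.pow_eq_one, map_one]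
  have hmem : ζ ∈ A := (A.valuation_le_one_iff ζ).mp hv.le
  have hu : IsPrimitiveRoot (⟨ζ, hmem⟩ : A) n :=
    IsPrimitiveRoot.of_map_of_injective (f := A.subtype) hζ A.subtype_injective
  obtain ⟨u, hu'⟩ := hu.isUnit (NeZero.ne n)
  exact ⟨u, IsPrimitiveRoot.coe_units_iff.mp (by rw [hu']; exact hu)⟩

variable (p : ℕ) [hp : Fact p.Prime] (A : ValuationSubring ℚbar) (hA : A.LiesOverPrime p)
  {N' : ℕ} [NeZero N'] (hco : p.Coprime N') (S S₀ : IntermediateField ℚ ℚbar) (ϖ v : A)
  (hpϖ : (p : A) = ϖ * v)

include hpϖ in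
theorem ne_zero_of_eq_mul : (ϖ : ℚbar) ≠ 0 := fun h => hp.out.ne_zero (by
  have := congrArg (Subtype.val : A → ℚbar) hpϖ
  rw [MulMemClass.coe_mul, h, zero_mul] at this
  exact_mod_cast this)

include hA in
theorem charP_residueField : CharP (IsLocalRing.ResidueField A) p :=
  charP_residue_place p A hA

/-- `upNorm` on the first component. -/
def levelContract₁ :
    haveI := isFunctionField1_fib p A hA hco
    ContractOp (levelData p A hA hco).g₁ (fixedFun S (p * N')) (fixedFun S₀ (p * N')) ϖ p :=
  haveI := isFunctionField1_fib p A hA hco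
  haveI := charP_residueField p A hA
  haveI : NeZero p := ⟨hp.out.ne_zero⟩
  have hu := (exists_rootUnit A p).choose_spec
  codContract
    (upContract hco (placeHom p A hA).surjective hu (ne_zero_of_eq_mul p A ϖ v hpϖ) hpϖ
      (fixedFun S (p * N')) (fixedFun S₀ (p * N'))
      (fun _ => upNorm_mem_fixedFun hco S (rootK_primitive hu))
      (fun _ => upNorm_mem_fixedFun hco S₀ (rootK_primitive hu))) _ _

/-- The conjugate on the second component. -/
def levelContract₂ :
    haveI := isFunctionField1_fib p A hA hco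
    ContractOp (levelData p A hA hco).g₂ (fixedFun S (p * N')) (fixedFun S₀ (p * N')) ϖ p :=
  haveI := isFunctionField1_fib p A hA hco
  twistContract (atkinLehnerBar hco ℚbar) (atkinLehnerBar_atkinLehnerBar hco ℚbar)
    (fun _ => atkinLehnerBar_mem_fixedFun hco S) (fun _ => atkinLehnerBar_mem_fixedFun hco S₀)
    (levelContract₁ p A hA hco S S₀ ϖ v hpϖ)

theorem levelContract₁_N :
    haveI := isFunctionField1_fib p A hA hco
    (levelContract₁ p A hA hco S S₀ ϖ v hpϖ).N = upNorm hco ℚbar := rfl

theorem levelContract₂_N :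
    haveI := isFunctionField1_fib p A hA hco
    (levelContract₂ p A hA hco S S₀ ϖ v hpϖ).N =
      conjHom (atkinLehnerBar hco ℚbar) (upNorm hco ℚbar) := rfl

variable {ℓ : ℕ} [hℓ : Fact ℓ.Prime] [NeZero (ℓ * (p * N'))] (hℓco : ℓ.Coprime (p * N'))

/-- The norm of `T ℓ` on the first component. -/
def levelHecke₁ :
    haveI := isFunctionField1_fib p A hA hco
    HeckeOp (levelData p A hA hco).g₁ (fixedFun S (p * N')) (fixedFun S₀ (p * N')) ϖ (ℓ + 1) :=
  haveI := isFunctionField1_fib p A hA hco
  haveI := charP_residueField p A hA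
  haveI : NeZero ℓ := ⟨hℓ.out.ne_zero⟩
  have hu := (exists_rootUnit A ℓ).choose_spec
  codHecke
    (heckeOp hℓco p (placeHom p A hA).surjective hu (ne_zero_of_eq_mul p A ϖ v hpϖ)
      (fixedFun S (p * N')) (fixedFun S₀ (p * N'))
      (fun _ => heckeNorm_mem_fixedFun S hℓco (rootK_primitive hu))
      (fun _ => heckeNorm_mem_fixedFun S₀ hℓco (rootK_primitive hu))) _ _

/-- Its conjugate on the second component. -/
def levelHecke₂ :
    haveI := isFunctionField1_fib p A hA hco
    HeckeOp (levelData p A hA hco).g₂ (fixedFun S (p * N')) (fixedFun S₀ (p * N')) ϖ (ℓ + 1) :=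
  haveI := isFunctionField1_fib p A hA hco
  twistHecke (atkinLehnerBar hco ℚbar) (atkinLehnerBar_atkinLehnerBar hco ℚbar)
    (fun _ => atkinLehnerBar_mem_fixedFun hco S) (fun _ => atkinLehnerBar_mem_fixedFun hco S₀)
    (levelHecke₁ p A hA hco S S₀ ϖ v hpϖ hℓco)

end FermatAgent.BadRed.AtP
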