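import Fermat.Agent.ES.NormProd
import Fermat.Agent.ES.Hecke
import Fermat.Agent.ES.Twist
import Fermat.Agent.ModCurve.Fun.AtkinLehner
import Fermat.Agent.ModCurve.Fun.Psi
import Fermat.Agent.ModCurve.Torsion.DegreeRatio
import Fermat.Prelude.Thm_ModularCurve_coeffMap_qExpand

/-!
# The norm operator `U` on functions of level `p M`

`upNorm x = Nm (w x) / (w x)` for the norm down to level `M` and the involution `w` at `p`. Its
expansion is `∏_{ζ ^ p = 1} x (ζ q ^ (1 / p))`.
-/

set_option autoImplicit false
set_option linter.unusedSectionVars false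
set_option linter.style.haveILetI false

noncomputable section

open IntermediateField ModularCurve AlgebraicCurve

namespace FermatAgent.BadRed.AtP

open FermatAgent.ModFun FermatAgent.ES

variable {p : ℕ} [hp : Fact p.Prime] {M : ℕ} [NeZero M] [NeZero (p * M)] (hco : p.Coprime M)
variable (K : Type*) [Field K] [Algebra ℚ K]

local notation "Fbot" => laurentBaseChange K (modularFunctionFieldFull M)
local notation "Ftop" => laurentBaseChange K (modularFunctionFieldFull (p * M))

theorem laurentBaseChange_le {F₀ F₁ : IntermediateField ℚ (LaurentSeries ℚ)} (h : F₀ ≤ F₁) :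
    laurentBaseChange K F₀ ≤ laurentBaseChange K F₁ := by
  rw [laurentBaseChange, IntermediateField.adjoin_le_iff]
  rintro _ ⟨y, hy, rfl⟩
  exact coeffEmb_mem_laurentBaseChange K (h hy)

variable (p M) in
/-- The first degeneracy map on function fields. -/
def levelIncl : Fbot →ₐ[K] Ftop :=
  IntermediateField.inclusion
    (laurentBaseChange_le K (full_degeneracy_le (dvd_mul_left M p)))

theorem coe_levelIncl (x : Fbot) : (levelIncl p M K x : LaurentSeries K) = (x : LaurentSeries K) :=
  IntermediateField.coe_inclusion _ x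

theorem levelIncl_jBar : levelIncl p M K (jBar K M) = jBar K (p * M) :=
  Subtype.ext (coe_levelIncl K _)

include hco in
theorem finrankAlong_levelIncl : finrankAlong K (levelIncl p M K) = p + 1 := by
  have h := ModCurveTorsion.finrankAlong_mul_finrank (levelIncl p M K) (jBar K M)
  have hψ : dedekindPsi (p * M) = dedekindPsi M * (p + 1) := by
    rw [mul_comm p M, ModCurveTorsion.dedekindPsi_mul_of_not_dvd (NeZero.ne M) hp.out
      ((hp.out.coprime_iff_not_dvd).mp hco), mul_comm]
  rw [levelIncl_jBar, finrank_adjoin_jBar_eq_dedekindPsi, finrank_adjoin_jBar_eq_dedekindPsi,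
    hψ] at h
  exact Nat.eq_of_mul_eq_mul_left (ModCurveTorsion.dedekindPsi_pos (NeZero.ne M)) h

include hco in
theorem finiteAlong_levelIncl : FiniteAlong K (levelIncl p M K) := by
  have h := finrankAlong_levelIncl hco K
  let := algebraAlong (levelIncl p M K)
  exact Module.finite_of_finrank_pos
    (show 0 < finrankAlong K (levelIncl p M K) by rw [h]; omega)

/-- On functions of level `M` the involution is `q ↦ q ^ p`. -/
theorem coe_atkinLehner_of_full (y : modularFunctionFieldFull M) :
    (atkinLehner hco ⟨(y : LaurentSeries ℚ), full_degeneracy_le (dvd_mul_left M p) y.2⟩ :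
      LaurentSeries ℚ) = qExpand ℚ p (y : LaurentSeries ℚ) := by
  suffices ∀ (x : LaurentSeries ℚ), x ∈ IntermediateField.adjoin ℚ
      (ModularCurve.divisorExpansions M) → ∀ (hx : x ∈ modularFunctionFieldFull (p * M)),
      (atkinLehner hco ⟨x, hx⟩ : LaurentSeries ℚ) = qExpand ℚ p x from this y.1 y.2 _
  intro x hx
  induction hx using IntermediateField.adjoin_induction with
  | mem x hx =>
    intro hx'
    obtain ⟨d, hne, hd, rfl⟩ := hx
    have : NeZero (p * d) := ⟨Nat.mul_ne_zero hp.out.ne_zero (NeZero.ne d)⟩
    rw [(atkinLehner_qExpand hco hd).1, qExpand_qExpand]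
  | algebraMap c =>
    intro hx'
    rw [show (⟨algebraMap ℚ (LaurentSeries ℚ) c, hx'⟩ : modularFunctionFieldFull (p * M))
      = (c : modularFunctionFieldFull (p * M)) from Subtype.ext (by simp), map_ratCast,
      SubfieldClass.coe_ratCast, ← eq_ratCast (algebraMap ℚ (LaurentSeries ℚ))]
    exact ((qExpandₐ p).commutes c).symm
  | add a b ha hb iha ihb =>
    intro hx'
    have ha' := full_degeneracy_le (dvd_mul_left M p) ha
    have hb' := full_degeneracy_le (dvd_mul_left M p) hb
    rw [show (⟨a + b, hx'⟩ : modularFunctionFieldFull (p * M)) = ⟨a, ha'⟩ + ⟨b, hb'⟩ from rfl,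
      map_add, AddMemClass.coe_add, iha, ihb, map_add]
  | inv a ha iha =>
    intro hx'
    have ha' := full_degeneracy_le (dvd_mul_left M p) ha
    rw [show (⟨a⁻¹, hx'⟩ : modularFunctionFieldFull (p * M))
      = (⟨a, ha'⟩ : modularFunctionFieldFull (p * M))⁻¹ from rfl, map_inv₀]
    exact (congrArg (·⁻¹) (iha ha')).trans (map_inv₀ (qExpand ℚ p) a).symm
  | mul a b ha hb iha ihb =>
    intro hx'
    have ha' := full_degeneracy_le (dvd_mul_left M p) ha
    have hb' := full_degeneracy_le (dvd_mul_left M p) hb
    rw [show (⟨a * b, hx'⟩ : modularFunctionFieldFull (p * M)) = ⟨a, ha'⟩ * ⟨b, hb'⟩ from rfl,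
      map_mul, MulMemClass.coe_mul, iha, ihb, map_mul]

/-- The composite of the first degeneracy map with the involution is the second one. -/
theorem coe_atkinLehnerBar_levelIncl (z : Fbot) :
    (atkinLehnerBar hco K (levelIncl p M K z) : LaurentSeries K) = qExpand K p z := by
  let β : LaurentSeries K →ₐ[K] LaurentSeries K :=
    { qExpand K p with
      commutes' := fun a => by
        show qExpand K p (algebraMap K (LaurentSeries K) a) = _
        rw [algebraMap_laurentSeries_eq_single, qExpand_single, mul_zero] }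
  refine DFunLike.congr_fun (show ((Ftop).val.comp ((atkinLehnerBar hco K).toAlgHom.comp
    (levelIncl p M K))) = β.comp (Fbot).val from algHom_ext_toBaseChange K fun y => ?_) z
  show (atkinLehnerBar hco K (levelIncl p M K (toBaseChange K _ y)) : LaurentSeries K) =
    qExpand K p (toBaseChange K _ y : LaurentSeries K)
  rw [show levelIncl p M K (toBaseChange K _ y) = toBaseChange K _
      ⟨(y : LaurentSeries ℚ), full_degeneracy_le (dvd_mul_left M p) y.2⟩ from Subtype.ext rfl,
    atkinLehnerBar_toBaseChange, coe_toBaseChange, coe_toBaseChange,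
    coe_atkinLehner_of_full hco y]
  exact (coeffMap_qExpand _ p _)

/-- The operator: the norm along the second map divided by the argument. -/
def upNorm : Ftop →* Ftop where
  toFun x := levelIncl p M K (normAlong (levelIncl p M K) (atkinLehnerBar hco K x)) *
    (atkinLehnerBar hco K x)⁻¹
  map_one' := by
    let := algebraAlong (levelIncl p M K)
    show levelIncl p M K (Algebra.norm Fbot (atkinLehnerBar hco K 1)) * _ = 1
    rw [map_one, map_one, map_one, inv_one, mul_one]
  map_mul' x y := by
    let := algebraAlong (levelIncl p M K)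
    show levelIncl p M K (Algebra.norm Fbot (atkinLehnerBar hco K (x * y))) * _ = _
    rw [map_mul, map_mul, map_mul, mul_inv]
    exact mul_mul_mul_comm _ _ _ _

theorem upNorm_apply (x : Ftop) : upNorm hco K x =
    levelIncl p M K (normAlong (levelIncl p M K) (atkinLehnerBar hco K x)) *
      (atkinLehnerBar hco K x)⁻¹ := rfl

variable {K}

theorem qTwist_qExpand_of_pow_eq_one {ζ : Kˣ} (hζ : ζ ^ p = 1) (z : LaurentSeries K) :
    qTwist ζ (qExpand K p z) = qExpand K p z := by
  ext n
  rw [qTwist_coeff]
  by_cases hn : (p : ℤ) ∣ n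
  · obtain ⟨l, rfl⟩ := hn
    rw [zpow_mul, zpow_natCast, hζ, one_zpow, Units.val_one, one_mul]
  · rw [qExpand_coeff_of_not_dvd _ _ hn, mul_zero]

/-- The conjugates in series in `q ^ (1 / p)`. -/
def conjSeries (ζ : Kˣ) : Option (Fin p) → Ftop →+* LaurentSeries K
  | none => (qExpand K p).comp (Ftop).val.toRingHom
  | some b => ((qTwist (ζ ^ (b : ℕ))).comp (Ftop).val.toRingHom).comp
      (atkinLehnerBar hco K).toRingEquiv.toRingHom

theorem conjSeries_none (ζ : Kˣ) (y : Ftop) :
    conjSeries hco ζ none y = qExpand K p (y : LaurentSeries K) := rfl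

theorem conjSeries_some (ζ : Kˣ) (b : Fin p) (y : Ftop) : conjSeries hco ζ (some b) y =
    qTwist (ζ ^ (b : ℕ)) (atkinLehnerBar hco K y : LaurentSeries K) := rfl

theorem coe_levelIncl_jBar : (levelIncl p M K (jBar K M) : LaurentSeries K) = jqModC K :=
  (coe_levelIncl K _).trans rfl

/-- **The expansion of the norm.** -/
theorem qExpand_normAlong {ζ : Kˣ} (hζ : IsPrimitiveRoot ζ p) (y : Ftop) :
    qExpand K p ((normAlong (levelIncl p M K) y : Fbot) : LaurentSeries K) =
      qExpand K p (y : LaurentSeries K) * ∏ b ∈ Finset.range p,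
        qTwist (ζ ^ b) (atkinLehnerBar hco K y : LaurentSeries K) := by
  have : CharZero K := charZero_of_injective_algebraMap (algebraMap ℚ K).injective
  have : CharZero Fbot := charZero_of_injective_algebraMap (algebraMap K Fbot).injective
  let f : Fbot →+* LaurentSeries K := (qExpand K p).comp (Fbot).val.toRingHom
  have hσ : ∀ i a, conjSeries hco ζ i (levelIncl p M K a) = f a := by
    rintro (_ | b) a
    · rw [conjSeries_none, coe_levelIncl]; rfl
    · rw [conjSeries_some, coe_atkinLehnerBar_levelIncl]
      exact qTwist_qExpand_of_pow_eq_one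
        (by rw [← pow_mul, mul_comm, pow_mul, hζ.pow_eq_one, one_pow]) _
  set x₀ := atkinLehnerBar hco K (levelIncl p M K (jBar K M))
  have hj : (atkinLehnerBar hco K x₀ : LaurentSeries K) = jqModC K := by
    rw [atkinLehnerBar_atkinLehnerBar, coe_levelIncl_jBar]
  have hinj : Function.Injective fun i => conjSeries hco ζ i x₀ := by
    have hnone : (conjSeries hco ζ none x₀).coeff (-1) = 0 := by
      rw [conjSeries_none]
      refine qExpand_coeff_of_not_dvd _ _ fun h => ?_
      have h1 : (p : ℤ) ∣ 1 := by simpa using h.neg_right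
      exact hp.out.ne_one (Nat.dvd_one.mp (Int.natCast_dvd_natCast.mp h1))
    have hsome : ∀ b : Fin p, (conjSeries hco ζ (some b) x₀).coeff (-1) =
        (((ζ ^ (b : ℕ))⁻¹ : Kˣ) : K) := fun b => by
      rw [conjSeries_some, hj, qTwist_coeff, coeff_jqModC_neg_one, mul_one, zpow_neg_one]
    rintro (_ | a) (_ | b) h
    · rfl
    · exact absurd ((congrArg (fun z : LaurentSeries K => z.coeff (-1)) h).symm.trans hnone)
        (by rw [hsome]; exact Units.ne_zero _)
    · exact absurd ((congrArg (fun z : LaurentSeries K => z.coeff (-1)) h).trans hnone)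
        (by rw [hsome]; exact Units.ne_zero _)
    · have h' := congrArg (fun z : LaurentSeries K => z.coeff (-1)) h
      simp only [hsome] at h'
      exact congrArg some (Fin.ext (hζ.pow_inj a.2 b.2 (inv_injective (Units.ext h'))))
  let := algebraAlong (levelIncl p M K)
  haveI : FiniteDimensional Fbot Ftop := finiteAlong_levelIncl hco K
  have key := map_norm_eq_prod_of_le f (conjSeries hco ζ) hσ x₀ hinj
    (le_of_eq (by rw [Fintype.card_option, Fintype.card_fin]; exact finrankAlong_levelIncl hco K)) y
  refine key.trans ?_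
  rw [Fintype.prod_option, ← Fin.prod_univ_eq_prod_range, conjSeries_none]
  exact congrArg _ (Finset.prod_congr rfl fun b _ => conjSeries_some hco ζ b y)

/-- **The expansion of `upNorm`.** -/
theorem qExpand_upNorm {ζ : Kˣ} (hζ : IsPrimitiveRoot ζ p) (x : Ftop) :
    qExpand K p (upNorm hco K x : LaurentSeries K) =
      ∏ b ∈ Finset.range p, qTwist (ζ ^ b) (x : LaurentSeries K) := by
  rcases eq_or_ne x 0 with rfl | hx
  · let := algebraAlong (levelIncl p M K)
    rw [upNorm_apply, map_zero, inv_zero, mul_zero]
    simp [Finset.prod_eq_zero (Finset.mem_range.mpr hp.out.pos)]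
  rw [upNorm_apply, MulMemClass.coe_mul, map_mul, coe_levelIncl,
    qExpand_normAlong hco hζ, atkinLehnerBar_atkinLehnerBar, IntermediateField.coe_inv,
    map_inv₀, mul_comm (qExpand K p _) (∏ _ ∈ _, _), mul_assoc, mul_inv_cancel₀, mul_one]
  rw [map_ne_zero_iff _ (qExpand_injective (R := K) p)]
  simpa using hx

theorem upNorm_algebraMap {ζ : Kˣ} (hζ : IsPrimitiveRoot ζ p) (c : K) :
    upNorm hco K (algebraMap K Ftop c) = algebraMap K Ftop (c ^ p) := by
  refine Subtype.ext (qExpand_injective (R := K) p ?_)
  rw [qExpand_upNorm hco hζ, IntermediateField.coe_algebraMap_apply,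
    IntermediateField.coe_algebraMap_apply, algebraMap_laurentSeries_eq_single,
    algebraMap_laurentSeries_eq_single, qExpand_single, mul_zero]
  simp only [qTwist_single, zpow_zero, Units.val_one, one_mul]
  rw [Finset.prod_const, Finset.card_range, HahnSeries.single_pow, nsmul_zero]

/-- Galois automorphisms commute with `upNorm`. -/
theorem upNorm_arithmeticRingAut {ζ : Kˣ} (hζ : IsPrimitiveRoot ζ p) (σ : K ≃ₐ[ℚ] K) (x : Ftop) :
    upNorm hco K (arithmeticRingAut _ σ x) = arithmeticRingAut _ σ (upNorm hco K x) := by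
  refine Subtype.ext (qExpand_injective (R := K) p ?_)
  set ζ' : Kˣ := Units.map (σ : K →+* K).toMonoidHom ζ
  have hζ' : IsPrimitiveRoot ζ' p :=
    hζ.map_of_injective (f := Units.map (σ : K →+* K).toMonoidHom)
      (Units.map_injective σ.injective)
  rw [qExpand_upNorm hco hζ', coe_arithmeticRingAut_apply, coe_arithmeticRingAut_apply,
    ← coeffMap_qExpand, qExpand_upNorm hco hζ, map_prod]
  exact Finset.prod_congr rfl fun b _ => by rw [coeffMap_qTwist, map_pow]

end FermatAgent.BadRed.AtP
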