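import Fermat.Agent.ES.Twist
import Fermat.Prelude.Def_ModularCurve_X0
import Fermat.Prelude.Thm_ModularCurve_coeffMap_qExpand
import Mathlib.RingTheory.RootsOfUnity.PrimitiveRoots

/-!
# Products over the twists `q ↦ u ^ b q`

For a primitive `p`-th root of unity `u` in a domain, the product of the twists of a series is a
series in `q ^ p` and their sum is `p` times one.
-/

set_option autoImplicit false
set_option linter.unusedSectionVars false

noncomputable section

open ModularCurve

namespace FermatAgent.BadRed.AtP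

open FermatAgent.ES

variable {R : Type*} [CommRing R] {p : ℕ} [NeZero p]

theorem qTwist_mul_apply (u c : Rˣ) (f : LaurentSeries R) :
    qTwist u (qTwist c f) = qTwist (u * c) f := by
  ext n
  rw [qTwist_coeff, qTwist_coeff, qTwist_coeff, mul_zpow, Units.val_mul, mul_assoc]

/-- The product of the twists. -/
def twistProd' (p : ℕ) (u : Rˣ) (f : LaurentSeries R) : LaurentSeries R :=
  ∏ b ∈ Finset.range p, qTwist (u ^ b) f

theorem twistProd'_mul (u : Rˣ) (f g : LaurentSeries R) :
    twistProd' p u (f * g) = twistProd' p u f * twistProd' p u g := by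
  simp only [twistProd', map_mul, Finset.prod_mul_distrib]

theorem coeffMap_twistProd' {S : Type*} [CommRing S] (φ : R →+* S) (u : Rˣ) (f : LaurentSeries R) :
    coeffMap φ (twistProd' p u f) =
      twistProd' p (Units.map φ.toMonoidHom u) (coeffMap φ f) := by
  simp only [twistProd', map_prod, coeffMap_qTwist, map_pow]

theorem qTwist_twistProd' {u : Rˣ} (hu : u ^ p = 1) (f : LaurentSeries R) :
    qTwist u (twistProd' p u f) = twistProd' p u f := by
  obtain ⟨m, rfl⟩ : ∃ m, p = m + 1 := ⟨p - 1, (Nat.sub_add_cancel (NeZero.one_le)).symm⟩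
  simp only [twistProd', map_prod, qTwist_mul_apply, ← pow_succ']
  rw [Finset.prod_range_succ (fun b => qTwist (u ^ (b + 1)) f),
    Finset.prod_range_succ' (fun b => qTwist (u ^ b) f), hu, pow_zero]

/-- A series in `q ^ p`, as a series in `q`. -/
def qShrink (p : ℕ) [NeZero p] (f : LaurentSeries R) : LaurentSeries R :=
  HahnSeries.ofSuppBddBelow (fun n => f.coeff ((p : ℤ) * n)) ⟨min f.order 0, fun n hn => by
    by_contra h
    refine hn (HahnSeries.coeff_eq_zero_of_lt_order ?_)
    have hp : (1 : ℤ) ≤ p := by exact_mod_cast NeZero.one_le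
    have h1 : n < 0 := lt_of_lt_of_le (not_le.mp h) (min_le_right _ _)
    have h2 : n < f.order := lt_of_lt_of_le (not_le.mp h) (min_le_left _ _)
    nlinarith⟩

theorem coeff_qShrink (f : LaurentSeries R) (n : ℤ) :
    (qShrink p f).coeff n = f.coeff ((p : ℤ) * n) := rfl

theorem qExpand_qShrink {f : LaurentSeries R}
    (hf : ∀ n, ¬ (p : ℤ) ∣ n → f.coeff n = 0) : qExpand R p (qShrink p f) = f := by
  ext n
  by_cases h : (p : ℤ) ∣ n
  · obtain ⟨l, rfl⟩ := h
    rw [qExpand_coeff_mul, coeff_qShrink]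
  · rw [qExpand_coeff_of_not_dvd _ _ h, hf n h]

theorem qShrink_C_mul (c : R) (f : LaurentSeries R) :
    qShrink p (HahnSeries.C c * f) = HahnSeries.C c * qShrink p f := by
  ext n
  simp only [coeff_qShrink, HahnSeries.C_mul_eq_smul, HahnSeries.coeff_smul]

variable [IsDomain R] {u : Rˣ}

theorem zpow_ne_one_of_not_dvd (hu : IsPrimitiveRoot u p) {n : ℤ} (hn : ¬ (p : ℤ) ∣ n) :
    ((u ^ n : Rˣ) : R) ≠ 1 := fun h =>
  hn ((hu.zpow_eq_one_iff_dvd n).mp (Units.ext h))

theorem coeff_eq_zero_of_qTwist_eq (hu : IsPrimitiveRoot u p) {f : LaurentSeries R}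
    (hf : qTwist u f = f) {n : ℤ} (hn : ¬ (p : ℤ) ∣ n) : f.coeff n = 0 := by
  have h := congrArg (fun g : LaurentSeries R => g.coeff n) hf
  simp only [qTwist_coeff] at h
  have h' : (((u ^ n : Rˣ) : R) - 1) * f.coeff n = 0 := by rw [sub_mul, one_mul, h, sub_self]
  exact (mul_eq_zero.mp h').resolve_left (sub_ne_zero.mpr (zpow_ne_one_of_not_dvd hu hn))

theorem qExpand_qShrink_twistProd' (hu : IsPrimitiveRoot u p) (f : LaurentSeries R) :
    qExpand R p (qShrink p (twistProd' p u f)) = twistProd' p u f :=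
  qExpand_qShrink fun _ hn => coeff_eq_zero_of_qTwist_eq hu (qTwist_twistProd' hu.pow_eq_one f) hn

/-- The sum of the twists is `p` times a series. -/
theorem exists_sum_qTwist (hu : IsPrimitiveRoot u p) (f : LaurentSeries R) :
    ∃ g : LaurentSeries R, ∑ b ∈ Finset.range p, qTwist (u ^ b) f = HahnSeries.C (p : R) * g := by
  refine ⟨qExpand R p (qShrink p f), ?_⟩
  ext n
  rw [HahnSeries.coeff_sum, HahnSeries.C_mul_eq_smul, HahnSeries.coeff_smul, smul_eq_mul]
  simp only [qTwist_coeff]
  have e : ∀ b : ℕ, (((u ^ b) ^ n : Rˣ) : R) = ((u ^ n : Rˣ) : R) ^ b := fun b => by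
    rw [← Units.val_pow_eq_pow_val, ← zpow_natCast, ← zpow_natCast (u ^ n), ← zpow_mul, ← zpow_mul,
      mul_comm]
  simp only [e, ← Finset.sum_mul]
  by_cases h : (p : ℤ) ∣ n
  · obtain ⟨l, rfl⟩ := h
    rw [qExpand_coeff_mul, coeff_qShrink, zpow_mul, zpow_natCast, hu.pow_eq_one, one_zpow]
    simp
  · rw [qExpand_coeff_of_not_dvd _ _ h, mul_zero]
    have hg := geom_sum_mul ((u ^ n : Rˣ) : R) p
    have h1 : ((u ^ n : Rˣ) : R) ^ p = 1 := by
      rw [← Units.val_pow_eq_pow_val, ← zpow_natCast, zpow_comm, zpow_natCast, hu.pow_eq_one,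
        one_zpow, Units.val_one]
    rw [h1, sub_self] at hg
    rw [(mul_eq_zero.mp hg).resolve_right (sub_ne_zero.mpr (zpow_ne_one_of_not_dvd hu h)),
      zero_mul]

/-- The product of translates of a common series, to first order. -/
theorem exists_prod_add (s : Finset ℕ) (Z ε : LaurentSeries R) (a : ℕ → LaurentSeries R) :
    ∃ r, (∏ b ∈ s, (Z + ε * a b)) * Z =
      Z ^ (s.card + 1) + ε * Z ^ s.card * (∑ b ∈ s, a b) + ε ^ 2 * r := by
  classical
  induction s using Finset.induction_on with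
  | empty => exact ⟨0, by simp⟩
  | insert i s hi ih =>
    obtain ⟨r, hr⟩ := ih
    refine ⟨r * Z + r * ε * a i + Z ^ s.card * (∑ b ∈ s, a b) * a i, ?_⟩
    rw [Finset.prod_insert hi, mul_assoc, hr, Finset.card_insert_of_notMem hi,
      Finset.sum_insert hi]
    ring

end FermatAgent.BadRed.AtP
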